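import Fermat.Prelude.Def_GaloisRep_Adic
import Mathlib.LinearAlgebra.Matrix.ToLin
import Mathlib.LinearAlgebra.Matrix.NonsingularInverse
import Mathlib.RingTheory.Ideal.Operations

/-!
# S53: dictionary between `GaloisRepAdic A` and matrix representations `G →* M₂(A)`

(helper56) All statements are for an arbitrary local ring `A`.
-/

set_option autoImplicit false
set_option linter.unusedSectionVars false
set_option linter.style.haveILetI false

namespace Fermat.Agent.S53.helper56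

open IsLocalRing

/-- The absolute Galois group of `ℚ`. -/
abbrev Gal : Type := AlgebraicClosure ℚ ≃ₐ[ℚ] AlgebraicClosure ℚ

/-- `2 × 2` matrices. -/
abbrev M2 (A : Type) : Type := Matrix (Fin 2) (Fin 2) A

section basic

variable {A : Type} [CommRing A] [IsLocalRing A]

/-- Adic continuity of a matrix representation: for every `n` the representation is trivial
modulo `𝔪 ^ n` on the absolute Galois group of some number field. -/
def MatCont (R : Gal →* M2 A) : Prop :=
  ∀ n : ℕ, ∃ L : IntermediateField ℚ (AlgebraicClosure ℚ), FiniteDimensional ℚ L ∧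
    ∀ σ : Gal, (∀ x ∈ L, σ x = x) → ∀ i j, (R σ - 1) i j ∈ maximalIdeal A ^ n

/-- A vector all of whose coordinates lie in `I` lies in `I • ⊤`. -/
theorem mem_smul_top_of_forall_mem (I : Ideal A) (v : Fin 2 → A) (hv : ∀ i, v i ∈ I) :
    v ∈ I • (⊤ : Submodule A (Fin 2 → A)) := by
  have : v = ∑ i, v i • (Pi.single i (1 : A) : Fin 2 → A) := by
    ext j
    simp [Finset.sum_apply, Pi.single_apply]
  rw [this]
  exact Submodule.sum_mem _ fun i _ => Submodule.smul_mem_smul (hv i) Submodule.mem_top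

/-- Coordinates (in any basis) of an element of `I • ⊤` lie in `I`. -/
theorem repr_mem_of_mem_smul_top {V : Type} [AddCommGroup V] [Module A V]
    (b : Module.Basis (Fin 2) A V) (I : Ideal A) (v : V)
    (hv : v ∈ I • (⊤ : Submodule A V)) (i : Fin 2) : b.repr v i ∈ I := by
  refine Submodule.smul_induction_on (p := fun v => b.repr v i ∈ I) hv ?_ ?_
  · intro a ha w _
    rw [map_smul, Finsupp.smul_apply, smul_eq_mul]
    exact I.mul_mem_right _ ha
  · intro x y hx hy
    rw [map_add, Finsupp.add_apply]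
    exact I.add_mem hx hy

/-- The Galois representation attached to a continuous matrix representation. -/
noncomputable def ofMatrix (R : Gal →* M2 A) (hR : MatCont R) : GaloisRepAdic A where
  V := Fin 2 → A
  finrank_eq := by simp
  ρ := (Matrix.toLinAlgEquiv' (R := A) (n := Fin 2)).toAlgHom.toRingHom.toMonoidHom.comp R
  isAdicContinuous := by
    intro n
    obtain ⟨L, hL, h⟩ := hR n
    refine ⟨L, hL, fun σ hσ v => ?_⟩
    apply mem_smul_top_of_forall_mem
    intro i
    have hval : ((Matrix.toLinAlgEquiv' (R := A) (n := Fin 2)).toAlgHom.toRingHom.toMonoidHom.comp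
        R) σ v - v = (R σ - 1).mulVec v := by
      rw [Matrix.sub_mulVec, Matrix.one_mulVec]
      rfl
    rw [hval, Matrix.mulVec, dotProduct]
    exact Ideal.sum_mem _ fun j _ => Ideal.mul_mem_right _ _ (h σ hσ i j)

@[simp] theorem ofMatrix_V (R : Gal →* M2 A) (hR : MatCont R) : (ofMatrix R hR).V = (Fin 2 → A) :=
  rfl

theorem ofMatrix_ρ_apply (R : Gal →* M2 A) (hR : MatCont R) (σ : Gal) (v : Fin 2 → A) :
    (ofMatrix R hR).ρ σ v = (R σ).mulVec v := rfl

theorem ofMatrix_ρ (R : Gal →* M2 A) (hR : MatCont R) (σ : Gal) :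
    (ofMatrix R hR).ρ σ = Matrix.toLin' (R σ) := rfl


/-- The matrix representation of a Galois representation with respect to a basis. -/
noncomputable def toMatrixHom (ρ : GaloisRepAdic A) (b : Module.Basis (Fin 2) A ρ.V) :
    Gal →* M2 A :=
  (LinearMap.toMatrixAlgEquiv b).toAlgHom.toRingHom.toMonoidHom.comp ρ.ρ

theorem toMatrixHom_apply (ρ : GaloisRepAdic A) (b : Module.Basis (Fin 2) A ρ.V) (σ : Gal) :
    toMatrixHom ρ b σ = LinearMap.toMatrix b b (ρ.ρ σ) := rfl

theorem matCont_toMatrixHom (ρ : GaloisRepAdic A) (b : Module.Basis (Fin 2) A ρ.V) :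
    MatCont (toMatrixHom ρ b) := by
  intro n
  obtain ⟨L, hL, h⟩ := ρ.isAdicContinuous n
  refine ⟨L, hL, fun σ hσ i j => ?_⟩
  have h1 : (toMatrixHom ρ b σ - 1) i j = b.repr (ρ.ρ σ (b j) - b j) i := by
    rw [toMatrixHom_apply, Matrix.sub_apply, LinearMap.toMatrix_apply, map_sub,
      Finsupp.sub_apply, Module.Basis.repr_self, Matrix.one_apply, Finsupp.single_apply]
    by_cases hij : i = j
    · subst hij; simp
    · have : ¬ j = i := fun h => hij h.symm
      simp [hij, this]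
  rw [h1]
  exact repr_mem_of_mem_smul_top b _ _ (h σ hσ (b j)) i

/-- A Galois representation is equivalent to the one attached to its matrix form. -/
noncomputable def equivOfMatrix (ρ : GaloisRepAdic A) (b : Module.Basis (Fin 2) A ρ.V) :
    GaloisRepAdic.Equiv ρ (ofMatrix (toMatrixHom ρ b) (matCont_toMatrixHom ρ b)) where
  toLinearEquiv := b.equivFun
  map_apply σ x := by
    rw [ofMatrix_ρ_apply, toMatrixHom_apply]
    show b.equivFun (ρ.ρ σ x) = (LinearMap.toMatrix b b (ρ.ρ σ)).mulVec (b.equivFun x)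
    rw [Module.Basis.equivFun_apply, Module.Basis.equivFun_apply,
      LinearMap.toMatrix_mulVec_repr]

theorem isEquiv_ofMatrix_toMatrixHom (ρ : GaloisRepAdic A) (b : Module.Basis (Fin 2) A ρ.V) :
    ρ.IsEquiv (ofMatrix (toMatrixHom ρ b) (matCont_toMatrixHom ρ b)) :=
  ⟨equivOfMatrix ρ b⟩

/-- Every `GaloisRepAdic` has a basis indexed by `Fin 2`. -/
theorem nonempty_basis (ρ : GaloisRepAdic A) : Nonempty (Module.Basis (Fin 2) A ρ.V) :=
  ⟨Module.finBasisOfFinrankEq A ρ.V ρ.finrank_eq⟩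

/-- The standard basis of `ofMatrix`. -/
noncomputable def stdBasis (R : Gal →* M2 A) (hR : MatCont R) :
    Module.Basis (Fin 2) A (ofMatrix R hR).V :=
  Pi.basisFun A (Fin 2)

theorem toMatrixHom_ofMatrix (R : Gal →* M2 A) (hR : MatCont R) :
    toMatrixHom (ofMatrix R hR) (stdBasis R hR) = R := by
  ext σ : 1
  rw [toMatrixHom_apply, ofMatrix_ρ]
  show LinearMap.toMatrix (Pi.basisFun A (Fin 2)) (Pi.basisFun A (Fin 2))
    (Matrix.toLin' (R σ)) = R σ
  rw [LinearMap.toMatrix_eq_toMatrix', LinearMap.toMatrix'_toLin']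

end basic

section conj

variable {A : Type} [CommRing A] [IsLocalRing A]

/-- Two Galois representations are equivalent iff their matrix forms (in any bases) are
conjugate. -/
theorem isEquiv_iff_conj (ρ₁ ρ₂ : GaloisRepAdic A) (b₁ : Module.Basis (Fin 2) A ρ₁.V)
    (b₂ : Module.Basis (Fin 2) A ρ₂.V) :
    ρ₁.IsEquiv ρ₂ ↔ ∃ W W' : M2 A, W * W' = 1 ∧ W' * W = 1 ∧
      ∀ σ, W * toMatrixHom ρ₁ b₁ σ = toMatrixHom ρ₂ b₂ σ * W := by
  constructor
  · rintro ⟨e⟩
    refine ⟨LinearMap.toMatrix b₁ b₂ e.toLinearEquiv.toLinearMap,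
      LinearMap.toMatrix b₂ b₁ e.toLinearEquiv.symm.toLinearMap, ?_, ?_, ?_⟩
    · rw [← LinearMap.toMatrix_comp b₂ b₁ b₂, LinearEquiv.comp_symm, LinearMap.toMatrix_id]
    · rw [← LinearMap.toMatrix_comp b₁ b₂ b₁, LinearEquiv.symm_comp, LinearMap.toMatrix_id]
    · intro σ
      rw [toMatrixHom_apply, toMatrixHom_apply, ← LinearMap.toMatrix_comp b₁ b₁ b₂,
        ← LinearMap.toMatrix_comp b₁ b₂ b₂]
      congr 1
      ext x
      exact e.map_apply σ x
  · rintro ⟨W, W', h1, h2, h⟩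
    have hcomp1 : (Matrix.toLin b₁ b₂ W) ∘ₗ (Matrix.toLin b₂ b₁ W') = LinearMap.id := by
      rw [← Matrix.toLin_mul b₂ b₁ b₂, h1, Matrix.toLin_one]
    have hcomp2 : (Matrix.toLin b₂ b₁ W') ∘ₗ (Matrix.toLin b₁ b₂ W) = LinearMap.id := by
      rw [← Matrix.toLin_mul b₁ b₂ b₁, h2, Matrix.toLin_one]
    refine ⟨⟨LinearEquiv.ofLinearMap (Matrix.toLin b₁ b₂ W) (Matrix.toLin b₂ b₁ W') hcomp1 hcomp2,
      fun σ x => ?_⟩⟩
    show Matrix.toLin b₁ b₂ W (ρ₁.ρ σ x) = ρ₂.ρ σ (Matrix.toLin b₁ b₂ W x)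
    have h3 : (Matrix.toLin b₁ b₂ W) ∘ₗ (ρ₁.ρ σ) = (ρ₂.ρ σ) ∘ₗ (Matrix.toLin b₁ b₂ W) := by
      apply (LinearMap.toMatrix b₁ b₂).injective
      rw [LinearMap.toMatrix_comp b₁ b₁ b₂, LinearMap.toMatrix_comp b₁ b₂ b₂,
        LinearMap.toMatrix_toLin]
      exact h σ
    exact LinearMap.congr_fun h3 x

/-- Conjugacy criterion for `ofMatrix`. -/
theorem isEquiv_ofMatrix_iff (R R' : Gal →* M2 A) (hR : MatCont R) (hR' : MatCont R') :
    (ofMatrix R hR).IsEquiv (ofMatrix R' hR') ↔ ∃ W W' : M2 A, W * W' = 1 ∧ W' * W = 1 ∧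
      ∀ σ, W * R σ = R' σ * W := by
  rw [isEquiv_iff_conj _ _ (stdBasis R hR) (stdBasis R' hR'), toMatrixHom_ofMatrix,
    toMatrixHom_ofMatrix]

/-- Change of basis by an invertible matrix: the matrix form gets conjugated. -/
theorem exists_basis_conj (ρ : GaloisRepAdic A) (b : Module.Basis (Fin 2) A ρ.V)
    (W W' : M2 A) (h1 : W * W' = 1) (h2 : W' * W = 1) :
    ∃ b' : Module.Basis (Fin 2) A ρ.V, ∀ σ, toMatrixHom ρ b' σ = W * toMatrixHom ρ b σ * W' := by
  have hcomp1 : (Matrix.toLin b b W') ∘ₗ (Matrix.toLin b b W) = LinearMap.id := by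
    rw [← Matrix.toLin_mul b b b, h2, Matrix.toLin_one]
  have hcomp2 : (Matrix.toLin b b W) ∘ₗ (Matrix.toLin b b W') = LinearMap.id := by
    rw [← Matrix.toLin_mul b b b, h1, Matrix.toLin_one]
  let e : ρ.V ≃ₗ[A] ρ.V :=
    LinearEquiv.ofLinearMap (Matrix.toLin b b W') (Matrix.toLin b b W) hcomp1 hcomp2
  refine ⟨b.map e, fun σ => ?_⟩
  rw [toMatrixHom_apply, toMatrixHom_apply]
  have key : LinearMap.toMatrix (b.map e) (b.map e) (ρ.ρ σ) =
      LinearMap.toMatrix b b (e.symm.toLinearMap ∘ₗ (ρ.ρ σ) ∘ₗ e.toLinearMap) := by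
    ext i j
    simp [LinearMap.toMatrix_apply, Module.Basis.map_repr]
  rw [key, LinearMap.toMatrix_comp b b b, LinearMap.toMatrix_comp b b b]
  have he : LinearMap.toMatrix b b e.toLinearMap = W' := by
    show LinearMap.toMatrix b b (Matrix.toLin b b W') = W'
    rw [LinearMap.toMatrix_toLin]
  have he' : LinearMap.toMatrix b b e.symm.toLinearMap = W := by
    show LinearMap.toMatrix b b (Matrix.toLin b b W) = W
    rw [LinearMap.toMatrix_toLin]
  rw [he, he', mul_assoc]

end conj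

section baseChange

open scoped TensorProduct

variable {A B : Type} [CommRing A] [IsLocalRing A] [CommRing B] [IsLocalRing B]

/-- Entrywise image of a matrix representation under a ring homomorphism. -/
noncomputable def mapHom (φ : A →+* B) (R : Gal →* M2 A) : Gal →* M2 B :=
  (φ.mapMatrix (m := Fin 2)).toMonoidHom.comp R

theorem mapHom_apply (φ : A →+* B) (R : Gal →* M2 A) (σ : Gal) :
    mapHom φ R σ = (R σ).map φ := rfl

theorem map_maximalIdeal_pow_le (φ : A →+* B) (hφ : IsLocalHom φ) (n : ℕ) :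
    (maximalIdeal A ^ n).map φ ≤ maximalIdeal B ^ n := by
  rw [Ideal.map_pow]
  exact Ideal.pow_right_mono (Ideal.map_le_iff_le_comap.mpr fun a ha =>
    Ideal.mem_comap.mpr (haveI := hφ; map_nonunit φ a ha)) n

theorem matCont_mapHom (φ : A →+* B) (hφ : IsLocalHom φ) (R : Gal →* M2 A) (hR : MatCont R) :
    MatCont (mapHom φ R) := by
  intro n
  obtain ⟨L, hL, h⟩ := hR n
  refine ⟨L, hL, fun σ hσ i j => ?_⟩
  have h1 : (mapHom φ R σ - 1) i j = φ ((R σ - 1) i j) := by
    rw [mapHom_apply, Matrix.sub_apply, Matrix.sub_apply, Matrix.map_apply, map_sub,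
      Matrix.one_apply, Matrix.one_apply]
    by_cases hij : i = j <;> simp [hij]
  rw [h1]
  exact map_maximalIdeal_pow_le φ hφ n (Ideal.mem_map_of_mem φ (h σ hσ i j))

/-- The basis of the base change induced by a basis. -/
noncomputable def bcBasis (φ : A →+* B) (hφ : IsLocalHom φ) (ρ : GaloisRepAdic A)
    (b : Module.Basis (Fin 2) A ρ.V) : Module.Basis (Fin 2) B (ρ.baseChangeAlong φ hφ).V :=
  letI : Algebra A B := φ.toAlgebra
  Algebra.TensorProduct.basis B b

theorem toMatrixHom_baseChangeAlong (φ : A →+* B) (hφ : IsLocalHom φ) (ρ : GaloisRepAdic A)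
    (b : Module.Basis (Fin 2) A ρ.V) (σ : Gal) :
    toMatrixHom (ρ.baseChangeAlong φ hφ) (bcBasis φ hφ ρ b) σ = (toMatrixHom ρ b σ).map φ := by
  letI : Algebra A B := φ.toAlgebra
  exact LinearMap.toMatrix_baseChange B (ρ.ρ σ) b b

/-- Base change of `ofMatrix` is `ofMatrix` of the entrywise image. -/
theorem isEquiv_baseChangeAlong_ofMatrix (φ : A →+* B) (hφ : IsLocalHom φ) (R : Gal →* M2 A)
    (hR : MatCont R) :
    ((ofMatrix R hR).baseChangeAlong φ hφ).IsEquiv
      (ofMatrix (mapHom φ R) (matCont_mapHom φ hφ R hR)) := by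
  rw [isEquiv_iff_conj _ _ (bcBasis φ hφ _ (stdBasis R hR)) (stdBasis _ _)]
  refine ⟨1, 1, one_mul 1, one_mul 1, fun σ => ?_⟩
  rw [toMatrixHom_baseChangeAlong, toMatrixHom_ofMatrix, toMatrixHom_ofMatrix, one_mul, mul_one,
    mapHom_apply]

end baseChange

section residualRep

open scoped TensorProduct

variable {k k' : Type} [Field k] [Field k']

/-- The matrix form of a residual representation with respect to a basis. -/
noncomputable def rMat (ρbar : ResidualGaloisRep k) (b : Module.Basis (Fin 2) k ρbar.V) :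
    Gal →* M2 k :=
  (LinearMap.toMatrixAlgEquiv b).toAlgHom.toRingHom.toMonoidHom.comp ρbar.ρ

theorem rMat_apply (ρbar : ResidualGaloisRep k) (b : Module.Basis (Fin 2) k ρbar.V) (σ : Gal) :
    rMat ρbar b σ = LinearMap.toMatrix b b (ρbar.ρ σ) := rfl

/-- Every residual representation has a basis indexed by `Fin 2`. -/
theorem nonempty_rbasis (ρbar : ResidualGaloisRep k) :
    Nonempty (Module.Basis (Fin 2) k ρbar.V) :=
  ⟨Module.finBasisOfFinrankEq k ρbar.V ρbar.finrank_eq⟩

/-- Two residual representations are equivalent iff their matrix forms are conjugate. -/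
theorem rIsEquiv_iff_conj (ρ₁ ρ₂ : ResidualGaloisRep k) (b₁ : Module.Basis (Fin 2) k ρ₁.V)
    (b₂ : Module.Basis (Fin 2) k ρ₂.V) :
    ρ₁.IsEquiv ρ₂ ↔ ∃ W W' : M2 k, W * W' = 1 ∧ W' * W = 1 ∧
      ∀ σ, W * rMat ρ₁ b₁ σ = rMat ρ₂ b₂ σ * W := by
  constructor
  · rintro ⟨e⟩
    refine ⟨LinearMap.toMatrix b₁ b₂ e.toLinearEquiv.toLinearMap,
      LinearMap.toMatrix b₂ b₁ e.toLinearEquiv.symm.toLinearMap, ?_, ?_, ?_⟩
    · rw [← LinearMap.toMatrix_comp b₂ b₁ b₂, LinearEquiv.comp_symm, LinearMap.toMatrix_id]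
    · rw [← LinearMap.toMatrix_comp b₁ b₂ b₁, LinearEquiv.symm_comp, LinearMap.toMatrix_id]
    · intro σ
      rw [rMat_apply, rMat_apply, ← LinearMap.toMatrix_comp b₁ b₁ b₂,
        ← LinearMap.toMatrix_comp b₁ b₂ b₂]
      congr 1
      ext x
      exact e.map_apply σ x
  · rintro ⟨W, W', h1, h2, h⟩
    have hcomp1 : (Matrix.toLin b₁ b₂ W) ∘ₗ (Matrix.toLin b₂ b₁ W') = LinearMap.id := by
      rw [← Matrix.toLin_mul b₂ b₁ b₂, h1, Matrix.toLin_one]
    have hcomp2 : (Matrix.toLin b₂ b₁ W') ∘ₗ (Matrix.toLin b₁ b₂ W) = LinearMap.id := by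
      rw [← Matrix.toLin_mul b₁ b₂ b₁, h2, Matrix.toLin_one]
    refine ⟨⟨LinearEquiv.ofLinearMap (Matrix.toLin b₁ b₂ W) (Matrix.toLin b₂ b₁ W') hcomp1 hcomp2,
      fun σ x => ?_⟩⟩
    show Matrix.toLin b₁ b₂ W (ρ₁.ρ σ x) = ρ₂.ρ σ (Matrix.toLin b₁ b₂ W x)
    have h3 : (Matrix.toLin b₁ b₂ W) ∘ₗ (ρ₁.ρ σ) = (ρ₂.ρ σ) ∘ₗ (Matrix.toLin b₁ b₂ W) := by
      apply (LinearMap.toMatrix b₁ b₂).injective
      rw [LinearMap.toMatrix_comp b₁ b₁ b₂, LinearMap.toMatrix_comp b₁ b₂ b₂,
        LinearMap.toMatrix_toLin]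
      exact h σ
    exact LinearMap.congr_fun h3 x

/-- The basis of `ρbar.baseChange K` induced by a basis of `ρbar`. -/
noncomputable def rbcBasis' (K : Type) [Field K] [Algebra k K] (ρbar : ResidualGaloisRep k)
    (b : Module.Basis (Fin 2) k ρbar.V) : Module.Basis (Fin 2) K (ρbar.baseChange K).V :=
  Algebra.TensorProduct.basis K b

theorem rMat_baseChange (K : Type) [Field K] [Algebra k K] (ρbar : ResidualGaloisRep k)
    (b : Module.Basis (Fin 2) k ρbar.V) (σ : Gal) :
    rMat (ρbar.baseChange K) (rbcBasis' K ρbar b) σ = (rMat ρbar b σ).map (algebraMap k K) :=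
  LinearMap.toMatrix_baseChange K (ρbar.ρ σ) b b

/-- The basis of `ρbar.baseChangeAlong ψ` induced by a basis of `ρbar`. -/
noncomputable def rbcBasis (ψ : k →+* k') (ρbar : ResidualGaloisRep k)
    (b : Module.Basis (Fin 2) k ρbar.V) : Module.Basis (Fin 2) k' (ρbar.baseChangeAlong ψ).V :=
  letI : Algebra k k' := ψ.toAlgebra
  Algebra.TensorProduct.basis k' b

theorem rMat_baseChangeAlong (ψ : k →+* k') (ρbar : ResidualGaloisRep k)
    (b : Module.Basis (Fin 2) k ρbar.V) (σ : Gal) :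
    rMat (ρbar.baseChangeAlong ψ) (rbcBasis ψ ρbar b) σ = (rMat ρbar b σ).map ψ := by
  letI : Algebra k k' := ψ.toAlgebra
  exact LinearMap.toMatrix_baseChange k' (ρbar.ρ σ) b b

end residualRep

section residual

open scoped TensorProduct

variable {A : Type} [CommRing A] [IsLocalRing A]

/-- The basis of the residual representation induced by a basis. -/
noncomputable def resBasis (ρ : GaloisRepAdic A) (b : Module.Basis (Fin 2) A ρ.V) :
    Module.Basis (Fin 2) (ResidueField A) ρ.residual.V :=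
  Algebra.TensorProduct.basis (ResidueField A) b

theorem rMat_residual (ρ : GaloisRepAdic A) (b : Module.Basis (Fin 2) A ρ.V) (σ : Gal) :
    rMat ρ.residual (resBasis ρ b) σ = (toMatrixHom ρ b σ).map (residue A) :=
  LinearMap.toMatrix_baseChange (ResidueField A) (ρ.ρ σ) b b

/-- A matrix over a local ring whose reduction is invertible is invertible. -/
theorem exists_inv_of_map_residue (W : M2 A) (Wb' : M2 (ResidueField A))
    (h : W.map (residue A) * Wb' = 1) :
    ∃ W' : M2 A, W * W' = 1 ∧ W' * W = 1 ∧ W'.map (residue A) = Wb' := by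
  have hdet : IsUnit W.det := by
    have h1 : (W.map (residue A)).det * Wb'.det = 1 := by
      rw [← Matrix.det_mul, h, Matrix.det_one]
    have h2 : residue A W.det ≠ 0 := by
      intro h0
      have : (W.map (residue A)).det = residue A W.det := by
        rw [← RingHom.mapMatrix_apply, ← RingHom.map_det]
      rw [this, h0, zero_mul] at h1
      exact zero_ne_one h1
    by_contra hnu
    exact h2 ((residue_eq_zero_iff _).mpr ((mem_maximalIdeal _).mpr hnu))
  refine ⟨W⁻¹, Matrix.mul_nonsing_inv W hdet, Matrix.nonsing_inv_mul W hdet, ?_⟩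
  have h3 : (W⁻¹).map (residue A) * W.map (residue A) = 1 := by
    rw [← Matrix.map_mul, Matrix.nonsing_inv_mul W hdet, Matrix.map_one _ (map_zero _) (map_one _)]
  calc (W⁻¹).map (residue A) = (W⁻¹).map (residue A) * (W.map (residue A) * Wb') := by
        rw [h, mul_one]
    _ = Wb' := by rw [← mul_assoc, h3, one_mul]

/-- Entrywise lift of a matrix over the residue field. -/
theorem exists_lift_matrix (Wb : M2 (ResidueField A)) : ∃ W : M2 A, W.map (residue A) = Wb := by
  choose f hf using fun i j => residue_surjective (R := A) (Wb i j)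
  exact ⟨Matrix.of f, by ext i j; simp [hf i j]⟩

/-- The residual representation of `ρ` is equivalent to (a base change of) `ρbar` iff `ρ` has a
basis in which its matrix form reduces to the matrix form of `ρbar`. -/
theorem residual_isEquiv_iff {k : Type} [Field k] (ρ : GaloisRepAdic A)
    (ρbar : ResidualGaloisRep k) (ψ : k →+* ResidueField A)
    (bbar : Module.Basis (Fin 2) k ρbar.V) :
    ρ.residual.IsEquiv (ρbar.baseChangeAlong ψ) ↔
      ∃ b : Module.Basis (Fin 2) A ρ.V,
        ∀ σ, (toMatrixHom ρ b σ).map (residue A) = (rMat ρbar bbar σ).map ψ := by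
  constructor
  · intro h
    obtain ⟨b₀⟩ := nonempty_basis ρ
    rw [rIsEquiv_iff_conj _ _ (resBasis ρ b₀) (rbcBasis ψ ρbar bbar)] at h
    obtain ⟨Wb, Wb', h1, h2, hconj⟩ := h
    obtain ⟨W, hW⟩ := exists_lift_matrix Wb
    obtain ⟨W', hWW', hW'W, hW'⟩ := exists_inv_of_map_residue W Wb' (by rw [hW, h1])
    obtain ⟨b, hb⟩ := exists_basis_conj ρ b₀ W W' hWW' hW'W
    refine ⟨b, fun σ => ?_⟩
    rw [hb σ, Matrix.map_mul, Matrix.map_mul, hW, hW', ← rMat_residual, hconj σ,
      rMat_baseChangeAlong, mul_assoc, h1, mul_one]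
  · rintro ⟨b, hb⟩
    rw [rIsEquiv_iff_conj _ _ (resBasis ρ b) (rbcBasis ψ ρbar bbar)]
    refine ⟨1, 1, one_mul 1, one_mul 1, fun σ => ?_⟩
    rw [rMat_residual, rMat_baseChangeAlong, hb σ, one_mul, mul_one]

end residual

end Fermat.Agent.S53.helper56
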