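import Fermat.Prelude.Def_GaloisRep_Residual
import Mathlib.LinearAlgebra.Eigenspace.Triangularizable
import Mathlib.LinearAlgebra.Matrix.ToLin
import Mathlib.FieldTheory.IsAlgClosed.AlgebraicClosure

/-!
# S53-WP4: Schur's lemma for an absolutely irreducible residual representation (matrix form)
-/

set_option autoImplicit false

namespace Fermat.Agent.S53.helper56

open scoped TensorProduct

/-- Schur's lemma (endomorphism form): an endomorphism commuting with an absolutely irreducible
residual representation is a scalar. -/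
theorem schur_end {k : Type} [Field k] (ρbar : ResidualGaloisRep k)
    (habs : ρbar.IsAbsolutelyIrreducible) (f : Module.End k ρbar.V)
    (hf : ∀ g, f ∘ₗ ρbar.ρ g = ρbar.ρ g ∘ₗ f) :
    ∃ c : k, f = c • (1 : Module.End k ρbar.V) := by
  classical
  set K := AlgebraicClosure k with hK
  -- the base-changed endomorphism
  set F : Module.End K (K ⊗[k] ρbar.V) := f.baseChange K with hF
  have hcomm : ∀ g (x : K ⊗[k] ρbar.V),
      F ((ρbar.baseChange K).ρ g x) = (ρbar.baseChange K).ρ g (F x) := by
    intro g x
    show (f.baseChange K) (((ρbar.ρ g).baseChange K) x) =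
      ((ρbar.ρ g).baseChange K) ((f.baseChange K) x)
    rw [← LinearMap.comp_apply, ← LinearMap.baseChange_comp, hf g, LinearMap.baseChange_comp,
      LinearMap.comp_apply]
  have : Module.Finite K (K ⊗[k] ρbar.V) := inferInstance
  have hrank : Module.finrank K (K ⊗[k] ρbar.V) = 2 := by
    rw [Module.finrank_baseChange, ρbar.finrank_eq]
  have : Nontrivial (K ⊗[k] ρbar.V) :=
    Module.nontrivial_of_finrank_pos (R := K) (by rw [hrank]; norm_num)
  obtain ⟨μ, hμ⟩ := Module.End.exists_eigenvalue F
  -- the eigenspace is stable, hence everything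
  have hstab : ∀ g, ∀ x ∈ Module.End.eigenspace F μ,
      (ρbar.baseChange K).ρ g x ∈ Module.End.eigenspace F μ := by
    intro g x hx
    rw [Module.End.mem_eigenspace_iff] at hx ⊢
    rw [hcomm g x, hx, map_smul]
  have htop : Module.End.eigenspace F μ = ⊤ := by
    rcases habs (Module.End.eigenspace F μ) hstab with h | h
    · exact absurd h hμ
    · exact h
  have hFμ : ∀ x : K ⊗[k] ρbar.V, F x = μ • x := by
    intro x
    have : x ∈ Module.End.eigenspace F μ := by rw [htop]; exact Submodule.mem_top
    exact Module.End.mem_eigenspace_iff.mp this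
  -- descend using a basis
  let b : Module.Basis (Fin 2) k ρbar.V := Module.finBasisOfFinrankEq k ρbar.V ρbar.finrank_eq
  have key : ∀ i j : Fin 2,
      algebraMap k K (b.repr (f (b j)) i) = if i = j then μ else 0 := by
    intro i j
    have h1 : F ((1 : K) ⊗ₜ[k] b j) = (1 : K) ⊗ₜ[k] f (b j) := by
      rw [hF, LinearMap.baseChange_tmul]
    have h2 := hFμ ((1 : K) ⊗ₜ[k] b j)
    rw [h1] at h2
    have h3 := congrArg (fun x => (b.baseChange K).repr x i) h2
    simp only [Module.Basis.baseChange_repr_tmul, map_smul, Finsupp.smul_apply,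
      Module.Basis.repr_self, smul_eq_mul] at h3
    rw [Algebra.smul_def, mul_one] at h3
    rw [h3, Finsupp.single_apply]
    by_cases hij : i = j
    · subst hij; simp
    · have : ¬ j = i := fun h => hij h.symm
      simp [hij, this]
  have hinj : Function.Injective (algebraMap k K) := (algebraMap k K).injective
  refine ⟨b.repr (f (b 0)) 0, ?_⟩
  apply b.ext
  intro j
  rw [LinearMap.smul_apply, Module.End.one_apply]
  have hdiag : ∀ j : Fin 2, b.repr (f (b j)) j = b.repr (f (b 0)) 0 := by
    intro j
    apply hinj
    rw [key j j, key 0 0]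
    simp
  have hoff : ∀ i j : Fin 2, i ≠ j → b.repr (f (b j)) i = 0 := by
    intro i j hij
    apply hinj
    rw [key i j, map_zero]
    simp [hij]
  apply b.repr.injective
  ext i
  rw [map_smul, Finsupp.smul_apply, Module.Basis.repr_self, Finsupp.single_apply, smul_eq_mul]
  by_cases hij : j = i
  · subst hij
    simp [hdiag j]
  · have : i ≠ j := fun h => hij h.symm
    simp [hij, hoff i j this]

/-- **S53-WP4** (Schur's lemma, matrix form). -/
theorem wp4 {k : Type} [Field k] (ρbar : ResidualGaloisRep k)
    (habs : ρbar.IsAbsolutelyIrreducible) (b : Module.Basis (Fin 2) k ρbar.V)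
    (X : Matrix (Fin 2) (Fin 2) k)
    (hX : ∀ g, X * LinearMap.toMatrix b b (ρbar.ρ g) = LinearMap.toMatrix b b (ρbar.ρ g) * X) :
    ∃ c : k, X = c • (1 : Matrix (Fin 2) (Fin 2) k) := by
  obtain ⟨c, hc⟩ := schur_end ρbar habs (Matrix.toLin b b X) (by
    intro g
    apply (LinearMap.toMatrix b b).injective
    rw [LinearMap.toMatrix_comp b b b, LinearMap.toMatrix_comp b b b, LinearMap.toMatrix_toLin]
    exact hX g)
  refine ⟨c, ?_⟩
  have := congrArg (LinearMap.toMatrix b b) hc
  rw [LinearMap.toMatrix_toLin, map_smul] at this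
  rw [this]
  congr 1
  exact LinearMap.toMatrix_one b

end Fermat.Agent.S53.helper56
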