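import Fermat.Agent.S53.Basic

/-!
# S53: basic facts about Artinian test algebras
-/

set_option autoImplicit false
set_option linter.unusedSectionVars false
set_option linter.style.haveILetI false

namespace Fermat.Agent.S53

open IsLocalRing GaloisRep

section general

variable {𝒪 : Type} [CommRing 𝒪] [IsLocalRing 𝒪]

/-- Residue surjectivity in elementwise form. -/
theorem exists_sub_mem_maximalIdeal {A : Type} [CommRing A] [IsLocalRing A] [Algebra 𝒪 A]
    (hres : Function.Surjective (residue A ∘ algebraMap 𝒪 A)) (a : A) :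
    ∃ o : 𝒪, a - algebraMap 𝒪 A o ∈ maximalIdeal A := by
  obtain ⟨o, ho⟩ := hres (residue A a)
  refine ⟨o, ?_⟩
  rw [← Ideal.Quotient.eq_zero_iff_mem]
  have : residue A (a - algebraMap 𝒪 A o) = 0 := by
    rw [map_sub, ← ho]; simp
  exact this

theorem residue_surjective_of_forall {A : Type} [CommRing A] [IsLocalRing A] [Algebra 𝒪 A]
    (h : ∀ a : A, ∃ o : 𝒪, a - algebraMap 𝒪 A o ∈ maximalIdeal A) :
    Function.Surjective (residue A ∘ algebraMap 𝒪 A) := by
  intro y
  obtain ⟨a, rfl⟩ := residue_surjective y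
  obtain ⟨o, ho⟩ := h a
  refine ⟨o, ?_⟩
  have : residue A (a - algebraMap 𝒪 A o) = 0 := by
    rw [residue_eq_zero_iff]; exact ho
  rw [map_sub, sub_eq_zero] at this
  exact this.symm

/-- The maximal ideal of an Artinian local ring is nilpotent. -/
theorem exists_maximalIdeal_pow_eq_bot (A : Type) [CommRing A] [IsLocalRing A]
    [IsArtinianRing A] : ∃ n : ℕ, maximalIdeal A ^ n = ⊥ := by
  obtain ⟨n, hn⟩ := IsArtinianRing.isNilpotent_jacobson_bot (R := A)
  rw [jacobson_eq_maximalIdeal _ bot_ne_top] at hn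
  exact ⟨n, hn⟩

theorem isNilpotent_of_mem_maximalIdeal {A : Type} [CommRing A] [IsLocalRing A]
    [IsArtinianRing A] {a : A} (ha : a ∈ maximalIdeal A) : IsNilpotent a := by
  obtain ⟨n, hn⟩ := exists_maximalIdeal_pow_eq_bot A
  refine ⟨n, ?_⟩
  have : a ^ n ∈ maximalIdeal A ^ n := Ideal.pow_mem_pow ha n
  rw [hn] at this
  simpa using this

/-- Any `𝒪`-algebra homomorphism from a local `𝒪`-algebra into a local `𝒪`-algebra with
local structure map and surjective residue map sends the maximal ideal into the maximal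
ideal. -/
theorem map_mem_maximalIdeal {R B : Type} [CommRing R] [IsLocalRing R] [Algebra 𝒪 R]
    [CommRing B] [IsLocalRing B] [Algebra 𝒪 B]
    (hloc : IsLocalHom (algebraMap 𝒪 B))
    (hres : Function.Surjective (residue B ∘ algebraMap 𝒪 B))
    (q : R →ₐ[𝒪] B) {y : R} (hy : y ∈ maximalIdeal R) : q y ∈ maximalIdeal B := by
  by_contra hq
  have hu : IsUnit (q y) := by
    by_contra h; exact hq ((mem_maximalIdeal _).mpr h)
  obtain ⟨o, ho⟩ := exists_sub_mem_maximalIdeal hres (q y)
  have ho' : IsUnit (algebraMap 𝒪 B o) := by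
    by_contra h
    have h1 : algebraMap 𝒪 B o ∈ maximalIdeal B := (mem_maximalIdeal _).mpr h
    have := (maximalIdeal B).add_mem ho h1
    rw [sub_add_cancel] at this
    exact hq this
  have hou : IsUnit o := hloc.map_nonunit o ho'
  have h2 : IsUnit (y - algebraMap 𝒪 R o) := by
    by_contra h
    have h1 : y - algebraMap 𝒪 R o ∈ maximalIdeal R := (mem_maximalIdeal _).mpr h
    have h3 := (maximalIdeal R).sub_mem hy h1
    rw [sub_sub_cancel] at h3
    exact ((mem_maximalIdeal _).mp h3) (hou.map (algebraMap 𝒪 R))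
  have h4 : IsUnit (q (y - algebraMap 𝒪 R o)) := h2.map q
  rw [map_sub, AlgHom.commutes] at h4
  exact ((mem_maximalIdeal _).mp ho) h4

theorem isLocalHom_of_algHom {R B : Type} [CommRing R] [IsLocalRing R] [Algebra 𝒪 R]
    [CommRing B] [IsLocalRing B] [Algebra 𝒪 B]
    (hloc : IsLocalHom (algebraMap 𝒪 B))
    (hres : Function.Surjective (residue B ∘ algebraMap 𝒪 B))
    (q : R →ₐ[𝒪] B) : IsLocalHom (q : R →+* B) := by
  constructor
  intro a ha
  by_contra h
  have h1 : a ∈ maximalIdeal R := (mem_maximalIdeal _).mpr h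
  exact ((mem_maximalIdeal _).mp (map_mem_maximalIdeal hloc hres q h1)) ha

end general

section finite

variable {𝒪 : Type} [CommRing 𝒪] [IsLocalRing 𝒪] [Finite (ResidueField 𝒪)]

/-- Artinian test algebras over a ring with finite residue field are finite. -/
theorem finite_of_isArtinianTestAlgebra {A : Type} [CommRing A] [IsLocalRing A] [Algebra 𝒪 A]
    (hA : IsArtinianTestAlgebra 𝒪 A) : Finite A := by
  haveI := hA.isArtinian
  haveI := hA.isLocalHom
  haveI : Finite (ResidueField A) := by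
    refine Finite.of_surjective (ResidueField.map (algebraMap 𝒪 A)) ?_
    intro y
    obtain ⟨o, ho⟩ := hA.residue_surjective y
    exact ⟨residue 𝒪 o, by simpa using ho⟩
  obtain ⟨n, hn⟩ := exists_maximalIdeal_pow_eq_bot A
  haveI : Finite (A ⧸ (⊥ : Ideal A)) := finite_quotient_iff.mpr ⟨n, hn.le⟩
  exact Finite.of_equiv _ (RingEquiv.quotientBot A).toEquiv

end finite

section subalgebra

variable {𝒪 : Type} [CommRing 𝒪] [IsLocalRing 𝒪]

/-- In a finite ring, a unit lying in a subalgebra is a unit of the subalgebra. -/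
theorem isUnit_subalgebra_of_isUnit {E : Type} [CommRing E] [Algebra 𝒪 E] [Finite E]
    (P : Subalgebra 𝒪 E) (x : P) (hx : IsUnit (x : E)) : IsUnit x := by
  obtain ⟨u, hu⟩ := hx
  obtain ⟨n, hn, hpow⟩ := isOfFinOrder_iff_pow_eq_one.mp (isOfFinOrder_of_finite u)
  have h1 : (x : E) ^ n = 1 := by
    rw [← hu, ← Units.val_pow_eq_pow_val, hpow, Units.val_one]
  obtain ⟨m, rfl⟩ : ∃ m, n = m + 1 := ⟨n - 1, by omega⟩
  refine IsUnit.of_mul_eq_one (x ^ m) ?_
  apply Subtype.ext
  rw [Subalgebra.coe_mul, Subalgebra.coe_pow, Subalgebra.coe_one, ← pow_succ', h1]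

/-- A subalgebra `P` of a finite ring `E`, together with a ring hom `π : E → A` to a local
ring which detects units of elements of `P`, is a local ring. -/
theorem isLocalRing_subalgebra {E A : Type} [CommRing E] [Algebra 𝒪 E] [Finite E]
    [CommRing A] [IsLocalRing A] (P : Subalgebra 𝒪 E) (π : E →+* A)
    (h : ∀ x : E, x ∈ P → IsUnit (π x) → IsUnit x) : IsLocalRing P := by
  haveI : Nontrivial P := by
    refine ⟨⟨0, 1, fun h01 => ?_⟩⟩
    have h2 : (π ((0 : P) : E)) = π ((1 : P) : E) := by rw [h01]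
    rw [Subalgebra.coe_zero, Subalgebra.coe_one, map_zero, map_one] at h2
    exact zero_ne_one h2
  refine IsLocalRing.of_isUnit_or_isUnit_one_sub_self fun x => ?_
  rcases IsLocalRing.isUnit_or_isUnit_one_sub_self (π (x : E)) with h1 | h1
  · exact Or.inl (isUnit_subalgebra_of_isUnit P x (h _ x.2 h1))
  · refine Or.inr (isUnit_subalgebra_of_isUnit P (1 - x) ?_)
    rw [Subalgebra.coe_sub, Subalgebra.coe_one]
    refine h _ (P.sub_mem P.one_mem x.2) ?_
    rwa [map_sub, map_one]

theorem isUnit_subalgebra_iff {E A : Type} [CommRing E] [Algebra 𝒪 E] [Finite E]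
    [CommRing A] [IsLocalRing A] (P : Subalgebra 𝒪 E) (π : E →+* A)
    (h : ∀ x : E, x ∈ P → IsUnit (π x) → IsUnit x) (x : P) :
    IsUnit x ↔ IsUnit (π (x : E)) := by
  constructor
  · intro hx
    exact (hx.map P.val).map π
  · intro hx
    exact isUnit_subalgebra_of_isUnit P x (h _ x.2 hx)

/-- Test algebra structure on such a subalgebra. -/
theorem isArtinianTestAlgebra_subalgebra {E A : Type} [CommRing E] [Algebra 𝒪 E] [Finite E]
    [CommRing A] [IsLocalRing A] [Algebra 𝒪 A] (P : Subalgebra 𝒪 E) (π : E →ₐ[𝒪] A)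
    (h : ∀ x : E, x ∈ P → IsUnit (π x) → IsUnit x)
    (hA : IsArtinianTestAlgebra 𝒪 A) [IsLocalRing P] :
    IsArtinianTestAlgebra 𝒪 P := by
  have hunit : ∀ x : P, IsUnit x ↔ IsUnit (π (x : E)) :=
    fun x => isUnit_subalgebra_iff P (π : E →+* A) h x
  refine ⟨⟨fun o ho => ?_⟩, ?_, inferInstance⟩
  · have h1 := (hunit _).mp ho
    have h2 : π ((algebraMap 𝒪 P o : P) : E) = algebraMap 𝒪 A o := by
      rw [Subalgebra.coe_algebraMap, AlgHom.commutes]
    rw [h2] at h1
    exact hA.isLocalHom.map_nonunit o h1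
  · refine residue_surjective_of_forall fun x => ?_
    obtain ⟨o, ho⟩ := exists_sub_mem_maximalIdeal hA.residue_surjective (π (x : E))
    refine ⟨o, ?_⟩
    rw [mem_maximalIdeal, mem_nonunits_iff, hunit]
    have h2 : π ((x - algebraMap 𝒪 P o : P) : E) = π (x : E) - algebraMap 𝒪 A o := by
      rw [Subalgebra.coe_sub, Subalgebra.coe_algebraMap, map_sub, AlgHom.commutes]
    rw [h2]
    exact (mem_maximalIdeal _).mp ho

end subalgebra

end Fermat.Agent.S53
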