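import Mathlib

/-!
# S53 / WP1 : power series rings over complete noetherian local rings are complete

For a complete noetherian local ring `O` and a finite type `σ`, the ring `MvPowerSeries σ O`
is adically complete with respect to its maximal ideal.
-/

set_option autoImplicit false

namespace Fermat.Agent.S53.helper33

open IsLocalRing

section OneVariable

open PowerSeries

variable (R : Type*) [CommRing R] [IsLocalRing R]

/-- The ideal of power series whose `i`-th coefficient lies in `𝔪 ^ (n - i)`. -/
def coeffIdeal (n : ℕ) : Ideal (PowerSeries R) where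
  carrier := {f | ∀ i, coeff i f ∈ maximalIdeal R ^ (n - i)}
  add_mem' := fun {f g} hf hg i => by
    rw [map_add]; exact Ideal.add_mem _ (hf i) (hg i)
  zero_mem' := fun i => by rw [map_zero]; exact Ideal.zero_mem _
  smul_mem' := fun c f hf i => by
    rw [smul_eq_mul, coeff_mul]
    refine Ideal.sum_mem _ fun p hp => ?_
    have hp' : p.1 + p.2 = i := Finset.HasAntidiagonal.mem_antidiagonal.mp hp
    exact Ideal.mul_mem_left _ _ (Ideal.pow_le_pow_right (by omega) (hf p.2))

variable {R}

theorem mem_coeffIdeal {n : ℕ} {f : PowerSeries R} :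
    f ∈ coeffIdeal R n ↔ ∀ i, coeff i f ∈ maximalIdeal R ^ (n - i) := Iff.rfl

theorem maximalIdeal_le_coeffIdeal_one : maximalIdeal (PowerSeries R) ≤ coeffIdeal R 1 := by
  intro f hf i
  rcases Nat.eq_zero_or_pos i with rfl | hi
  · rw [Nat.sub_zero, pow_one, mem_maximalIdeal, mem_nonunits_iff]
    rw [mem_maximalIdeal, mem_nonunits_iff, PowerSeries.isUnit_iff_constantCoeff] at hf
    rwa [coeff_zero_eq_constantCoeff_apply]
  · rw [show 1 - i = 0 by omega, pow_zero, Ideal.one_eq_top]; trivial

theorem coeffIdeal_mul_le (a b : ℕ) : coeffIdeal R a * coeffIdeal R b ≤ coeffIdeal R (a + b) := by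
  rw [Ideal.mul_le]
  intro f hf g hg i
  rw [coeff_mul]
  refine Ideal.sum_mem _ fun p hp => ?_
  have hp' : p.1 + p.2 = i := Finset.HasAntidiagonal.mem_antidiagonal.mp hp
  have h1 : coeff p.1 f * coeff p.2 g ∈ maximalIdeal R ^ ((a - p.1) + (b - p.2)) := by
    rw [pow_add]; exact Ideal.mul_mem_mul (hf p.1) (hg p.2)
  exact Ideal.pow_le_pow_right (by omega) h1

theorem coeffIdeal_zero : coeffIdeal R 0 = ⊤ := by
  rw [Ideal.eq_top_iff_one]
  intro i
  rw [Nat.zero_sub, pow_zero, Ideal.one_eq_top]; trivial

theorem maximalIdeal_pow_le_coeffIdeal (n : ℕ) :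
    maximalIdeal (PowerSeries R) ^ n ≤ coeffIdeal R n := by
  induction n with
  | zero => rw [coeffIdeal_zero]; exact le_top
  | succ n ih =>
    rw [pow_succ]
    exact (Ideal.mul_mono ih maximalIdeal_le_coeffIdeal_one).trans (coeffIdeal_mul_le n 1)

theorem X_mem_maximalIdeal : (X : PowerSeries R) ∈ maximalIdeal (PowerSeries R) := by
  rw [mem_maximalIdeal, mem_nonunits_iff, PowerSeries.isUnit_iff_constantCoeff, constantCoeff_X]
  exact not_isUnit_zero

theorem C_mem_maximalIdeal_pow {k : ℕ} {c : R} (hc : c ∈ maximalIdeal R ^ k) :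
    (C c : PowerSeries R) ∈ maximalIdeal (PowerSeries R) ^ k := by
  have h1 : (maximalIdeal R).map (C : R →+* PowerSeries R) ≤ maximalIdeal (PowerSeries R) := by
    rw [Ideal.map_le_iff_le_comap]
    intro x hx
    rw [Ideal.mem_comap, mem_maximalIdeal, mem_nonunits_iff,
      PowerSeries.isUnit_iff_constantCoeff, constantCoeff_C]
    exact hx
  have h2 : (C c : PowerSeries R) ∈ ((maximalIdeal R) ^ k).map (C : R →+* PowerSeries R) :=
    Ideal.mem_map_of_mem _ hc
  rw [Ideal.map_pow] at h2
  exact Ideal.pow_right_mono h1 k h2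

theorem coeffIdeal_le_maximalIdeal_pow (n : ℕ) :
    coeffIdeal R n ≤ maximalIdeal (PowerSeries R) ^ n := by
  intro f hf
  rw [eq_X_pow_mul_shift_add_trunc n f]
  refine Ideal.add_mem _ (Ideal.mul_mem_right _ _ (Ideal.pow_mem_pow X_mem_maximalIdeal n)) ?_
  rw [trunc_apply, ← Polynomial.coeToPowerSeries.ringHom_apply, map_sum]
  refine Ideal.sum_mem _ fun i hi => ?_
  rw [Polynomial.coeToPowerSeries.ringHom_apply, Polynomial.coe_monomial,
    monomial_eq_C_mul_X_pow]
  have hi' : i < n := (Finset.mem_Ico.mp hi).2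
  have h1 : (C (coeff i f) : PowerSeries R) * X ^ i ∈
      maximalIdeal (PowerSeries R) ^ (n - i) * maximalIdeal (PowerSeries R) ^ i :=
    Ideal.mul_mem_mul (C_mem_maximalIdeal_pow (hf i)) (Ideal.pow_mem_pow X_mem_maximalIdeal i)
  rwa [← pow_add, Nat.sub_add_cancel hi'.le] at h1

/-- One variable: `R⟦X⟧` is complete for its maximal ideal if `R` is a complete noetherian
local ring. -/
theorem isAdicComplete_powerSeries [IsNoetherianRing R] [IsAdicComplete (maximalIdeal R) R] :
    IsAdicComplete (maximalIdeal (PowerSeries R)) (PowerSeries R) := by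
  have hH : IsHausdorff (maximalIdeal (PowerSeries R)) (PowerSeries R) := inferInstance
  have hP : IsPrecomplete (maximalIdeal (PowerSeries R)) (PowerSeries R) := by
    rw [isPrecomplete_iff]
    intro f hf
    have hcoef : ∀ (i : ℕ) {a b : ℕ}, a ≤ b →
        coeff i (f (a + i)) ≡ coeff i (f (b + i))
          [SMOD (maximalIdeal R ^ a • ⊤ : Submodule R R)] := by
      intro i a b hab
      have h1 := hf (Nat.add_le_add_right hab i)
      rw [SModEq.sub_mem, smul_eq_mul, Ideal.mul_top] at h1 ⊢
      have h2 := maximalIdeal_pow_le_coeffIdeal (a + i) h1 i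
      rwa [map_sub, Nat.add_sub_cancel] at h2
    have hex : ∀ i : ℕ, ∃ L : R, ∀ n : ℕ, coeff i (f (n + i)) ≡ L
        [SMOD (maximalIdeal R ^ n • ⊤ : Submodule R R)] := fun i =>
      IsPrecomplete.prec inferInstance (f := fun j => coeff i (f (j + i))) (hcoef i)
    choose L hL using hex
    refine ⟨PowerSeries.mk L, fun n => ?_⟩
    rw [SModEq.sub_mem, smul_eq_mul, Ideal.mul_top]
    apply coeffIdeal_le_maximalIdeal_pow
    intro i
    rw [map_sub, coeff_mk]
    rcases Nat.lt_or_ge i n with hi | hi
    · have h3 := hL i (n - i)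
      rw [SModEq.sub_mem, smul_eq_mul, Ideal.mul_top, Nat.sub_add_cancel hi.le] at h3
      exact h3
    · rw [Nat.sub_eq_zero_of_le hi, pow_zero, Ideal.one_eq_top]; trivial
  exact { }

end OneVariable

section Transport

theorem map_maximalIdeal_ringEquiv {A B : Type*} [CommRing A] [CommRing B] [IsLocalRing A]
    [IsLocalRing B] (e : A ≃+* B) :
    (maximalIdeal A).map e = maximalIdeal B := by
  ext x
  rw [Ideal.mem_map_of_equiv, mem_maximalIdeal, mem_nonunits_iff]
  constructor
  · rintro ⟨y, hy, rfl⟩
    rw [mem_maximalIdeal, mem_nonunits_iff] at hy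
    exact fun h => hy ((MulEquiv.isUnit_map e.toMulEquiv).mp h)
  · intro hx
    refine ⟨e.symm x, ?_, e.apply_symm_apply x⟩
    rw [mem_maximalIdeal, mem_nonunits_iff]
    exact fun h => hx ((MulEquiv.isUnit_map e.symm.toMulEquiv).mp h)

theorem isAdicComplete_of_ringEquiv {A B : Type*} [CommRing A] [CommRing B] [IsLocalRing A]
    [IsLocalRing B] (e : A ≃+* B) [h : IsAdicComplete (maximalIdeal A) A] :
    IsAdicComplete (maximalIdeal B) B := by
  have h1 := (IsAdicComplete.congr_ringEquiv (maximalIdeal A) e).mpr h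
  rwa [map_maximalIdeal_ringEquiv] at h1

end Transport

section Main

variable (O : Type*) [CommRing O] [IsLocalRing O] [IsNoetherianRing O]
  [IsAdicComplete (maximalIdeal O) O]

theorem isAdicComplete_mvPowerSeries_fin (n : ℕ) :
    IsAdicComplete (maximalIdeal (MvPowerSeries (Fin n) O)) (MvPowerSeries (Fin n) O) := by
  induction n with
  | zero => exact isAdicComplete_of_ringEquiv (MvPowerSeries.isEmptyEquiv (Fin 0) O).toRingEquiv.symm
  | succ n ih =>
    have := ih
    have : IsAdicComplete (maximalIdeal (PowerSeries (MvPowerSeries (Fin n) O)))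
        (PowerSeries (MvPowerSeries (Fin n) O)) := isAdicComplete_powerSeries
    exact isAdicComplete_of_ringEquiv (MvPowerSeries.finSuccEquiv O n).toRingEquiv.symm

/-- **WP1**: for a finite index type `σ` and a complete noetherian local ring `O`, the power
series ring `MvPowerSeries σ O` is adically complete for its maximal ideal. -/
theorem isAdicComplete_mvPowerSeries (σ : Type*) [Finite σ] :
    IsAdicComplete (maximalIdeal (MvPowerSeries σ O)) (MvPowerSeries σ O) := by
  cases nonempty_fintype σ
  have := isAdicComplete_mvPowerSeries_fin O (Fintype.card σ)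
  exact isAdicComplete_of_ringEquiv
    (MvPowerSeries.renameEquiv O (Fintype.equivFin σ)).toRingEquiv.symm

end Main

/-- **WP1** in the exact form requested in the S53 plan. -/
theorem WP1 (σ : Type) [Finite σ] (O : Type) [CommRing O] [IsLocalRing O] [IsNoetherianRing O]
    [IsAdicComplete (IsLocalRing.maximalIdeal O) O] :
    IsAdicComplete (IsLocalRing.maximalIdeal (MvPowerSeries σ O)) (MvPowerSeries σ O) :=
  isAdicComplete_mvPowerSeries O σ

end Fermat.Agent.S53.helper33
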