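import Mathlib

/-!
# S53 / WP2: algebra homomorphisms out of `MvPowerSeries σ O` with nilpotent images of the variables

For a finite index type `σ`:
* `exists_algHom_X_eq` : existence of `φ : MvPowerSeries σ O →ₐ[O] A` with `φ (X s) = a s`
  for nilpotent `a s`;
* `algHom_ext_of_isNilpotent` : such a `φ` is determined by the values `φ (X s)`;
* `range_eq_adjoin_of_isNilpotent` : the range of such a `φ` is `Algebra.adjoin O (range (φ ∘ X))`.
-/

set_option autoImplicit false

namespace Fermat.Agent.S53.helper61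

open MvPowerSeries

section Key

variable {σ O : Type} [CommRing O]

theorem algebraMap_mvPolynomial_eq_coe (q : MvPolynomial σ O) :
    algebraMap (MvPolynomial σ O) (MvPowerSeries σ O) q = (q : MvPowerSeries σ O) := by
  rw [MvPowerSeries.algebraMap_apply']
  simp

theorem map_coe_idealOfVars_pow_le (N : ℕ) :
    ((MvPolynomial.idealOfVars σ O) ^ N).map
        (algebraMap (MvPolynomial σ O) (MvPowerSeries σ O)) ≤
      (Ideal.span (Set.range (MvPowerSeries.X : σ → MvPowerSeries σ O))) ^ N := by
  rw [Ideal.map_pow]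
  refine Ideal.pow_right_mono ?_ N
  rw [MvPolynomial.idealOfVars, Ideal.map_span]
  refine Ideal.span_mono ?_
  rintro _ ⟨_, ⟨s, rfl⟩, rfl⟩
  exact ⟨s, by rw [algebraMap_mvPolynomial_eq_coe, MvPolynomial.coe_X]⟩

variable [Finite σ]

/-- Key lemma: a power series minus its truncation lies in the `N`-th power of the ideal
generated by the variables. -/
theorem sub_truncTotal_mem_pow (N : ℕ) (p : MvPowerSeries σ O) :
    p - ((truncTotal N p : MvPolynomial σ O) : MvPowerSeries σ O) ∈
      (Ideal.span (Set.range (MvPowerSeries.X : σ → MvPowerSeries σ O))) ^ N := by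
  set r := p - ((truncTotal N p : MvPolynomial σ O) : MvPowerSeries σ O) with hr
  have htr : truncTotal N r = 0 := by
    ext x
    by_cases hx : Finsupp.degree x < N
    · rw [coeff_truncTotal _ hx, hr, map_sub, MvPolynomial.coeff_coe, coeff_truncTotal _ hx]
      simp
    · rw [MvPolynomial.coeff_zero, coeff_truncTotal_eq_zero _ (not_lt.mp hx)]
  have hker : toAdicCompletion σ O r ∈
      (AdicCompletion.eval (MvPolynomial.idealOfVars σ O) (MvPolynomial σ O) N).ker := by
    rw [LinearMap.mem_ker, AdicCompletion.eval_apply, toAdicCompletion_apply_eq_mk_truncTotal,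
      htr]
    simp
  rw [← AdicCompletion.pow_smul_top_eq_ker_eval (MvPolynomial.idealOfVars_fg σ O)] at hker
  have key : ∀ y ∈ ((MvPolynomial.idealOfVars σ O) ^ N • ⊤ :
      Submodule (MvPolynomial σ O)
        (AdicCompletion (MvPolynomial.idealOfVars σ O) (MvPolynomial σ O))),
      (toAdicCompletionAlgEquiv σ O).symm y ∈
        (Ideal.span (Set.range (MvPowerSeries.X : σ → MvPowerSeries σ O))) ^ N := by
    intro y hy
    refine Submodule.smul_induction_on hy ?_ ?_
    · intro i hi z _
      rw [map_smul, Algebra.smul_def]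
      exact Ideal.mul_mem_right _ _ (map_coe_idealOfVars_pow_le N (Ideal.mem_map_of_mem _ hi))
    · intro a b ha hb
      rw [map_add]
      exact Ideal.add_mem _ ha hb
  have := key _ hker
  rwa [← toAdicCompletionAlgEquiv_apply, AlgEquiv.symm_apply_apply] at this

end Key

section Nilpotent

variable {σ : Type} [Finite σ] {A : Type} [CommRing A]

/-- A finite family of nilpotent elements generates a nilpotent ideal. -/
theorem exists_span_range_pow_eq_bot (a : σ → A) (ha : ∀ s, IsNilpotent (a s)) :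
    ∃ N : ℕ, (Ideal.span (Set.range a)) ^ N = ⊥ := by
  have hfg : (Ideal.span (Set.range a)).FG := ⟨(Set.finite_range a).toFinset, by simp⟩
  have hle : Ideal.span (Set.range a) ≤ nilradical A := by
    rw [Ideal.span_le]
    rintro _ ⟨s, rfl⟩
    exact (mem_nilradical).mpr (ha s)
  obtain ⟨N, hN⟩ := (hfg.isNilpotent_iff_le_nilradical).mpr hle
  exact ⟨N, by simpa using hN⟩

end Nilpotent

section Main

variable {σ : Type} [Finite σ] {O A : Type} [CommRing O] [CommRing A] [Algebra O A]

/-- If `φ` sends the variables into an ideal `J` with `J ^ N = ⊥`, then `φ` only depends on the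
truncation. -/
theorem apply_eq_apply_truncTotal (φ : MvPowerSeries σ O →ₐ[O] A) {N : ℕ}
    (hN : (Ideal.span (Set.range fun s => φ (MvPowerSeries.X s))) ^ N = ⊥)
    (p : MvPowerSeries σ O) :
    φ p = φ ((truncTotal N p : MvPolynomial σ O) : MvPowerSeries σ O) := by
  have h1 := sub_truncTotal_mem_pow N p
  have h2 : φ (p - ((truncTotal N p : MvPolynomial σ O) : MvPowerSeries σ O)) ∈
      ((Ideal.span (Set.range (MvPowerSeries.X : σ → MvPowerSeries σ O))) ^ N).map
        (φ : MvPowerSeries σ O →+* A) := Ideal.mem_map_of_mem _ h1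
  rw [Ideal.map_pow, Ideal.map_span, ← Set.range_comp] at h2
  have h3 : ((φ : MvPowerSeries σ O →+* A) ∘ (MvPowerSeries.X : σ → MvPowerSeries σ O)) =
      fun s => φ (MvPowerSeries.X s) := rfl
  rw [h3, hN, Ideal.mem_bot, map_sub, sub_eq_zero] at h2
  exact h2

omit [Finite σ] in
/-- On (coerced) polynomials an algebra hom out of the power series ring is `aeval`. -/
theorem apply_coe_eq_aeval (φ : MvPowerSeries σ O →ₐ[O] A) (q : MvPolynomial σ O) :
    φ (q : MvPowerSeries σ O) = MvPolynomial.aeval (fun s => φ (MvPowerSeries.X s)) q := by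
  have : φ.comp (MvPolynomial.coeToMvPowerSeries.algHom (R := O) (σ := σ) O) =
      MvPolynomial.aeval (fun s => φ (MvPowerSeries.X s)) := by
    apply MvPolynomial.algHom_ext
    intro s
    simp [MvPolynomial.coeToMvPowerSeries.algHom_apply]
  have h := congrArg (fun f => f q) this
  simpa [MvPolynomial.coeToMvPowerSeries.algHom_apply] using h

/-- WP2 (a): existence. -/
theorem exists_algHom_X_eq (a : σ → A) (ha : ∀ s, IsNilpotent (a s)) :
    ∃ φ : MvPowerSeries σ O →ₐ[O] A, ∀ s, φ (MvPowerSeries.X s) = a s := by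
  obtain ⟨N, hN⟩ := exists_span_range_pow_eq_bot a ha
  -- `aeval a` kills `idealOfVars ^ N`
  have hkill : ∀ q ∈ (MvPolynomial.idealOfVars σ O) ^ N,
      (MvPolynomial.aeval a : MvPolynomial σ O →ₐ[O] A) q = 0 := by
    intro q hq
    have h2 : (MvPolynomial.aeval a : MvPolynomial σ O →ₐ[O] A) q ∈
        ((MvPolynomial.idealOfVars σ O) ^ N).map
          ((MvPolynomial.aeval a : MvPolynomial σ O →ₐ[O] A) : MvPolynomial σ O →+* A) :=
      Ideal.mem_map_of_mem _ hq
    rw [Ideal.map_pow, MvPolynomial.idealOfVars, Ideal.map_span, ← Set.range_comp] at h2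
    have h3 : (((MvPolynomial.aeval a : MvPolynomial σ O →ₐ[O] A) : MvPolynomial σ O →+* A) ∘
        (MvPolynomial.X : σ → MvPolynomial σ O)) = a := by
      funext s
      simp
    rw [h3, hN, Ideal.mem_bot] at h2
    exact h2
  let ψ : (MvPolynomial σ O ⧸ (MvPolynomial.idealOfVars σ O) ^ N) →ₐ[O] A :=
    Ideal.Quotient.liftₐ _ (MvPolynomial.aeval a) hkill
  let τ : MvPowerSeries σ O →ₐ[O] (MvPolynomial σ O ⧸ (MvPolynomial.idealOfVars σ O) ^ N) :=
    (truncTotalAlgHom σ O N).restrictScalars O
  refine ⟨ψ.comp τ, fun s => ?_⟩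
  have hτ : τ (MvPowerSeries.X s) =
      Ideal.Quotient.mk _ (MvPolynomial.X s : MvPolynomial σ O) := by
    have := (truncTotalAlgHom σ O N).commutes (MvPolynomial.X s : MvPolynomial σ O)
    rw [algebraMap_mvPolynomial_eq_coe, MvPolynomial.coe_X] at this
    exact this
  rw [AlgHom.comp_apply, hτ]
  have h1 := AlgHom.congr_fun
    (Ideal.Quotient.liftₐ_comp ((MvPolynomial.idealOfVars σ O) ^ N) (MvPolynomial.aeval a) hkill)
    (MvPolynomial.X s : MvPolynomial σ O)
  rw [MvPolynomial.aeval_X] at h1
  exact h1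

/-- WP2 (b): uniqueness. -/
theorem algHom_ext_of_isNilpotent (φ ψ : MvPowerSeries σ O →ₐ[O] A)
    (hφ : ∀ s, IsNilpotent (φ (MvPowerSeries.X s)))
    (h : ∀ s, φ (MvPowerSeries.X s) = ψ (MvPowerSeries.X s)) : φ = ψ := by
  obtain ⟨N, hN⟩ := exists_span_range_pow_eq_bot (fun s => φ (MvPowerSeries.X s)) hφ
  have hN' : (Ideal.span (Set.range fun s => ψ (MvPowerSeries.X s))) ^ N = ⊥ := by
    have : (fun s => ψ (MvPowerSeries.X s)) = fun s => φ (MvPowerSeries.X s) :=
      funext fun s => (h s).symm
    rw [this]; exact hN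
  ext p
  rw [apply_eq_apply_truncTotal φ hN p, apply_eq_apply_truncTotal ψ hN' p,
    apply_coe_eq_aeval, apply_coe_eq_aeval]
  congr 2
  exact funext h

/-- WP2 (c): the range is the subalgebra generated by the images of the variables. -/
theorem range_eq_adjoin_of_isNilpotent (φ : MvPowerSeries σ O →ₐ[O] A)
    (hφ : ∀ s, IsNilpotent (φ (MvPowerSeries.X s))) :
    φ.range = Algebra.adjoin O (Set.range fun s => φ (MvPowerSeries.X s)) := by
  obtain ⟨N, hN⟩ := exists_span_range_pow_eq_bot (fun s => φ (MvPowerSeries.X s)) hφ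
  apply le_antisymm
  · rintro _ ⟨p, rfl⟩
    rw [Algebra.adjoin_range_eq_range_aeval]
    refine ⟨truncTotal N p, ?_⟩
    have := apply_eq_apply_truncTotal φ hN p
    rw [apply_coe_eq_aeval] at this
    exact this.symm
  · rw [Algebra.adjoin_le_iff]
    rintro _ ⟨s, rfl⟩
    exact ⟨MvPowerSeries.X s, rfl⟩

end Main

section Interface

/-- WP2 (a), in the exact interface form of the S53 task board. -/
theorem wp2a (σ : Type) [Finite σ] (O A : Type) [CommRing O] [CommRing A] [Algebra O A]
    (a : σ → A) (ha : ∀ s, IsNilpotent (a s)) :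
    ∃ φ : MvPowerSeries σ O →ₐ[O] A, ∀ s, φ (MvPowerSeries.X s) = a s :=
  exists_algHom_X_eq a ha

/-- WP2 (b), in the exact interface form of the S53 task board. -/
theorem wp2b (σ : Type) [Finite σ] (O A : Type) [CommRing O] [CommRing A] [Algebra O A]
    (φ ψ : MvPowerSeries σ O →ₐ[O] A) (hφ : ∀ s, IsNilpotent (φ (MvPowerSeries.X s)))
    (h : ∀ s, φ (MvPowerSeries.X s) = ψ (MvPowerSeries.X s)) : φ = ψ :=
  algHom_ext_of_isNilpotent φ ψ hφ h

/-- WP2 (c), in the exact interface form of the S53 task board. -/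
theorem wp2c (σ : Type) [Finite σ] (O A : Type) [CommRing O] [CommRing A] [Algebra O A]
    (φ : MvPowerSeries σ O →ₐ[O] A) (hφ : ∀ s, IsNilpotent (φ (MvPowerSeries.X s))) :
    φ.range = Algebra.adjoin O (Set.range fun s => φ (MvPowerSeries.X s)) :=
  range_eq_adjoin_of_isNilpotent φ hφ

end Interface

end Fermat.Agent.S53.helper61
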