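import Mathlib

/-!
# S53: a Mittag-Leffler type lemma for decreasing sequences of ideals in a complete ring
-/

set_option autoImplicit false
set_option linter.unusedSectionVars false
set_option linter.style.haveILetI false

namespace Fermat.Agent.S53

theorem smodEq_pow_iff {S : Type} [CommRing S] (𝔪 : Ideal S) (n : ℕ) (a b : S) :
    a ≡ b [SMOD (𝔪 ^ n • ⊤ : Submodule S S)] ↔ a - b ∈ 𝔪 ^ n := by
  rw [SModEq.sub_mem, smul_eq_mul, Ideal.mul_top]

theorem ml_exists {S : Type} [CommRing S] (𝔪 : Ideal S) [IsPrecomplete 𝔪 S] (K : ℕ → Ideal S)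
    (hstep : ∀ n, K n ≤ K (n + 1) ⊔ 𝔪 ^ n) (hpow : ∀ n, 𝔪 ^ n ≤ K n)
    (y : ℕ → S) (hy : ∀ n, y (n + 1) - y n ∈ K n) (n₀ : ℕ) :
    ∃ L : S, L - y n₀ ∈ 𝔪 ^ n₀ ∧ ∀ n, n₀ ≤ n → L - y n ∈ K n := by
  classical
  let next : ℕ → S → S := fun j z =>
    if h : ∃ v, v ∈ 𝔪 ^ (n₀ + j) ∧ y (n₀ + (j + 1)) - (z + v) ∈ K (n₀ + (j + 1)) then
      z + h.choose else z
  let zz : ℕ → S := fun j => Nat.rec (y n₀) (fun j z => next j z) j
  have hzz0 : zz 0 = y n₀ := rfl
  have hzzs : ∀ j, zz (j + 1) = next j (zz j) := fun j => rfl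
  have hinv : ∀ j, y (n₀ + j) - zz j ∈ K (n₀ + j) := by
    intro j
    induction j with
    | zero => rw [hzz0, Nat.add_zero, sub_self]; exact zero_mem _
    | succ j ih =>
      have h1 : y (n₀ + (j + 1)) - zz j ∈ K (n₀ + j) := by
        have := (K (n₀ + j)).add_mem (hy (n₀ + j)) ih
        rwa [sub_add_sub_cancel] at this
      obtain ⟨u, hu, v, hv, huv⟩ := Submodule.mem_sup.mp (hstep _ h1)
      have hex : ∃ v, v ∈ 𝔪 ^ (n₀ + j) ∧ y (n₀ + (j + 1)) - (zz j + v) ∈ K (n₀ + (j + 1)) := by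
        refine ⟨v, hv, ?_⟩
        have : y (n₀ + (j + 1)) - (zz j + v) = u := by rw [← sub_sub, ← huv]; ring
        rw [this]; exact hu
      rw [hzzs]
      show y (n₀ + (j + 1)) - (if h : ∃ v, v ∈ 𝔪 ^ (n₀ + j) ∧
        y (n₀ + (j + 1)) - (zz j + v) ∈ K (n₀ + (j + 1)) then zz j + h.choose else zz j) ∈ _
      rw [dif_pos hex]
      exact hex.choose_spec.2
  have hzz : ∀ j, zz (j + 1) - zz j ∈ 𝔪 ^ (n₀ + j) := by
    intro j
    rw [hzzs]
    show (if h : ∃ v, v ∈ 𝔪 ^ (n₀ + j) ∧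
        y (n₀ + (j + 1)) - (zz j + v) ∈ K (n₀ + (j + 1)) then zz j + h.choose else zz j) - zz j ∈ _
    by_cases hex : ∃ v, v ∈ 𝔪 ^ (n₀ + j) ∧ y (n₀ + (j + 1)) - (zz j + v) ∈ K (n₀ + (j + 1))
    · rw [dif_pos hex, add_sub_cancel_left]
      exact hex.choose_spec.1
    · rw [dif_neg hex, sub_self]; exact zero_mem _
  let w : ℕ → S := fun n => zz (n - n₀)
  have hw : ∀ n, w n ≡ w (n + 1) [SMOD (𝔪 ^ n • ⊤ : Submodule S S)] := by
    intro n
    rw [smodEq_pow_iff]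
    by_cases hn : n₀ ≤ n
    · have h1 : n + 1 - n₀ = (n - n₀) + 1 := by omega
      have h2 := hzz (n - n₀)
      have h3 : n₀ + (n - n₀) = n := by omega
      rw [h3] at h2
      show zz (n - n₀) - zz (n + 1 - n₀) ∈ 𝔪 ^ n
      rw [h1, ← neg_sub]
      exact neg_mem h2
    · have h1 : n + 1 - n₀ = 0 := by omega
      have h2 : n - n₀ = 0 := by omega
      show zz (n - n₀) - zz (n + 1 - n₀) ∈ 𝔪 ^ n
      rw [h1, h2, sub_self]
      exact zero_mem _
  have hcauchy : AdicCompletion.IsAdicCauchy 𝔪 S w :=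
    (AdicCompletion.isAdicCauchy_iff 𝔪 S w).mpr hw
  obtain ⟨L, hL⟩ := IsPrecomplete.prec ‹IsPrecomplete 𝔪 S› hcauchy
  have hL' : ∀ n, L - w n ∈ 𝔪 ^ n := by
    intro n
    have := (smodEq_pow_iff 𝔪 n _ _).mp (hL n)
    rw [← neg_sub]
    exact neg_mem this
  refine ⟨L, ?_, ?_⟩
  · have := hL' n₀
    have h0 : w n₀ = y n₀ := by
      show zz (n₀ - n₀) = y n₀
      rw [Nat.sub_self, hzz0]
    rwa [h0] at this
  · intro n hn
    have h1 := hinv (n - n₀)
    have h3 : n₀ + (n - n₀) = n := by omega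
    rw [h3] at h1
    have h2 : L - y n = (L - w n) - (y n - w n) := by ring
    rw [h2]
    exact (K n).sub_mem (hpow n (hL' n)) h1

theorem ml_sup {S : Type} [CommRing S] (𝔪 : Ideal S) [IsPrecomplete 𝔪 S] (K : ℕ → Ideal S)
    (hstep : ∀ n, K n ≤ K (n + 1) ⊔ 𝔪 ^ n) (hpow : ∀ n, 𝔪 ^ n ≤ K n)
    (hanti : ∀ m n, m ≤ n → K n ≤ K m) (n : ℕ) :
    K n ≤ (⨅ j, K j) ⊔ 𝔪 ^ n := by
  classical
  intro u hu
  let y : ℕ → S := fun j => if j ≤ n then u else 0
  have hy : ∀ j, y (j + 1) - y j ∈ K j := by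
    intro j
    show (if j + 1 ≤ n then u else 0) - (if j ≤ n then u else 0) ∈ K j
    by_cases h1 : j + 1 ≤ n
    · have h2 : j ≤ n := by omega
      rw [if_pos h1, if_pos h2, sub_self]; exact zero_mem _
    · by_cases h2 : j ≤ n
      · have h3 : j = n := by omega
        rw [if_neg h1, if_pos h2, zero_sub, h3]; exact neg_mem hu
      · rw [if_neg h1, if_neg h2, sub_self]; exact zero_mem _
  obtain ⟨L, hL0, hL⟩ := ml_exists 𝔪 K hstep hpow y hy n
  have hyn : y n = u := if_pos le_rfl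
  rw [hyn] at hL0
  have hLmem : L ∈ ⨅ j, K j := by
    rw [Submodule.mem_iInf]
    intro j
    have h1 : L ∈ K (max j (n + 1)) := by
      have := hL (max j (n + 1)) (by omega)
      have h2 : y (max j (n + 1)) = 0 := if_neg (by omega)
      rwa [h2, sub_zero] at this
    exact hanti j _ (le_max_left _ _) h1
  have : u = L + (u - L) := by ring
  rw [this]
  refine Submodule.add_mem_sup hLmem ?_
  rw [← neg_sub]
  exact neg_mem hL0

end Fermat.Agent.S53
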