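import Fermat.Agent.S53.ProRepIdeals
import Fermat.Agent.S53.MittagLeffler
import Fermat.Prelude.Thm_IsLocalRing_isAdicComplete_of_module_finite
import Fermat.Agent.S53.helper33_WP1
import Fermat.Agent.S53.helper61_WP2

/-!
# S53: construction of the pro-representing ring
-/

set_option autoImplicit false
set_option linter.unusedSectionVars false
set_option linter.style.haveILetI false

namespace Fermat.Agent.S53

open IsLocalRing GaloisRep

variable {𝒪 : Type} [CommRing 𝒪] [IsLocalRing 𝒪] [IsNoetherianRing 𝒪]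
  [IsAdicComplete (maximalIdeal 𝒪) 𝒪]
  [Finite (ResidueField 𝒪)] {Ω : Type} (F : LiftFunctor 𝒪 Ω) (Sg : Finset Ω)

instance instIsAdicCompletePS :
    IsAdicComplete (maximalIdeal (PS 𝒪 Sg)) (PS 𝒪 Sg) :=
  helper33.WP1 _ 𝒪

/-- The intersection of all good ideals. -/
noncomputable def Kinf : Ideal (PS 𝒪 Sg) := ⨅ n, Kn F Sg n

variable {F Sg}

theorem Kinf_le (n : ℕ) : Kinf F Sg ≤ Kn F Sg n := iInf_le _ n

theorem Kinf_le_maximalIdeal : Kinf F Sg ≤ maximalIdeal (PS 𝒪 Sg) :=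
  (Kinf_le 1).trans (Kn_le_maximalIdeal le_rfl)

theorem Kinf_ne_top : Kinf F Sg ≠ ⊤ := fun h =>
  (maximalIdeal.isMaximal (PS 𝒪 Sg)).ne_top (top_le_iff.mp (h ▸ Kinf_le_maximalIdeal))

theorem Kn_le_Kinf_sup (hSg : Separates F Sg) (n : ℕ) :
    Kn F Sg n ≤ Kinf F Sg ⊔ maximalIdeal (PS 𝒪 Sg) ^ n :=
  ml_sup (maximalIdeal (PS 𝒪 Sg)) (Kn F Sg) (Kn_step hSg) pow_le_Kn
    (fun _ _ h => Kn_anti' h) n

theorem isGood_Kn_succ (hSg : Separates F Sg) (n : ℕ) : IsGood F Sg (Kn F Sg (n + 1)) :=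
  isGood_Kn hSg (Nat.succ_le_succ (Nat.zero_le n))

/-- The canonical point on `PS ⧸ Kn (n+1)`. -/
noncomputable def ptK (hSg : Separates F Sg) (n : ℕ) : Ω → PS 𝒪 Sg ⧸ Kn F Sg (n + 1) :=
  (isGood_Kn_succ hSg n).exists_point.choose

theorem ptK_mem (hSg : Separates F Sg) (n : ℕ) :
    NQ F Sg _ (isGood_Kn_succ hSg n).ne_top (ptK hSg n) :=
  (isGood_Kn_succ hSg n).exists_point.choose_spec.1

theorem ptK_gen (hSg : Separates F Sg) (n : ℕ) (s : {ω // ω ∈ Sg}) :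
    ptK hSg n s = Ideal.Quotient.mk _ (gen F Sg s) :=
  (isGood_Kn_succ hSg n).exists_point.choose_spec.2 s

/-- Compatibility of canonical points: pushing the point on a good ideal `J₁` to a good
ideal `J₂ ≥ J₁` gives the point of `J₂`. -/
theorem point_factor (hSg : Separates F Sg) {J₁ J₂ : Ideal (PS 𝒪 Sg)} (h₁ : IsGood F Sg J₁)
    (h₂ : IsGood F Sg J₂) (hle : J₁ ≤ J₂) (x₁ : Ω → PS 𝒪 Sg ⧸ J₁) (x₂ : Ω → PS 𝒪 Sg ⧸ J₂)
    (hx₁ : NQ F Sg J₁ h₁.ne_top x₁) (hx₂ : NQ F Sg J₂ h₂.ne_top x₂)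
    (hxs₁ : ∀ s : {ω // ω ∈ Sg}, x₁ s = Ideal.Quotient.mk J₁ (gen F Sg s))
    (hxs₂ : ∀ s : {ω // ω ∈ Sg}, x₂ s = Ideal.Quotient.mk J₂ (gen F Sg s)) (ω : Ω) :
    Ideal.Quotient.factor hle (x₁ ω) = x₂ ω := by
  haveI := h₁.finite
  haveI := h₂.finite
  haveI : IsLocalRing (PS 𝒪 Sg ⧸ J₁) := isLocalRing_quotient h₁.ne_top
  haveI : IsLocalRing (PS 𝒪 Sg ⧸ J₂) := isLocalRing_quotient h₂.ne_top
  have hpush : NQ F Sg J₂ h₂.ne_top (fun ω => Ideal.Quotient.factorₐ 𝒪 hle (x₁ ω)) :=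
    F.push _ _ (isArtinianTestAlgebra_PS_quotient h₁.ne_top)
      (isArtinianTestAlgebra_PS_quotient h₂.ne_top) (Ideal.Quotient.factorₐ 𝒪 hle) x₁ hx₁
  have := h₂.point_unique hSg _ _ hpush hx₂ (fun s => by
    show Ideal.Quotient.factorₐ 𝒪 hle (x₁ s) = _
    rw [hxs₁ s]; rfl) hxs₂
  exact congrFun this ω

/-- A lift of the canonical point to the power series ring. -/
noncomputable def liftK (hSg : Separates F Sg) (n : ℕ) (ω : Ω) : PS 𝒪 Sg :=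
  (Ideal.Quotient.mk_surjective (ptK hSg n ω)).choose

theorem mk_liftK (hSg : Separates F Sg) (n : ℕ) (ω : Ω) :
    Ideal.Quotient.mk _ (liftK hSg n ω) = ptK hSg n ω :=
  (Ideal.Quotient.mk_surjective (ptK hSg n ω)).choose_spec

/-- The sequence of lifts (with a dummy value at index `0`). -/
noncomputable def ySeq (hSg : Separates F Sg) (ω : Ω) : ℕ → PS 𝒪 Sg
  | 0 => 0
  | (n + 1) => liftK hSg n ω

theorem Kn_zero : Kn F Sg 0 = ⊤ := by
  have := pow_le_Kn (F := F) (Sg := Sg) 0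
  rw [pow_zero, Ideal.one_eq_top] at this
  exact top_le_iff.mp this

theorem ySeq_succ_sub (hSg : Separates F Sg) (ω : Ω) (n : ℕ) :
    ySeq hSg ω (n + 1) - ySeq hSg ω n ∈ Kn F Sg n := by
  cases n with
  | zero => rw [Kn_zero]; trivial
  | succ m =>
    show liftK hSg (m + 1) ω - liftK hSg m ω ∈ Kn F Sg (m + 1)
    rw [← Ideal.Quotient.eq, mk_liftK]
    have h := point_factor hSg (isGood_Kn_succ hSg (m + 1)) (isGood_Kn_succ hSg m)
      (Kn_anti (m + 1)) _ _ (ptK_mem hSg (m + 1)) (ptK_mem hSg m) (ptK_gen hSg (m + 1))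
      (ptK_gen hSg m) ω
    rw [← h, ← mk_liftK]
    rfl

theorem exists_xL (hSg : Separates F Sg) (ω : Ω) :
    ∃ L : PS 𝒪 Sg, ∀ n, L - ySeq hSg ω n ∈ Kn F Sg n := by
  obtain ⟨L, -, hL⟩ := ml_exists (maximalIdeal (PS 𝒪 Sg)) (Kn F Sg) (Kn_step hSg) pow_le_Kn
    (ySeq hSg ω) (ySeq_succ_sub hSg ω) 0
  exact ⟨L, fun n => hL n (Nat.zero_le n)⟩

/-- The universal point, lifted to the power series ring. -/
noncomputable def xL (hSg : Separates F Sg) (ω : Ω) : PS 𝒪 Sg := (exists_xL hSg ω).choose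

theorem xL_spec (hSg : Separates F Sg) (ω : Ω) (n : ℕ) :
    Ideal.Quotient.mk (Kn F Sg (n + 1)) (xL hSg ω) = ptK hSg n ω := by
  rw [← mk_liftK, Ideal.Quotient.eq]
  exact (exists_xL hSg ω).choose_spec (n + 1)

theorem xL_gen (hSg : Separates F Sg) (s : {ω // ω ∈ Sg}) :
    xL hSg (s : Ω) - gen F Sg s ∈ Kinf F Sg := by
  rw [Kinf, Submodule.mem_iInf]
  intro n
  cases n with
  | zero => rw [Kn_zero]; trivial
  | succ m =>
    rw [← Ideal.Quotient.eq, xL_spec, ptK_gen]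


variable (F Sg)

/-- The pro-representing ring. -/
abbrev RR : Type := PS 𝒪 Sg ⧸ Kinf F Sg

instance instIsLocalRingRR : IsLocalRing (RR F Sg) := isLocalRing_quotient Kinf_ne_top

instance instIsLocalHomPSRR : IsLocalHom (algebraMap (PS 𝒪 Sg) (RR F Sg)) :=
  IsLocalHom.of_surjective (algebraMap (PS 𝒪 Sg) (RR F Sg)) Ideal.Quotient.mk_surjective

instance instIsAdicCompleteRR : IsAdicComplete (maximalIdeal (RR F Sg)) (RR F Sg) :=
  IsLocalRing.isAdicComplete_of_module_finite (𝒪 := PS 𝒪 Sg) (T := RR F Sg)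

theorem RR_mk_mem_maximalIdeal_iff (y : PS 𝒪 Sg) :
    Ideal.Quotient.mk (Kinf F Sg) y ∈ maximalIdeal (RR F Sg) ↔ y ∈ maximalIdeal (PS 𝒪 Sg) :=
  mk_mem_maximalIdeal_iff Kinf_ne_top y

instance instIsLocalHomRR : IsLocalHom (algebraMap 𝒪 (RR F Sg)) := by
  constructor
  intro o ho
  have h1 : IsUnit (algebraMap 𝒪 (PS 𝒪 Sg) o) := by
    by_contra h
    have h2 : algebraMap 𝒪 (PS 𝒪 Sg) o ∈ maximalIdeal (PS 𝒪 Sg) := (mem_maximalIdeal _).mpr h
    have h3 := (RR_mk_mem_maximalIdeal_iff F Sg _).mpr h2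
    exact ((mem_maximalIdeal _).mp h3) ho
  exact mvps_isLocalHom.map_nonunit o h1

theorem RR_residue_surjective :
    Function.Surjective (residue (RR F Sg) ∘ algebraMap 𝒪 (RR F Sg)) := by
  refine residue_surjective_of_forall fun x => ?_
  obtain ⟨y, rfl⟩ := Ideal.Quotient.mk_surjective x
  obtain ⟨o, ho⟩ := exists_sub_mem_maximalIdeal
    (mvps_residue_surjective (σ := {ω // ω ∈ Sg}) (𝒪 := 𝒪)) y
  exact ⟨o, (RR_mk_mem_maximalIdeal_iff F Sg _).mpr ho⟩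

variable {F Sg}

/-- The universal point. -/
noncomputable def xR (hSg : Separates F Sg) (ω : Ω) : RR F Sg :=
  Ideal.Quotient.mk (Kinf F Sg) (xL hSg ω)

theorem xR_gen (hSg : Separates F Sg) (s : {ω // ω ∈ Sg}) :
    xR hSg (s : Ω) = Ideal.Quotient.mk (Kinf F Sg) (gen F Sg s) := by
  rw [xR, Ideal.Quotient.eq]
  exact xL_gen hSg s

theorem xR_lift (hSg : Separates F Sg) (ω : Ω) :
    xR hSg ω - algebraMap 𝒪 (RR F Sg) (F.base ω) ∈ maximalIdeal (RR F Sg) := by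
  have hg := isGood_Kn_succ hSg 0
  haveI := hg.finite
  haveI : IsLocalRing (PS 𝒪 Sg ⧸ Kn F Sg (0 + 1)) := isLocalRing_quotient hg.ne_top
  have h1 := F.lift _ (isArtinianTestAlgebra_PS_quotient hg.ne_top) (ptK hSg 0) (ptK_mem hSg 0) ω
  rw [← xL_spec] at h1
  have h2 : Ideal.Quotient.mk (Kn F Sg (0 + 1)) (xL hSg ω) -
      algebraMap 𝒪 (PS 𝒪 Sg ⧸ Kn F Sg (0 + 1)) (F.base ω) =
      Ideal.Quotient.mk (Kn F Sg (0 + 1)) (xL hSg ω - algebraMap 𝒪 (PS 𝒪 Sg) (F.base ω)) := rfl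
  rw [h2, mk_mem_maximalIdeal_iff hg.ne_top] at h1
  exact (RR_mk_mem_maximalIdeal_iff F Sg _).mpr h1

theorem xR_mem (hSg : Separates F Sg) (B : Type) [CommRing B] [IsLocalRing B] [Algebra 𝒪 B]
    (hB : IsArtinianTestAlgebra 𝒪 B) (q : RR F Sg →ₐ[𝒪] B) :
    F.N B (fun ω => q (xR hSg ω)) := by
  haveI := hB.isArtinian
  obtain ⟨n, hn⟩ := exists_maximalIdeal_pow_eq_bot B
  let q' : PS 𝒪 Sg →ₐ[𝒪] B := q.comp (Ideal.Quotient.mkₐ 𝒪 (Kinf F Sg))
  have hmax : maximalIdeal (PS 𝒪 Sg) ≤ (maximalIdeal B).comap (q' : PS 𝒪 Sg →+* B) :=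
    fun y hy => map_mem_maximalIdeal hB.isLocalHom hB.residue_surjective q' hy
  have hker_pow : maximalIdeal (PS 𝒪 Sg) ^ (n + 1) ≤ RingHom.ker (q' : PS 𝒪 Sg →+* B) := by
    intro y hy
    have h1 : q' y ∈ (maximalIdeal (PS 𝒪 Sg) ^ (n + 1)).map (q' : PS 𝒪 Sg →+* B) :=
      Ideal.mem_map_of_mem _ hy
    rw [Ideal.map_pow] at h1
    have h2 : (maximalIdeal (PS 𝒪 Sg)).map (q' : PS 𝒪 Sg →+* B) ≤ maximalIdeal B :=
      Ideal.map_le_iff_le_comap.mpr hmax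
    have h3 := (Ideal.pow_right_mono h2 (n + 1)) h1
    have h4 : maximalIdeal B ^ (n + 1) ≤ maximalIdeal B ^ n := Ideal.pow_le_pow_right (Nat.le_succ n)
    have h5 := h4 h3
    rw [hn] at h5
    exact (RingHom.mem_ker).mpr (by simpa using h5)
  have hker_K : Kinf F Sg ≤ RingHom.ker (q' : PS 𝒪 Sg →+* B) := by
    intro y hy
    rw [RingHom.mem_ker]
    show q (Ideal.Quotient.mk (Kinf F Sg) y) = 0
    rw [Ideal.Quotient.eq_zero_iff_mem.mpr hy, map_zero]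
  have hker : Kn F Sg (n + 1) ≤ RingHom.ker (q' : PS 𝒪 Sg →+* B) :=
    (Kn_le_Kinf_sup hSg (n + 1)).trans (sup_le hker_K hker_pow)
  let q'' : PS 𝒪 Sg ⧸ Kn F Sg (n + 1) →ₐ[𝒪] B :=
    Ideal.Quotient.liftₐ (Kn F Sg (n + 1)) q' (fun a ha => hker ha)
  have hg := isGood_Kn_succ hSg n
  haveI := hg.finite
  haveI : IsLocalRing (PS 𝒪 Sg ⧸ Kn F Sg (n + 1)) := isLocalRing_quotient hg.ne_top
  have h := F.push _ B (isArtinianTestAlgebra_PS_quotient hg.ne_top) hB q'' (ptK hSg n)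
    (ptK_mem hSg n)
  have heq : (fun ω => q'' (ptK hSg n ω)) = fun ω => q (xR hSg ω) := by
    funext ω
    rw [← xL_spec]
    rfl
  rw [heq] at h
  exact h


theorem xR_exists_hom (hSg : Separates F Sg) (A : Type) [CommRing A] [IsLocalRing A]
    [Algebra 𝒪 A] (hA : IsArtinianTestAlgebra 𝒪 A) (y : Ω → A) (hy : F.N A y) :
    ∃ φ : RR F Sg →ₐ[𝒪] A, ∀ ω, φ (xR hSg ω) = y ω := by
  classical
  haveI : Finite A := finite_of_isArtinianTestAlgebra hA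
  haveI := hA.isArtinian
  -- the evaluation homomorphism
  have hnil : ∀ s : {ω // ω ∈ Sg}, IsNilpotent (y s - algebraMap 𝒪 A (F.base s)) :=
    fun s => isNilpotent_of_mem_maximalIdeal (F.lift A hA y hy s)
  obtain ⟨φ₀, hφ₀⟩ := helper61.wp2a {ω // ω ∈ Sg} 𝒪 A
    (fun s => y s - algebraMap 𝒪 A (F.base s)) hnil
  have hφ₀gen : ∀ s : {ω // ω ∈ Sg}, φ₀ (gen F Sg s) = y s := by
    intro s
    rw [gen, map_add, hφ₀, ← mvps_algebraMap_eq, AlgHom.commutes]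
    ring
  have hrange : ∀ ω, y ω ∈ φ₀.range := by
    intro ω
    rw [helper61.wp2c {ω // ω ∈ Sg} 𝒪 A φ₀ (fun s => by rw [hφ₀]; exact hnil s)]
    have := generation hSg A hA y hy ω
    have heq : (Set.range fun s : {ω // ω ∈ Sg} => φ₀ (MvPowerSeries.X s)) =
        Set.range fun s : {ω // ω ∈ Sg} => y s - algebraMap 𝒪 A (F.base s) := by
      congr 1
      funext s
      exact hφ₀ s
    rw [heq]
    exact this
  -- the kernel is a good ideal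
  let J : Ideal (PS 𝒪 Sg) := RingHom.ker (φ₀ : PS 𝒪 Sg →+* A)
  have hJtop : J ≠ ⊤ := by
    intro h
    have h1 : (1 : PS 𝒪 Sg) ∈ J := by rw [h]; trivial
    have h2 : φ₀ 1 = 0 := h1
    rw [map_one] at h2
    exact one_ne_zero h2
  let ι : PS 𝒪 Sg ⧸ J →ₐ[𝒪] A := Ideal.kerLiftAlg φ₀
  have hι : Function.Injective ι := Ideal.kerLiftAlg_injective φ₀
  have hιmk : ∀ p : PS 𝒪 Sg, ι (Ideal.Quotient.mk J p) = φ₀ p := fun p => rfl
  haveI : Finite (PS 𝒪 Sg ⧸ J) := Finite.of_injective ι hι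
  haveI : IsLocalRing (PS 𝒪 Sg ⧸ J) := isLocalRing_quotient hJtop
  have hQ : IsArtinianTestAlgebra 𝒪 (PS 𝒪 Sg ⧸ J) := isArtinianTestAlgebra_PS_quotient hJtop
  let xJ : Ω → PS 𝒪 Sg ⧸ J := fun ω => Ideal.Quotient.mk J (hrange ω).choose
  have hxJ : ∀ ω, ι (xJ ω) = y ω := fun ω => (hrange ω).choose_spec
  have hxJN : NQ F Sg J hJtop xJ := by
    refine F.desc _ A hQ hA ι hι xJ ?_
    rw [show (fun ω => ι (xJ ω)) = y from funext hxJ]
    exact hy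
  have hxJgen : ∀ s : {ω // ω ∈ Sg}, xJ s = Ideal.Quotient.mk J (gen F Sg s) := by
    intro s
    apply hι
    rw [hxJ, hιmk, hφ₀gen]
  have hgood : IsGood F Sg J := ⟨hJtop, inferInstance, xJ, hxJN, hxJgen⟩
  obtain ⟨n, hn⟩ := finite_PS_quotient_iff.mp hgood.finite
  have hKn : Kn F Sg (n + 1) ≤ J :=
    Kn_le_of_isGood hgood ((Ideal.pow_le_pow_right (Nat.le_succ n)).trans hn)
  have hK : Kinf F Sg ≤ J := (Kinf_le (n + 1)).trans hKn
  refine ⟨Ideal.Quotient.liftₐ (Kinf F Sg) φ₀ (fun a ha => hK ha), fun ω => ?_⟩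
  show φ₀ (xL hSg ω) = y ω
  rw [← hιmk, ← hxJ]
  congr 1
  have h := point_factor hSg (isGood_Kn_succ hSg n) hgood hKn _ _ (ptK_mem hSg n) hxJN
    (ptK_gen hSg n) hxJgen ω
  rw [← h, ← xL_spec]
  rfl

theorem xR_hom_ext (hSg : Separates F Sg) (A : Type) [CommRing A] [IsLocalRing A]
    [Algebra 𝒪 A] (hA : IsArtinianTestAlgebra 𝒪 A) (φ ψ : RR F Sg →ₐ[𝒪] A)
    (h : ∀ ω, φ (xR hSg ω) = ψ (xR hSg ω)) : φ = ψ := by
  haveI := hA.isArtinian
  let φ' : PS 𝒪 Sg →ₐ[𝒪] A := φ.comp (Ideal.Quotient.mkₐ 𝒪 (Kinf F Sg))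
  let ψ' : PS 𝒪 Sg →ₐ[𝒪] A := ψ.comp (Ideal.Quotient.mkₐ 𝒪 (Kinf F Sg))
  have hX : ∀ s : {ω // ω ∈ Sg}, (MvPowerSeries.X s : PS 𝒪 Sg) =
      gen F Sg s - algebraMap 𝒪 (PS 𝒪 Sg) (F.base s) := by
    intro s
    rw [gen, mvps_algebraMap_eq]; ring
  have hφψ : φ' = ψ' := by
    refine helper61.wp2b {ω // ω ∈ Sg} 𝒪 A φ' ψ' ?_ ?_
    · intro s
      exact isNilpotent_of_mem_maximalIdeal
        (map_mem_maximalIdeal hA.isLocalHom hA.residue_surjective φ' (mvps_X_mem_maximalIdeal s))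
    · intro s
      rw [hX s, map_sub, map_sub, AlgHom.commutes, AlgHom.commutes]
      congr 1
      show φ (Ideal.Quotient.mk (Kinf F Sg) (gen F Sg s)) =
        ψ (Ideal.Quotient.mk (Kinf F Sg) (gen F Sg s))
      rw [← xR_gen hSg s]
      exact h s
  apply AlgHom.ext
  intro r
  obtain ⟨p, rfl⟩ := Ideal.Quotient.mk_surjective r
  exact congrArg (fun f : PS 𝒪 Sg →ₐ[𝒪] A => f p) hφψ

/-- **Pro-representability** of a lift functor, given a separating set of coordinates. -/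
theorem nonempty_proRep_of_separates (hSg : Separates F Sg) : Nonempty (ProRep F) :=
  ⟨{ R := RR F Sg
     residue_surjective := RR_residue_surjective F Sg
     x := xR hSg
     x_lift := xR_lift hSg
     x_mem := fun B _ _ _ hB q => xR_mem hSg B hB q
     exists_hom := fun A _ _ _ hA y hy => xR_exists_hom hSg A hA y hy
     hom_ext := fun A _ _ _ hA φ ψ h => xR_hom_ext hSg A hA φ ψ h }⟩

/-- **Pro-representability** of a lift functor. -/
theorem nonempty_proRep (F : LiftFunctor 𝒪 Ω) : Nonempty (ProRep F) := by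
  obtain ⟨Sg, hSg⟩ := exists_separating F
  exact nonempty_proRep_of_separates (Sg := Sg) hSg

end Fermat.Agent.S53
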