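import Fermat.Prelude.Def_GaloisRep_DeformationCondition

/-!
# S53: basic definitions for the universal deformation ring construction

* `LiftFunctor 𝒪 Ω`: an abstract "coordinate" deformation functor (a subfunctor of
  `A ↦ {x : Ω → A | x ≡ base mod 𝔪_A}` on Artinian test algebras) satisfying the
  Mazur--Ramakrishna closure conditions and tangent finiteness.
* `ProRep F`: a pro-representing complete Noetherian local `𝒪`-algebra for `F`.
-/

set_option autoImplicit false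

namespace Fermat.Agent.S53

open IsLocalRing GaloisRep

/-- The `𝒪`-algebra structure on the dual numbers of the residue field, exactly as it is
introduced (by `letI`) in `GaloisRep.TangentFinite`. -/
@[reducible] noncomputable def dualAlg (𝒪 : Type) [CommRing 𝒪] [IsLocalRing 𝒪] :
    Algebra 𝒪 (DualNumber (ResidueField 𝒪)) :=
  ((algebraMap (ResidueField 𝒪) (DualNumber (ResidueField 𝒪))).comp
      (algebraMap 𝒪 (ResidueField 𝒪))).toAlgebra

/-- An abstract deformation functor in coordinates. -/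
structure LiftFunctor (𝒪 : Type) [CommRing 𝒪] [IsLocalRing 𝒪] (Ω : Type) where
  /-- base values (a set-theoretic lift of the residual point) -/
  base : Ω → 𝒪
  /-- the points of the functor -/
  N : ∀ (A : Type) [CommRing A] [IsLocalRing A] [Algebra 𝒪 A], (Ω → A) → Prop
  lift : ∀ (A : Type) [CommRing A] [IsLocalRing A] [Algebra 𝒪 A], IsArtinianTestAlgebra 𝒪 A →
    ∀ x : Ω → A, N A x → ∀ ω, x ω - algebraMap 𝒪 A (base ω) ∈ maximalIdeal A
  push : ∀ (A B : Type) [CommRing A] [IsLocalRing A] [Algebra 𝒪 A]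
    [CommRing B] [IsLocalRing B] [Algebra 𝒪 B],
    IsArtinianTestAlgebra 𝒪 A → IsArtinianTestAlgebra 𝒪 B →
    ∀ (φ : A →ₐ[𝒪] B) (x : Ω → A), N A x → N B (fun ω => φ (x ω))
  desc : ∀ (A B : Type) [CommRing A] [IsLocalRing A] [Algebra 𝒪 A]
    [CommRing B] [IsLocalRing B] [Algebra 𝒪 B],
    IsArtinianTestAlgebra 𝒪 A → IsArtinianTestAlgebra 𝒪 B →
    ∀ (φ : A →ₐ[𝒪] B), Function.Injective φ →
    ∀ (x : Ω → A), N B (fun ω => φ (x ω)) → N A x
  fib : ∀ (A B C P : Type) [CommRing A] [IsLocalRing A] [Algebra 𝒪 A]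
    [CommRing B] [IsLocalRing B] [Algebra 𝒪 B] [CommRing C] [IsLocalRing C] [Algebra 𝒪 C]
    [CommRing P] [IsLocalRing P] [Algebra 𝒪 P],
    IsArtinianTestAlgebra 𝒪 A → IsArtinianTestAlgebra 𝒪 B → IsArtinianTestAlgebra 𝒪 C →
    IsArtinianTestAlgebra 𝒪 P →
    ∀ (f : A →ₐ[𝒪] C) (g : B →ₐ[𝒪] C) (pA : P →ₐ[𝒪] A) (pB : P →ₐ[𝒪] B),
      f.comp pA = g.comp pB →
      Function.Injective (fun x => (pA x, pB x)) →
      (∀ a b, f a = g b → ∃ x, pA x = a ∧ pB x = b) →
      ∀ (x : Ω → P), N A (fun ω => pA (x ω)) → N B (fun ω => pB (x ω)) → N P x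
  res : N (ResidueField 𝒪) (fun ω => residue 𝒪 (base ω))
  tan : letI := dualAlg 𝒪
    Finite {x : Ω → DualNumber (ResidueField 𝒪) // N (DualNumber (ResidueField 𝒪)) x}

/-- A pro-representing object for a `LiftFunctor`. -/
structure ProRep {𝒪 : Type} [CommRing 𝒪] [IsLocalRing 𝒪] {Ω : Type} (F : LiftFunctor 𝒪 Ω) where
  R : Type
  [instCommRing : CommRing R]
  [instIsLocalRing : IsLocalRing R]
  [instIsNoetherianRing : IsNoetherianRing R]
  [instIsAdicComplete : IsAdicComplete (maximalIdeal R) R]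
  [instAlgebra : Algebra 𝒪 R]
  [instIsLocalHom : IsLocalHom (algebraMap 𝒪 R)]
  residue_surjective : Function.Surjective (residue R ∘ algebraMap 𝒪 R)
  /-- the universal point -/
  x : Ω → R
  x_lift : ∀ ω, x ω - algebraMap 𝒪 R (F.base ω) ∈ maximalIdeal R
  x_mem : ∀ (B : Type) [CommRing B] [IsLocalRing B] [Algebra 𝒪 B], IsArtinianTestAlgebra 𝒪 B →
    ∀ q : R →ₐ[𝒪] B, F.N B (fun ω => q (x ω))
  exists_hom : ∀ (A : Type) [CommRing A] [IsLocalRing A] [Algebra 𝒪 A],
    IsArtinianTestAlgebra 𝒪 A → ∀ y : Ω → A, F.N A y → ∃ φ : R →ₐ[𝒪] A, ∀ ω, φ (x ω) = y ω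
  hom_ext : ∀ (A : Type) [CommRing A] [IsLocalRing A] [Algebra 𝒪 A],
    IsArtinianTestAlgebra 𝒪 A → ∀ φ ψ : R →ₐ[𝒪] A, (∀ ω, φ (x ω) = ψ (x ω)) → φ = ψ

attribute [instance] ProRep.instCommRing ProRep.instIsLocalRing ProRep.instIsNoetherianRing
  ProRep.instIsAdicComplete ProRep.instAlgebra ProRep.instIsLocalHom

end Fermat.Agent.S53
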