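import Mathlib

/-!
# S53 work package WP6: rigidity of normalised lifts

An intertwiner `Y` between two lifts `R`, `R'` (to a local ring `A`) of the same triple of
`2 × 2` matrices over the residue field, which agree in the three normalising coordinates, is the
scalar matrix `Y 0 0`.
-/

set_option autoImplicit false

namespace Fermat.Agent.S53.helper65

open Matrix

section psi

variable {B : Type} [CommRing B]

/-- The linear map `Z ↦ (Z₀₀, ((Z S_t - S'_t Z)_{i_t j_t})_t)`, packaged as an endomorphism of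
the `2 × 2` matrices. -/
def psiLin (S S' : Fin 3 → Matrix (Fin 2) (Fin 2) B) (iN jN : Fin 3 → Fin 2) :
    Matrix (Fin 2) (Fin 2) B →ₗ[B] Matrix (Fin 2) (Fin 2) B where
  toFun Z := !![Z 0 0, (Z * S 0 - S' 0 * Z) (iN 0) (jN 0);
                (Z * S 1 - S' 1 * Z) (iN 1) (jN 1), (Z * S 2 - S' 2 * Z) (iN 2) (jN 2)]
  map_add' Z W := by
    ext i j
    fin_cases i <;> fin_cases j <;>
      simp [add_mul, mul_add, Matrix.add_apply, Matrix.sub_apply] <;> abel
  map_smul' c Z := by
    ext i j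
    fin_cases i <;> fin_cases j <;>
      simp [Matrix.sub_apply, Matrix.smul_apply, mul_sub]

lemma psiLin_apply (S S' : Fin 3 → Matrix (Fin 2) (Fin 2) B) (iN jN : Fin 3 → Fin 2)
    (Z : Matrix (Fin 2) (Fin 2) B) :
    psiLin S S' iN jN Z = !![Z 0 0, (Z * S 0 - S' 0 * Z) (iN 0) (jN 0);
                (Z * S 1 - S' 1 * Z) (iN 1) (jN 1), (Z * S 2 - S' 2 * Z) (iN 2) (jN 2)] := rfl

lemma psiLin_eq_zero_iff (S S' : Fin 3 → Matrix (Fin 2) (Fin 2) B) (iN jN : Fin 3 → Fin 2)
    (Z : Matrix (Fin 2) (Fin 2) B) :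
    psiLin S S' iN jN Z = 0 ↔ Z 0 0 = 0 ∧ ∀ t, (Z * S t - S' t * Z) (iN t) (jN t) = 0 := by
  rw [psiLin_apply]
  constructor
  · intro h
    have h00 := congrFun (congrFun h 0) 0
    have h01 := congrFun (congrFun h 0) 1
    have h10 := congrFun (congrFun h 1) 0
    have h11 := congrFun (congrFun h 1) 1
    simp at h00 h01 h10 h11
    refine ⟨h00, fun t => ?_⟩
    fin_cases t
    · exact h01
    · exact h10
    · exact h11
  · rintro ⟨h0, h⟩
    ext i j
    fin_cases i <;> fin_cases j
    · simpa using h0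
    · simpa using h 0
    · simpa using h 1
    · simpa using h 2

lemma psiLin_map {A k : Type} [CommRing A] [CommRing k] (π : A →+* k)
    (R R' : Fin 3 → Matrix (Fin 2) (Fin 2) A) (iN jN : Fin 3 → Fin 2)
    (Z : Matrix (Fin 2) (Fin 2) A) :
    (psiLin R R' iN jN Z).map π =
      psiLin (fun t => (R t).map π) (fun t => (R' t).map π) iN jN (Z.map π) := by
  have key : ∀ t, π ((Z * R t - R' t * Z) (iN t) (jN t)) =
      (Z.map π * (R t).map π - (R' t).map π * Z.map π) (iN t) (jN t) := by
    intro t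
    rw [← Matrix.map_mul, ← Matrix.map_mul, ← Matrix.map_sub π (map_sub π), Matrix.map_apply]
  rw [psiLin_apply, psiLin_apply]
  ext i j
  fin_cases i <;> fin_cases j
  · simp
  · simpa using key 0
  · simpa using key 1
  · simpa using key 2

/-- Identification of `2 × 2` matrices with vectors indexed by `Fin 2 × Fin 2`. -/
def vecEquiv (B : Type) [CommRing B] :
    Matrix (Fin 2) (Fin 2) B ≃ₗ[B] (Fin 2 × Fin 2 → B) where
  toFun Z := fun c => Z c.1 c.2
  invFun z := Matrix.of fun i j => z (i, j)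
  map_add' _ _ := rfl
  map_smul' _ _ := rfl
  left_inv _ := rfl
  right_inv _ := rfl

lemma vecEquiv_symm_apply (z : Fin 2 × Fin 2 → B) (i j : Fin 2) :
    (vecEquiv B).symm z i j = z (i, j) := rfl

lemma vecEquiv_apply (Z : Matrix (Fin 2) (Fin 2) B) (c : Fin 2 × Fin 2) :
    vecEquiv B Z c = Z c.1 c.2 := rfl

/-- `psiLin` transported to vectors. -/
def psiVec (S S' : Fin 3 → Matrix (Fin 2) (Fin 2) B) (iN jN : Fin 3 → Fin 2) :
    (Fin 2 × Fin 2 → B) →ₗ[B] (Fin 2 × Fin 2 → B) :=
  (vecEquiv B).toLinearMap ∘ₗ psiLin S S' iN jN ∘ₗ (vecEquiv B).symm.toLinearMap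

lemma psiVec_apply (S S' : Fin 3 → Matrix (Fin 2) (Fin 2) B) (iN jN : Fin 3 → Fin 2)
    (z : Fin 2 × Fin 2 → B) (r : Fin 2 × Fin 2) :
    psiVec S S' iN jN z r = psiLin S S' iN jN ((vecEquiv B).symm z) r.1 r.2 := rfl

lemma vecEquiv_symm_single_map {A k : Type} [CommRing A] [CommRing k] (π : A →+* k)
    (c : Fin 2 × Fin 2) :
    ((vecEquiv A).symm (Pi.single c 1)).map π = (vecEquiv k).symm (Pi.single c 1) := by
  ext i j
  rw [Matrix.map_apply, vecEquiv_symm_apply, vecEquiv_symm_apply, Pi.single_apply, Pi.single_apply]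
  split_ifs <;> simp

lemma toMatrix'_psiVec_map {A k : Type} [CommRing A] [CommRing k] (π : A →+* k)
    (R R' : Fin 3 → Matrix (Fin 2) (Fin 2) A) (iN jN : Fin 3 → Fin 2) :
    (LinearMap.toMatrix' (psiVec R R' iN jN)).map π =
      LinearMap.toMatrix' (psiVec (fun t => (R t).map π) (fun t => (R' t).map π) iN jN) := by
  ext r c
  rw [Matrix.map_apply, LinearMap.toMatrix'_apply, LinearMap.toMatrix'_apply, psiVec_apply,
    psiVec_apply, ← vecEquiv_symm_single_map π c, ← psiLin_map, Matrix.map_apply]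

end psi

/-- A surjective ring hom from a local ring to a field detects units. -/
lemma isUnit_of_map_ne_zero {A k : Type} [CommRing A] [IsLocalRing A] [Field k]
    (π : A →+* k) (hπ : Function.Surjective π) {x : A} (hx : π x ≠ 0) : IsUnit x := by
  by_contra hnu
  have hmax : (RingHom.ker π).IsMaximal := RingHom.ker_isMaximal_of_surjective π hπ
  have hker : RingHom.ker π = IsLocalRing.maximalIdeal A := IsLocalRing.eq_maximalIdeal hmax
  have hxm : x ∈ IsLocalRing.maximalIdeal A := (IsLocalRing.mem_maximalIdeal x).mpr hnu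
  rw [← hker] at hxm
  exact hx ((RingHom.mem_ker).mp hxm)

/-- **WP6 (rigidity).** -/
theorem rigidity {k : Type} [Field k] (M : Fin 3 → Matrix (Fin 2) (Fin 2) k)
    (iN jN : Fin 3 → Fin 2)
    (hker : ∀ X : Matrix (Fin 2) (Fin 2) k,
      (∀ t, (X * M t - M t * X) (iN t) (jN t) = 0) →
        ∃ c : k, X = c • (1 : Matrix (Fin 2) (Fin 2) k))
    {A : Type} [CommRing A] [IsLocalRing A] (π : A →+* k) (hπ : Function.Surjective π)
    (R R' : Fin 3 → Matrix (Fin 2) (Fin 2) A)
    (hR : ∀ t, (R t).map π = M t) (hR' : ∀ t, (R' t).map π = M t)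
    (hcoord : ∀ t, R t (iN t) (jN t) = R' t (iN t) (jN t))
    (Y : Matrix (Fin 2) (Fin 2) A) (hY : ∀ t, Y * R t = R' t * Y) :
    Y = Y 0 0 • (1 : Matrix (Fin 2) (Fin 2) A) := by
  classical
  -- injectivity over the residue field
  have hinj_k : LinearMap.ker (psiVec M M iN jN) = ⊥ := by
    rw [LinearMap.ker_eq_bot']
    intro z hz
    have hz' : psiLin M M iN jN ((vecEquiv k).symm z) = 0 := by
      apply (vecEquiv k).injective
      rw [map_zero]
      exact hz
    rw [psiLin_eq_zero_iff] at hz'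
    obtain ⟨c, hc⟩ := hker _ hz'.2
    have h00 := hz'.1
    rw [hc] at h00
    have hc0 : c = 0 := by simpa using h00
    rw [hc0, zero_smul] at hc
    have := congrArg (vecEquiv k) hc
    simpa using this
  have hdet_k : LinearMap.det (psiVec M M iN jN) ≠ 0 := by
    intro h0
    have := LinearMap.bot_lt_ker_of_det_eq_zero h0
    rw [hinj_k] at this
    exact lt_irrefl _ this
  -- the determinant over `A` is a unit
  have hMeq : (fun t => (R t).map π) = M := funext hR
  have hMeq' : (fun t => (R' t).map π) = M := funext hR'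
  have hdetA : IsUnit (LinearMap.toMatrix' (psiVec R R' iN jN)).det := by
    apply isUnit_of_map_ne_zero π hπ
    rw [RingHom.map_det, RingHom.mapMatrix_apply, toMatrix'_psiVec_map, hMeq, hMeq',
      LinearMap.det_toMatrix']
    exact hdet_k
  have hinjA : Function.Injective (psiVec R R' iN jN) := by
    have h1 : Function.Injective (LinearMap.toMatrix' (psiVec R R' iN jN)).mulVec :=
      Matrix.mulVec_injective_of_isUnit ((Matrix.isUnit_iff_isUnit_det _).mpr hdetA)
    intro z w hzw
    apply h1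
    rw [LinearMap.toMatrix'_mulVec, LinearMap.toMatrix'_mulVec, hzw]
  -- compare `Y` and `Y 0 0 • 1`
  have hpsi : psiLin R R' iN jN Y = psiLin R R' iN jN (Y 0 0 • (1 : Matrix (Fin 2) (Fin 2) A)) := by
    have h1 : ∀ t, (Y * R t - R' t * Y) (iN t) (jN t) = 0 := by
      intro t; rw [hY t, sub_self]; rfl
    have h2 : ∀ t, ((Y 0 0 • (1 : Matrix (Fin 2) (Fin 2) A)) * R t -
        R' t * (Y 0 0 • (1 : Matrix (Fin 2) (Fin 2) A))) (iN t) (jN t) = 0 := by
      intro t
      simp [Matrix.sub_apply, hcoord t]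
    rw [psiLin_apply, psiLin_apply, h1, h1, h1, h2, h2, h2]
    simp
  have hvec : psiVec R R' iN jN (vecEquiv A Y) =
      psiVec R R' iN jN (vecEquiv A (Y 0 0 • (1 : Matrix (Fin 2) (Fin 2) A))) := by
    simp only [psiVec, LinearMap.comp_apply, LinearEquiv.coe_coe, LinearEquiv.symm_apply_apply]
    rw [hpsi]
  exact (vecEquiv A).injective (hinjA hvec)

end Fermat.Agent.S53.helper65
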