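import Mathlib.RingTheory.LocalRing.Quotient
import Mathlib.RingTheory.AdicCompletion.Basic
import Mathlib.RingTheory.Artinian.Ring
import Mathlib.RingTheory.Noetherian.Basic

/-!
# S53 helper (helper70): Mittag-Leffler / Chevalley lemma

`S` is a Noetherian local ring, complete for its maximal ideal `𝔫`, with finite residue field.

* `exists_forall_sub_mem_of_antitone`: for an antitone sequence of open ideals `K n` and a
  compatible sequence `b n` there is `s` with `s - b n ∈ K n` for all `n`.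
* `exists_forall_sub_mem`: the same for a family of open ideals closed under pairwise infimum.
* `chevalley`: for such a family, every `sInf 𝒦 ⊔ 𝔫 ^ n` contains a member of the family.
-/

set_option autoImplicit false

namespace Fermat.Agent.S53.helper70

open IsLocalRing

variable {S : Type*} [CommRing S] [IsLocalRing S] [IsNoetherianRing S] [Finite (ResidueField S)]

theorem finite_quotient_maximalIdeal_pow (m : ℕ) : Finite (S ⧸ maximalIdeal S ^ m) :=
  finite_quotient_iff.mpr ⟨m, le_rfl⟩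

/-- Stabilisation: an antitone sequence of ideals becomes stationary modulo `𝔫^m`. -/
theorem exists_stabilize (K : ℕ → Ideal S) (hK : Antitone K) (m : ℕ) :
    ∃ N, ∀ n, N ≤ n → K n ⊔ maximalIdeal S ^ m = K N ⊔ maximalIdeal S ^ m := by
  have : Finite (S ⧸ maximalIdeal S ^ m) := finite_quotient_maximalIdeal_pow m
  have : IsArtinian S (S ⧸ maximalIdeal S ^ m) := inferInstance
  let q : S →ₗ[S] (S ⧸ maximalIdeal S ^ m) := Submodule.mkQ (maximalIdeal S ^ m)
  let f : ℕ →o (Submodule S (S ⧸ maximalIdeal S ^ m))ᵒᵈ :=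
    ⟨fun n => OrderDual.toDual (Submodule.map q (K n)),
      fun a b hab => OrderDual.toDual_le_toDual.mpr (Submodule.map_mono (hK hab))⟩
  obtain ⟨N, hN⟩ := IsArtinian.monotone_stabilizes f
  refine ⟨N, fun n hn => ?_⟩
  have h1 : Submodule.map q (K N) = Submodule.map q (K n) :=
    OrderDual.toDual.injective (hN n hn)
  have h2 : ∀ J : Ideal S, Submodule.comap q (Submodule.map q J) = J ⊔ maximalIdeal S ^ m := by
    intro J
    rw [Submodule.comap_map_eq, Submodule.ker_mkQ]
  rw [← h2 (K n), ← h2 (K N), h1]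

/-- A monotone, unbounded modulus of stabilisation. -/
theorem exists_stabilize_mono (K : ℕ → Ideal S) (hK : Antitone K) :
    ∃ M : ℕ → ℕ, Monotone M ∧ (∀ m, m ≤ M m) ∧
      ∀ m n, M m ≤ n → K n ⊔ maximalIdeal S ^ m = K (M m) ⊔ maximalIdeal S ^ m := by
  choose N hN using exists_stabilize K hK
  refine ⟨fun m => (Finset.range (m + 1)).sup N ⊔ m, ?_, fun m => le_sup_right, ?_⟩
  · intro a b hab
    apply sup_le_sup _ hab
    exact Finset.sup_mono (Finset.range_mono (Nat.succ_le_succ hab))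
  · intro m n hn
    have hNm : N m ≤ (Finset.range (m + 1)).sup N ⊔ m :=
      le_sup_of_le_left (Finset.le_sup (f := N) (Finset.mem_range.mpr (Nat.lt_succ_self m)))
    rw [hN m n (hNm.trans hn), hN m _ hNm]

variable [IsAdicComplete (maximalIdeal S) S]

/-- Core Mittag-Leffler statement for a sequence of open ideals. -/
theorem exists_forall_sub_mem_of_antitone (K : ℕ → Ideal S) (hK : Antitone K)
    (hopen : ∀ n, ∃ j, maximalIdeal S ^ j ≤ K n) (b : ℕ → S)
    (hb : ∀ n n', n ≤ n' → b n' - b n ∈ K n) :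
    ∃ s : S, ∀ n, s - b n ∈ K n := by
  obtain ⟨M, hMmono, hMle, hM⟩ := exists_stabilize_mono K hK
  -- one step of the recursion
  have step : ∀ m (c : S), c - b (M m) ∈ K (M m) →
      ∃ c' : S, c' - b (M (m + 1)) ∈ K (M (m + 1)) ∧ c' - c ∈ maximalIdeal S ^ m := by
    intro m c hc
    have hmm : M m ≤ M (m + 1) := hMmono (Nat.le_succ m)
    have hd : b (M (m + 1)) - c ∈ K (M m) := by
      have h1 := hb (M m) (M (m + 1)) hmm
      have h2 := (K (M m)).sub_mem h1 hc
      have e : b (M (m + 1)) - b (M m) - (c - b (M m)) = b (M (m + 1)) - c := by ring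
      rwa [e] at h2
    have hd' : b (M (m + 1)) - c ∈ K (M (m + 1)) ⊔ maximalIdeal S ^ m := by
      rw [hM m (M (m + 1)) hmm]
      exact Ideal.mem_sup_left hd
    obtain ⟨κ, hκ, e, he, hsum⟩ := Submodule.mem_sup.mp hd'
    refine ⟨c + e, ?_, by simpa using he⟩
    have e2 : c + e - b (M (m + 1)) = -κ := by
      have : e = b (M (m + 1)) - c - κ := by rw [← hsum]; ring
      rw [this]; ring
    rw [e2]
    exact (K (M (m + 1))).neg_mem hκ
  -- the recursive sequence, as a sequence in a subtype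
  let Φ : (m : ℕ) → {c : S // c - b (M m) ∈ K (M m)} := fun m =>
    Nat.rec (motive := fun m => {c : S // c - b (M m) ∈ K (M m)})
      ⟨b (M 0), by simp⟩
      (fun m c => ⟨(step m c.1 c.2).choose, (step m c.1 c.2).choose_spec.1⟩) m
  have hΦ : ∀ m, (Φ (m + 1)).1 - (Φ m).1 ∈ maximalIdeal S ^ m := fun m =>
    (step m (Φ m).1 (Φ m).2).choose_spec.2
  -- Cauchy property
  have hcauchy : ∀ m n, m ≤ n → (Φ n).1 - (Φ m).1 ∈ maximalIdeal S ^ m := by
    intro m n hmn
    induction n, hmn using Nat.le_induction with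
    | base => simp
    | succ n hmn ih =>
      have h1 : (Φ (n + 1)).1 - (Φ n).1 ∈ maximalIdeal S ^ m :=
        Ideal.pow_le_pow_right hmn (hΦ n)
      have := (maximalIdeal S ^ m).add_mem h1 ih
      have e : (Φ (n + 1)).1 - (Φ n).1 + ((Φ n).1 - (Φ m).1) = (Φ (n + 1)).1 - (Φ m).1 := by ring
      rwa [e] at this
  obtain ⟨s, hs⟩ := IsPrecomplete.prec (I := maximalIdeal S) (M := S) inferInstance
    (f := fun m => (Φ m).1) (fun {m n} hmn => by
      rw [SModEq.sub_mem]
      have := hcauchy m n hmn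
      have h2 := (maximalIdeal S ^ m).neg_mem this
      simpa using h2)
  have hs' : ∀ m, s - (Φ m).1 ∈ maximalIdeal S ^ m := by
    intro m
    have := hs m
    rw [SModEq.sub_mem] at this
    have h2 : (Φ m).1 - s ∈ maximalIdeal S ^ m := by simpa using this
    have h3 := (maximalIdeal S ^ m).neg_mem h2
    simpa using h3
  refine ⟨s, fun n => ?_⟩
  obtain ⟨j, hj⟩ := hopen n
  -- choose m ≥ j with M m ≥ n
  set m := max j n with hm
  have hjm : j ≤ m := le_max_left _ _
  have hnm : n ≤ M m := (le_max_right j n).trans (hMle m)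
  have h1 : s - (Φ m).1 ∈ K n := hj (Ideal.pow_le_pow_right hjm (hs' m))
  have h2 : (Φ m).1 - b (M m) ∈ K n := hK hnm (Φ m).2
  have h3 : b (M m) - b n ∈ K n := hb n (M m) hnm
  have := (K n).add_mem (( K n).add_mem h1 h2) h3
  have e : s - (Φ m).1 + ((Φ m).1 - b (M m)) + (b (M m) - b n) = s - b n := by ring
  rwa [e] at this

end Fermat.Agent.S53.helper70

namespace Fermat.Agent.S53.helper70

open IsLocalRing

variable {S : Type*} [CommRing S] [IsLocalRing S] [IsNoetherianRing S] [Finite (ResidueField S)]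

/-- The set of ideals containing `𝔫 ^ n` is finite. -/
theorem finite_setOf_pow_le (n : ℕ) : {J : Ideal S | maximalIdeal S ^ n ≤ J}.Finite := by
  have : Finite (S ⧸ maximalIdeal S ^ n) := finite_quotient_maximalIdeal_pow n
  have hfin : Finite (Set (S ⧸ maximalIdeal S ^ n)) := inferInstance
  let q : S →ₗ[S] (S ⧸ maximalIdeal S ^ n) := Submodule.mkQ (maximalIdeal S ^ n)
  refine Set.Finite.of_finite_image (f := fun J : Ideal S =>
    ((Submodule.map q J : Submodule S (S ⧸ maximalIdeal S ^ n)) : Set (S ⧸ maximalIdeal S ^ n)))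
    (Set.toFinite _) ?_
  intro J hJ J' hJ' h
  have h' : Submodule.map q J = Submodule.map q J' := SetLike.coe_injective h
  have h2 : ∀ L : Ideal S, maximalIdeal S ^ n ≤ L →
      Submodule.comap q (Submodule.map q L) = L := by
    intro L hL
    rw [Submodule.comap_map_eq, Submodule.ker_mkQ]
    exact sup_eq_left.mpr hL
  rw [← h2 J hJ, ← h2 J' hJ', h']

/-- For a family of ideals closed under pairwise infimum, the infimum of the (finitely many)
members containing `𝔫 ^ n` is again a member, provided there is at least one. -/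
theorem sInf_pow_le_mem (𝒦 : Set (Ideal S)) (hinf : ∀ K ∈ 𝒦, ∀ K' ∈ 𝒦, K ⊓ K' ∈ 𝒦) (n : ℕ)
    (hne : ∃ K ∈ 𝒦, maximalIdeal S ^ n ≤ K) :
    sInf {K | K ∈ 𝒦 ∧ maximalIdeal S ^ n ≤ K} ∈ 𝒦 := by
  have hfin : {K | K ∈ 𝒦 ∧ maximalIdeal S ^ n ≤ K}.Finite :=
    (finite_setOf_pow_le n).subset fun K hK => hK.2
  have hsub : {K | K ∈ 𝒦 ∧ maximalIdeal S ^ n ≤ K} ⊆ 𝒦 := fun K hK => hK.1
  obtain ⟨K₀, hK₀, hK₀n⟩ := hne
  have hne' : {K | K ∈ 𝒦 ∧ maximalIdeal S ^ n ≤ K}.Nonempty := ⟨K₀, hK₀, hK₀n⟩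
  -- general fact: finite nonempty subset of an inf-closed set has its sInf in the set
  have key : ∀ T : Set (Ideal S), T.Finite → T.Nonempty → T ⊆ 𝒦 → sInf T ∈ 𝒦 := by
    intro T hT
    induction T, hT using Set.Finite.induction_on with
    | empty => intro h; exact absurd h Set.not_nonempty_empty
    | @insert a T _ _ ih =>
      intro _ hsub
      rw [sInf_insert]
      by_cases hT : T.Nonempty
      · exact hinf a (hsub (Set.mem_insert a T)) _
          (ih hT fun x hx => hsub (Set.mem_insert_of_mem a hx))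
      · rw [Set.not_nonempty_iff_eq_empty.mp hT, sInf_empty, inf_top_eq]
        exact hsub (Set.mem_insert a T)
  exact key _ hfin hne' hsub

variable [IsAdicComplete (maximalIdeal S) S]

/-- **Mittag-Leffler** for a family of open ideals closed under pairwise infimum. -/
theorem exists_forall_sub_mem (𝒦 : Set (Ideal S))
    (hinf : ∀ K ∈ 𝒦, ∀ K' ∈ 𝒦, K ⊓ K' ∈ 𝒦)
    (hopen : ∀ K ∈ 𝒦, ∃ n, maximalIdeal S ^ n ≤ K) (a : 𝒦 → S)
    (hcompat : ∀ K K' : 𝒦, K.1 ≤ K'.1 → a K - a K' ∈ K'.1) :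
    ∃ s : S, ∀ K : 𝒦, s - a K ∈ K.1 := by
  classical
  -- the canonical antitone sequence
  let L : ℕ → Ideal S := fun n => sInf {K | K ∈ 𝒦 ∧ maximalIdeal S ^ n ≤ K}
  have hLanti : Antitone L := by
    intro m n hmn
    apply sInf_le_sInf
    intro K hK
    exact ⟨hK.1, (Ideal.pow_le_pow_right hmn).trans hK.2⟩
  have hLpow : ∀ n, maximalIdeal S ^ n ≤ L n := fun n => le_sInf fun K hK => hK.2
  have hLmem : ∀ n, (∃ K ∈ 𝒦, maximalIdeal S ^ n ≤ K) → L n ∈ 𝒦 :=
    fun n h => sInf_pow_le_mem 𝒦 hinf n h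
  have hLle : ∀ n, ∀ K ∈ 𝒦, maximalIdeal S ^ n ≤ K → L n ≤ K :=
    fun n K hK hn => sInf_le ⟨hK, hn⟩
  let b : ℕ → S := fun n => if h : L n ∈ 𝒦 then a ⟨L n, h⟩ else 0
  have hbK : ∀ n, ∀ K : 𝒦, maximalIdeal S ^ n ≤ K.1 → b n - a K ∈ K.1 := by
    intro n K hn
    have hmem : L n ∈ 𝒦 := hLmem n ⟨K.1, K.2, hn⟩
    simp only [b, dif_pos hmem]
    exact hcompat ⟨L n, hmem⟩ K (hLle n K.1 K.2 hn)
  have hb : ∀ n n', n ≤ n' → b n' - b n ∈ L n := by
    intro n n' hnn'
    by_cases hmem : L n ∈ 𝒦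
    · have := hbK n' ⟨L n, hmem⟩ ((Ideal.pow_le_pow_right hnn').trans (hLpow n))
      simpa only [b, dif_pos hmem] using this
    · -- then no member contains 𝔫^n, so `L n = ⊤`
      have : L n = ⊤ := by
        by_contra hne
        apply hmem
        apply hLmem n
        by_contra hnone
        apply hne
        have : {K | K ∈ 𝒦 ∧ maximalIdeal S ^ n ≤ K} = ∅ := by
          ext K
          simp only [Set.mem_ofPred_eq, Set.mem_empty_iff_false, iff_false]
          exact fun hK => hnone ⟨K, hK.1, hK.2⟩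
        simp only [L, this, sInf_empty]
      rw [this]
      exact Submodule.mem_top
  obtain ⟨s, hs⟩ := exists_forall_sub_mem_of_antitone L hLanti (fun n => ⟨n, hLpow n⟩) b hb
  refine ⟨s, fun K => ?_⟩
  obtain ⟨n, hn⟩ := hopen K.1 K.2
  have h1 : s - b n ∈ K.1 := hLle n K.1 K.2 hn (hs n)
  have h2 := hbK n K hn
  have := K.1.add_mem h1 h2
  have e : s - b n + (b n - a K) = s - a K := by ring
  rwa [e] at this

/-- **Chevalley's lemma** for a family of open ideals closed under pairwise infimum. -/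
theorem chevalley (𝒦 : Set (Ideal S)) (hne : 𝒦.Nonempty)
    (hinf : ∀ K ∈ 𝒦, ∀ K' ∈ 𝒦, K ⊓ K' ∈ 𝒦)
    (hopen : ∀ K ∈ 𝒦, ∃ n, maximalIdeal S ^ n ≤ K) (m : ℕ) :
    ∃ K ∈ 𝒦, K ≤ sInf 𝒦 ⊔ maximalIdeal S ^ m := by
  classical
  obtain ⟨K₀, hK₀⟩ := hne
  obtain ⟨n₀, hn₀⟩ := hopen K₀ hK₀
  -- the canonical antitone sequence, shifted so that all members lie in `𝒦`
  let L : ℕ → Ideal S := fun n => sInf {K | K ∈ 𝒦 ∧ maximalIdeal S ^ (n₀ + n) ≤ K}
  have hLanti : Antitone L := by
    intro a b hab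
    apply sInf_le_sInf
    intro K hK
    exact ⟨hK.1, (Ideal.pow_le_pow_right (Nat.add_le_add_left hab n₀)).trans hK.2⟩
  have hLpow : ∀ n, maximalIdeal S ^ (n₀ + n) ≤ L n := fun n => le_sInf fun K hK => hK.2
  have hLmem : ∀ n, L n ∈ 𝒦 := fun n =>
    sInf_pow_le_mem 𝒦 hinf (n₀ + n)
      ⟨K₀, hK₀, (Ideal.pow_le_pow_right (Nat.le_add_right n₀ n)).trans hn₀⟩
  have hLle : ∀ K ∈ 𝒦, ∃ n, L n ≤ K := by
    intro K hK
    obtain ⟨n, hn⟩ := hopen K hK
    exact ⟨n, sInf_le ⟨hK, (Ideal.pow_le_pow_right (Nat.le_add_left n n₀)).trans hn⟩⟩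
  obtain ⟨N, hN⟩ := exists_stabilize L hLanti m
  refine ⟨L N, hLmem N, fun x hx => ?_⟩
  -- for every `n ≥ N` pick `x n ∈ L n` congruent to `x` modulo `𝔫^m`
  have hx' : ∀ n, ∃ y ∈ L (N + n), x - y ∈ maximalIdeal S ^ m := by
    intro n
    have : x ∈ L (N + n) ⊔ maximalIdeal S ^ m := by
      rw [hN (N + n) (Nat.le_add_right N n)]
      exact Ideal.mem_sup_left hx
    obtain ⟨y, hy, e, he, hsum⟩ := Submodule.mem_sup.mp this
    exact ⟨y, hy, by rw [← hsum]; simpa using he⟩
  choose y hyL hym using hx'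
  -- apply Mittag-Leffler to the ideals `L (N + n) ⊓ 𝔫^m`
  let J : ℕ → Ideal S := fun n => L (N + n) ⊓ maximalIdeal S ^ m
  have hJanti : Antitone J := fun a b hab =>
    inf_le_inf_right _ (hLanti (Nat.add_le_add_left hab N))
  have hJopen : ∀ n, ∃ j, maximalIdeal S ^ j ≤ J n := fun n =>
    ⟨n₀ + (N + n) + m, le_inf ((Ideal.pow_le_pow_right (Nat.le_add_right _ _)).trans (hLpow _))
      (Ideal.pow_le_pow_right (Nat.le_add_left _ _))⟩
  have hyJ : ∀ n n', n ≤ n' → y n' - y n ∈ J n := by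
    intro n n' hnn'
    refine ⟨(L (N + n)).sub_mem (hLanti (Nat.add_le_add_left hnn' N) (hyL n')) (hyL n), ?_⟩
    have := (maximalIdeal S ^ m).sub_mem (hym n) (hym n')
    have e : x - y n - (x - y n') = y n' - y n := by ring
    rwa [e] at this
  obtain ⟨s, hs⟩ := exists_forall_sub_mem_of_antitone J hJanti hJopen y hyJ
  have hsL : ∀ n, s ∈ L (N + n) := by
    intro n
    have := (L (N + n)).add_mem (hs n).1 (hyL n)
    simpa using this
  have hsInf : s ∈ sInf 𝒦 := by
    rw [Submodule.mem_sInf]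
    intro K hK
    obtain ⟨n, hn⟩ := hLle K hK
    exact hn (hLanti (Nat.le_add_left n N) (hsL n))
  have hxs : x - s ∈ maximalIdeal S ^ m := by
    have := (maximalIdeal S ^ m).sub_mem (hym 0) (hs 0).2
    have e : x - y 0 - (s - y 0) = x - s := by ring
    rwa [e] at this
  have : x = s + (x - s) := by ring
  rw [this]
  exact (sInf 𝒦 ⊔ maximalIdeal S ^ m).add_mem (Ideal.mem_sup_left hsInf) (Ideal.mem_sup_right hxs)

end Fermat.Agent.S53.helper70
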