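import Mathlib

/-!
# S53, work package WP7 (helper78): existence of the normalising conjugator

Over a finite local ring `A` with residue map `π : A → k`, given lifts `R t` of three matrices
`M t` whose three "coordinate functionals" cut the commutant down to scalars, every choice of
lifts `c t` of the three distinguished coordinates is attained by a conjugate `W * R t * W⁻¹`
with `W ≡ 1` and `W 0 0 = 1`.

The proof is a counting argument: the map `z ↦ coordinates of W(z) R W(z)⁻¹ - coordinates of R`
from `(ker π)³` to itself is injective by rigidity (WP6), hence surjective by finiteness.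
-/

set_option autoImplicit false

namespace Fermat.Agent.S53.helper78

open Matrix

/-- The statement of work package WP6 (rigidity), for a fixed ring `A`. -/
def Rigidity {k : Type} [Field k] (M : Fin 3 → Matrix (Fin 2) (Fin 2) k) (iN jN : Fin 3 → Fin 2)
    (A : Type) [CommRing A] (π : A →+* k) : Prop :=
  ∀ (R R' : Fin 3 → Matrix (Fin 2) (Fin 2) A), (∀ t, (R t).map π = M t) →
    (∀ t, (R' t).map π = M t) → (∀ t, R t (iN t) (jN t) = R' t (iN t) (jN t)) →
    ∀ Y : Matrix (Fin 2) (Fin 2) A, (∀ t, Y * R t = R' t * Y) →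
      Y = Y 0 0 • (1 : Matrix (Fin 2) (Fin 2) A)

section

variable {k : Type} [Field k] {A : Type} [CommRing A] [IsLocalRing A]

/-- An element of a local ring with nonzero image in a field quotient is a unit. -/
theorem isUnit_of_map_ne_zero (π : A →+* k) (hπ : Function.Surjective π) (a : A)
    (ha : π a ≠ 0) : IsUnit a := by
  by_contra h
  have hmem : a ∈ IsLocalRing.maximalIdeal A := (IsLocalRing.mem_maximalIdeal a).mpr h
  have hmax : (RingHom.ker π).IsMaximal := RingHom.ker_isMaximal_of_surjective π hπ
  rw [← IsLocalRing.eq_maximalIdeal hmax] at hmem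
  exact ha ((RingHom.mem_ker).mp hmem)

/-- The candidate conjugator attached to a triple of elements. -/
def conjMat (z : Fin 3 → A) : Matrix (Fin 2) (Fin 2) A :=
  !![1, z 0; z 1, 1 + z 2]

omit [IsLocalRing A] in
theorem conjMat_map (π : A →+* k) (z : Fin 3 → A) (hz : ∀ i, π (z i) = 0) :
    (conjMat z).map π = 1 := by
  ext i j
  fin_cases i <;> fin_cases j <;> simp [conjMat, hz]

omit [IsLocalRing A] in
theorem conjMat_zero_zero (z : Fin 3 → A) : conjMat z 0 0 = 1 := by
  simp [conjMat]

omit [IsLocalRing A] in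
theorem conjMat_injective {z z' : Fin 3 → A} (h : conjMat z = conjMat z') : z = z' := by
  funext i
  have h01 : conjMat z 0 1 = conjMat z' 0 1 := by rw [h]
  have h10 : conjMat z 1 0 = conjMat z' 1 0 := by rw [h]
  have h11 : conjMat z 1 1 = conjMat z' 1 1 := by rw [h]
  simp [conjMat] at h01 h10 h11
  fin_cases i
  · exact h01
  · exact h10
  · exact h11

theorem isUnit_det_of_map_eq_one (π : A →+* k) (hπ : Function.Surjective π)
    (W : Matrix (Fin 2) (Fin 2) A) (hW : W.map π = 1) : IsUnit W.det := by
  apply isUnit_of_map_ne_zero π hπ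
  have : π W.det = (W.map π).det := by
    rw [← RingHom.mapMatrix_apply, ← RingHom.map_det]
  rw [this, hW, det_one]
  exact one_ne_zero

theorem inv_map_eq_one (π : A →+* k) (hπ : Function.Surjective π)
    (W : Matrix (Fin 2) (Fin 2) A) (hW : W.map π = 1) : (W⁻¹).map π = 1 := by
  have hdet := isUnit_det_of_map_eq_one π hπ W hW
  have h1 : (W * W⁻¹).map π = 1 := by
    rw [Matrix.mul_nonsing_inv W hdet]
    exact Matrix.map_one π (map_zero π) (map_one π)
  rw [Matrix.map_mul, hW, one_mul] at h1
  exact h1

theorem conj_map (π : A →+* k) (hπ : Function.Surjective π)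
    (W R : Matrix (Fin 2) (Fin 2) A) (hW : W.map π = 1) :
    (W * R * W⁻¹).map π = R.map π := by
  rw [Matrix.map_mul, Matrix.map_mul, hW, inv_map_eq_one π hπ W hW, one_mul, mul_one]

end

section main

variable {k : Type} [Field k] (M : Fin 3 → Matrix (Fin 2) (Fin 2) k) (iN jN : Fin 3 → Fin 2)
  {A : Type} [CommRing A] [IsLocalRing A] [Finite A] (π : A →+* k)

/-- WP7 assuming WP6 (rigidity) for the ring `A`. -/
theorem exists_normalising_conjugator_of_rigidity (hrig : Rigidity M iN jN A π)
    (hπ : Function.Surjective π)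
    (R : Fin 3 → Matrix (Fin 2) (Fin 2) A) (hR : ∀ t, (R t).map π = M t)
    (c : Fin 3 → A) (hc : ∀ t, π (c t) = M t (iN t) (jN t)) :
    ∃ W W' : Matrix (Fin 2) (Fin 2) A, W.map π = 1 ∧ W 0 0 = 1 ∧ W * W' = 1 ∧ W' * W = 1 ∧
      ∀ t, (W * R t * W') (iN t) (jN t) = c t := by
  classical
  -- the finite type of triples in the kernel
  let K := RingHom.ker π
  have hzK : ∀ (z : Fin 3 → K) (i : Fin 3), π ((z i : A)) = 0 := fun z i =>
    RingHom.mem_ker.mp (z i).2
  have hWmap : ∀ z : Fin 3 → K, (conjMat (fun i => (z i : A))).map π = 1 := fun z =>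
    conjMat_map π _ (hzK z)
  have hentry : ∀ (z : Fin 3 → K) (t : Fin 3),
      (conjMat (fun i => (z i : A)) * R t * (conjMat (fun i => (z i : A)))⁻¹) (iN t) (jN t)
        - R t (iN t) (jN t) ∈ K := by
    intro z t
    have h := conj_map π hπ (conjMat (fun i => (z i : A))) (R t) (hWmap z)
    have h' := congrFun (congrFun h (iN t)) (jN t)
    simp only [Matrix.map_apply] at h'
    rw [RingHom.mem_ker, map_sub, h', sub_self]
  let G : (Fin 3 → K) → (Fin 3 → K) := fun z t => ⟨_, hentry z t⟩
  have hGinj : Function.Injective G := by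
    intro z z' hzz'
    have hcoord : ∀ t,
        (conjMat (fun i => (z i : A)) * R t * (conjMat (fun i => (z i : A)))⁻¹) (iN t) (jN t)
          = (conjMat (fun i => (z' i : A)) * R t * (conjMat (fun i => (z' i : A)))⁻¹)
              (iN t) (jN t) := by
      intro t
      have := congrArg (fun g : Fin 3 → K => ((g t : K) : A)) hzz'
      simp only [G] at this
      exact sub_left_injective this
    set W := conjMat (fun i => (z i : A)) with hWdef
    set W' := conjMat (fun i => (z' i : A)) with hW'def
    have hdW : IsUnit W.det := isUnit_det_of_map_eq_one π hπ W (hWmap z)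
    have hdW' : IsUnit W'.det := isUnit_det_of_map_eq_one π hπ W' (hWmap z')
    have hY := hrig (fun t => W * R t * W⁻¹) (fun t => W' * R t * W'⁻¹)
      (fun t => by rw [conj_map π hπ W (R t) (hWmap z), hR])
      (fun t => by rw [conj_map π hπ W' (R t) (hWmap z'), hR])
      hcoord (W' * W⁻¹)
      (fun t => by
        show W' * W⁻¹ * (W * R t * W⁻¹) = W' * R t * W'⁻¹ * (W' * W⁻¹)
        rw [show W' * W⁻¹ * (W * R t * W⁻¹) = W' * (W⁻¹ * W) * R t * W⁻¹ by
              simp only [Matrix.mul_assoc],
          show W' * R t * W'⁻¹ * (W' * W⁻¹) = W' * R t * (W'⁻¹ * W') * W⁻¹ by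
              simp only [Matrix.mul_assoc],
          Matrix.nonsing_inv_mul W hdW, Matrix.nonsing_inv_mul W' hdW', mul_one, mul_one])
    -- hence `W' = y • W` with `y = (W' * W⁻¹) 0 0`
    have hW'W : W' = (W' * W⁻¹) 0 0 • W := by
      have h1 : W' * W⁻¹ * W = ((W' * W⁻¹) 0 0 • (1 : Matrix (Fin 2) (Fin 2) A)) * W := by
        rw [← hY]
      rw [Matrix.mul_assoc, Matrix.nonsing_inv_mul W hdW, mul_one, Matrix.smul_mul, one_mul] at h1
      exact h1
    have h00 : (W' * W⁻¹) 0 0 = 1 := by
      have h2 := congrFun (congrFun hW'W 0) 0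
      rw [Matrix.smul_apply, smul_eq_mul, hWdef, hW'def, conjMat_zero_zero, conjMat_zero_zero,
        mul_one] at h2
      exact h2.symm
    rw [h00, one_smul] at hW'W
    have hz : (fun i => (z i : A)) = fun i => (z' i : A) := conjMat_injective hW'W.symm
    funext i
    exact Subtype.ext (congrFun hz i)
  have hGsurj : Function.Surjective G := Finite.injective_iff_surjective.mp hGinj
  -- the target
  have hd : ∀ t, c t - R t (iN t) (jN t) ∈ K := by
    intro t
    have h' := congrFun (congrFun (hR t) (iN t)) (jN t)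
    simp only [Matrix.map_apply] at h'
    rw [RingHom.mem_ker, map_sub, hc, h', sub_self]
  obtain ⟨z, hz⟩ := hGsurj (fun t => ⟨_, hd t⟩)
  refine ⟨conjMat (fun i => (z i : A)), (conjMat (fun i => (z i : A)))⁻¹, hWmap z,
    conjMat_zero_zero _, ?_, ?_, ?_⟩
  · exact Matrix.mul_nonsing_inv _ (isUnit_det_of_map_eq_one π hπ _ (hWmap z))
  · exact Matrix.nonsing_inv_mul _ (isUnit_det_of_map_eq_one π hπ _ (hWmap z))
  · intro t
    have := congrArg (fun g : Fin 3 → K => ((g t : K) : A)) hz
    simp only [G] at this
    exact sub_left_injective this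

end main

end Fermat.Agent.S53.helper78
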