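import Fermat.Agent.S53.helper65_WP6
import Fermat.Agent.S53.helper78_WP7

/-!
# S53, work package WP7 (helper78), final form

`exists_normalising_conjugator`: WP7 exactly as specified, obtained from
`exists_normalising_conjugator_of_rigidity` and WP6 (`helper65.rigidity`).
-/

set_option autoImplicit false

namespace Fermat.Agent.S53.helper78

open Matrix

/-- **WP7.** Over a finite local ring, the normalising coordinates of a lift can be prescribed
by conjugating with a matrix `W ≡ 1` with `W 0 0 = 1`. -/
theorem exists_normalising_conjugator {k : Type} [Field k]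
    (M : Fin 3 → Matrix (Fin 2) (Fin 2) k) (iN jN : Fin 3 → Fin 2)
    (hker : ∀ X : Matrix (Fin 2) (Fin 2) k,
      (∀ t, (X * M t - M t * X) (iN t) (jN t) = 0) →
        ∃ c : k, X = c • (1 : Matrix (Fin 2) (Fin 2) k))
    {A : Type} [CommRing A] [IsLocalRing A] [Finite A] (π : A →+* k)
    (hπ : Function.Surjective π)
    (R : Fin 3 → Matrix (Fin 2) (Fin 2) A) (hR : ∀ t, (R t).map π = M t)
    (c : Fin 3 → A) (hc : ∀ t, π (c t) = M t (iN t) (jN t)) :
    ∃ W W' : Matrix (Fin 2) (Fin 2) A, W.map π = 1 ∧ W 0 0 = 1 ∧ W * W' = 1 ∧ W' * W = 1 ∧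
      ∀ t, (W * R t * W') (iN t) (jN t) = c t :=
  exists_normalising_conjugator_of_rigidity M iN jN π
    (fun R R' hR hR' hcoord Y hY =>
      Fermat.Agent.S53.helper65.rigidity M iN jN hker π hπ R R' hR hR' hcoord Y hY)
    hπ R hR c hc

end Fermat.Agent.S53.helper78
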