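import Mathlib
import Fermat.Agent.S53.helper65_WP6
import Fermat.Agent.S53.helper78_WP7Final
import Fermat.Agent.S53.helper70_ML

/-!
# S53, task C1 (helper59): normalising conjugator over a complete local ring

WP7 (`helper78.exists_normalising_conjugator`) produces the normalising conjugator over a
*finite* local ring.  Here we pass to the limit: over a complete Noetherian local ring `A` with
finite residue field the same statement holds.  The key input is the uniqueness of the
normalising conjugator, which follows from rigidity (WP6, `helper65.rigidity`).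
-/

set_option autoImplicit false

namespace Fermat.Agent.S53.helper59

open Matrix IsLocalRing

section uniqueness

variable {k : Type} [Field k] (M : Fin 3 → Matrix (Fin 2) (Fin 2) k) (iN jN : Fin 3 → Fin 2)

/-- If `W * W' = 1` and `W` reduces to `1`, then so does `W'`. -/
theorem map_eq_one_of_mul_eq_one {B : Type} [CommRing B] (π : B →+* k)
    (W W' : Matrix (Fin 2) (Fin 2) B) (hW : W.map π = 1) (hWW' : W * W' = 1) :
    W'.map π = 1 := by
  have h1 : (W * W').map π = 1 := by
    rw [hWW']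
    exact Matrix.map_one π (map_zero π) (map_one π)
  rw [Matrix.map_mul, hW, one_mul] at h1
  exact h1

/-- **Uniqueness of the normalising conjugator** (consequence of rigidity, WP6). -/
theorem normalising_conjugator_unique
    (hker : ∀ X : Matrix (Fin 2) (Fin 2) k,
      (∀ t, (X * M t - M t * X) (iN t) (jN t) = 0) →
        ∃ c : k, X = c • (1 : Matrix (Fin 2) (Fin 2) k))
    {B : Type} [CommRing B] [IsLocalRing B] (π : B →+* k) (hπ : Function.Surjective π)
    (R : Fin 3 → Matrix (Fin 2) (Fin 2) B) (hR : ∀ t, (R t).map π = M t)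
    (W W' V V' : Matrix (Fin 2) (Fin 2) B)
    (hW : W.map π = 1) (hW0 : W 0 0 = 1) (hWW' : W * W' = 1) (hW'W : W' * W = 1)
    (hV : V.map π = 1) (hV0 : V 0 0 = 1) (hVV' : V * V' = 1) (hV'V : V' * V = 1)
    (hcoord : ∀ t, (W * R t * W') (iN t) (jN t) = (V * R t * V') (iN t) (jN t)) :
    W = V ∧ W' = V' := by
  have hW' : W'.map π = 1 := map_eq_one_of_mul_eq_one π W W' hW hWW'
  have hV' : V'.map π = 1 := map_eq_one_of_mul_eq_one π V V' hV hVV'
  have hR1 : ∀ t, (W * R t * W').map π = M t := fun t => by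
    rw [Matrix.map_mul, Matrix.map_mul, hW, hW', one_mul, mul_one, hR]
  have hR2 : ∀ t, (V * R t * V').map π = M t := fun t => by
    rw [Matrix.map_mul, Matrix.map_mul, hV, hV', one_mul, mul_one, hR]
  have hY : ∀ t, (V * W') * (W * R t * W') = (V * R t * V') * (V * W') := fun t => by
    calc (V * W') * (W * R t * W') = V * (W' * W) * R t * W' := by
          simp only [Matrix.mul_assoc]
      _ = V * R t * W' := by rw [hW'W, Matrix.mul_one]
      _ = V * R t * (V' * V) * W' := by rw [hV'V, Matrix.mul_one]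
      _ = (V * R t * V') * (V * W') := by simp only [Matrix.mul_assoc]
  have hrig := Fermat.Agent.S53.helper65.rigidity M iN jN hker π hπ
    (fun t => W * R t * W') (fun t => V * R t * V') hR1 hR2 hcoord (V * W') hY
  have hVW : V = (V * W') 0 0 • W := by
    calc V = V * (W' * W) := by rw [hW'W, Matrix.mul_one]
      _ = (V * W') * W := by rw [Matrix.mul_assoc]
      _ = ((V * W') 0 0 • (1 : Matrix (Fin 2) (Fin 2) B)) * W := by rw [← hrig]
      _ = (V * W') 0 0 • W := by rw [Matrix.smul_mul, Matrix.one_mul]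
  have hc : (V * W') 0 0 = 1 := by
    have := congrFun (congrFun hVW 0) 0
    rw [Matrix.smul_apply, hV0, hW0, smul_eq_mul, mul_one] at this
    exact this.symm
  rw [hc, one_smul] at hVW
  refine ⟨hVW.symm, ?_⟩
  calc W' = (V' * V) * W' := by rw [hV'V, Matrix.one_mul]
    _ = V' * (W * W') := by rw [Matrix.mul_assoc, hVW]
    _ = V' := by rw [hWW', Matrix.mul_one]

end uniqueness

section complete

variable {k : Type} [Field k] (M : Fin 3 → Matrix (Fin 2) (Fin 2) k) (iN jN : Fin 3 → Fin 2)
  {A : Type} [CommRing A] [IsLocalRing A]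

/-- membership in all powers of the maximal ideal forces vanishing -/
theorem eq_zero_of_forall_mem_pow [IsHausdorff (maximalIdeal A) A] (x : A)
    (h : ∀ n : ℕ, x ∈ maximalIdeal A ^ (n + 1)) : x = 0 := by
  apply IsHausdorff.haus (I := maximalIdeal A) inferInstance x
  intro n
  rw [SModEq.zero, smul_eq_mul, Ideal.mul_top]
  cases n with
  | zero => simp
  | succ n => exact h n

/-- limit of a Cauchy sequence (indexed so that the `n`-th term is correct modulo `𝔪^(n+1)`) -/
theorem exists_limit [IsPrecomplete (maximalIdeal A) A] (f : ℕ → A)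
    (h : ∀ m n : ℕ, m ≤ n → f n - f m ∈ maximalIdeal A ^ (m + 1)) :
    ∃ L : A, ∀ n, L - f n ∈ maximalIdeal A ^ (n + 1) := by
  obtain ⟨L, hL⟩ := IsPrecomplete.prec (I := maximalIdeal A) inferInstance (f := f) (by
    intro m n hmn
    rw [SModEq.sub_mem, smul_eq_mul, Ideal.mul_top]
    have := h m n hmn
    have h2 : f m - f n ∈ maximalIdeal A ^ (m + 1) := by
      rw [← neg_sub]; exact neg_mem this
    exact Ideal.pow_le_pow_right (Nat.le_succ m) h2)
  refine ⟨L, fun n => ?_⟩
  have h1 := hL (n + 1)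
  rw [SModEq.sub_mem, smul_eq_mul, Ideal.mul_top] at h1
  have h2 : L - f (n + 1) ∈ maximalIdeal A ^ (n + 1) := by
    rw [← neg_sub]; exact neg_mem h1
  have h3 := h n (n + 1) (Nat.le_succ n)
  have : L - f n = (L - f (n + 1)) + (f (n + 1) - f n) := by ring
  rw [this]
  exact add_mem h2 h3

/-- entrywise congruence of matrices modulo an ideal, via the quotient map -/
theorem map_mk_eq_iff (I : Ideal A) (X Y : Matrix (Fin 2) (Fin 2) A) :
    X.map (Ideal.Quotient.mk I) = Y.map (Ideal.Quotient.mk I) ↔ ∀ i j, X i j - Y i j ∈ I := by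
  constructor
  · intro h i j
    have := congrFun (congrFun h i) j
    simp only [Matrix.map_apply] at this
    exact Ideal.Quotient.eq.mp this
  · intro h
    ext i j
    simp only [Matrix.map_apply]
    exact Ideal.Quotient.eq.mpr (h i j)

/-- The property of being a normalising conjugator modulo the ideal `I`. -/
def GoodMod (iN jN : Fin 3 → Fin 2) (R : Fin 3 → Matrix (Fin 2) (Fin 2) A) (c : Fin 3 → A)
    (I : Ideal A) (w w' : Matrix (Fin 2) (Fin 2) A) : Prop :=
  (∀ i j, w i j - (1 : Matrix (Fin 2) (Fin 2) A) i j ∈ maximalIdeal A) ∧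
  w 0 0 - 1 ∈ I ∧
  (∀ i j, (w * w') i j - (1 : Matrix (Fin 2) (Fin 2) A) i j ∈ I) ∧
  (∀ i j, (w' * w) i j - (1 : Matrix (Fin 2) (Fin 2) A) i j ∈ I) ∧
  ∀ t, (w * R t * w') (iN t) (jN t) - c t ∈ I

theorem GoodMod.mono {iN jN : Fin 3 → Fin 2} {R : Fin 3 → Matrix (Fin 2) (Fin 2) A}
    {c : Fin 3 → A} {I J : Ideal A} (hIJ : I ≤ J) {w w' : Matrix (Fin 2) (Fin 2) A}
    (h : GoodMod iN jN R c I w w') : GoodMod iN jN R c J w w' :=
  ⟨h.1, hIJ h.2.1, fun i j => hIJ (h.2.2.1 i j), fun i j => hIJ (h.2.2.2.1 i j),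
    fun t => hIJ (h.2.2.2.2 t)⟩

theorem ker_eq_maximalIdeal (π : A →+* k) (hπ : Function.Surjective π) :
    RingHom.ker π = maximalIdeal A :=
  IsLocalRing.eq_maximalIdeal (RingHom.ker_isMaximal_of_surjective π hπ)

theorem isLocalRing_quotient (I : Ideal A) (hI : I ≤ maximalIdeal A) : IsLocalRing (A ⧸ I) := by
  haveI : Nontrivial (A ⧸ I) := Ideal.Quotient.nontrivial_iff.mpr (fun h => by
    rw [h] at hI
    exact (IsLocalRing.maximalIdeal.isMaximal A).ne_top (top_le_iff.mp hI))
  exact IsLocalRing.of_surjective' (Ideal.Quotient.mk I) Ideal.Quotient.mk_surjective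

/-- the induced map `A ⧸ I → k` -/
noncomputable def quotMap (π : A →+* k) (hπ : Function.Surjective π) (I : Ideal A)
    (hI : I ≤ maximalIdeal A) : A ⧸ I →+* k :=
  Ideal.Quotient.lift I π (fun a ha => by
    have : a ∈ RingHom.ker π := by rw [ker_eq_maximalIdeal π hπ]; exact hI ha
    exact (RingHom.mem_ker).mp this)

@[simp] theorem quotMap_mk (π : A →+* k) (hπ : Function.Surjective π) (I : Ideal A)
    (hI : I ≤ maximalIdeal A) (a : A) : quotMap π hπ I hI (Ideal.Quotient.mk I a) = π a := by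
  simp [quotMap]

theorem quotMap_surjective (π : A →+* k) (hπ : Function.Surjective π) (I : Ideal A)
    (hI : I ≤ maximalIdeal A) : Function.Surjective (quotMap π hπ I hI) := by
  intro x
  obtain ⟨a, rfl⟩ := hπ x
  exact ⟨Ideal.Quotient.mk I a, quotMap_mk π hπ I hI a⟩

theorem map_quotMap (π : A →+* k) (hπ : Function.Surjective π) (I : Ideal A)
    (hI : I ≤ maximalIdeal A) (X : Matrix (Fin 2) (Fin 2) A) :
    (X.map (Ideal.Quotient.mk I)).map (quotMap π hπ I hI) = X.map π := by
  ext i j
  simp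

theorem exists_map_mk_eq (I : Ideal A) (W : Matrix (Fin 2) (Fin 2) (A ⧸ I)) :
    ∃ w : Matrix (Fin 2) (Fin 2) A, w.map (Ideal.Quotient.mk I) = W := by
  choose f hf using fun i j => Ideal.Quotient.mk_surjective (W i j)
  exact ⟨Matrix.of f, by ext i j; simp [hf]⟩

/-- `GoodMod` in terms of the quotient ring. -/
theorem goodMod_iff (π : A →+* k) (hπ : Function.Surjective π)
    (R : Fin 3 → Matrix (Fin 2) (Fin 2) A) (c : Fin 3 → A)
    (I : Ideal A) (hI : I ≤ maximalIdeal A) (w w' : Matrix (Fin 2) (Fin 2) A) :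
    GoodMod iN jN R c I w w' ↔
      ((w.map (Ideal.Quotient.mk I)).map (quotMap π hπ I hI) = 1 ∧
        (w.map (Ideal.Quotient.mk I)) 0 0 = 1 ∧
        w.map (Ideal.Quotient.mk I) * w'.map (Ideal.Quotient.mk I) = 1 ∧
        w'.map (Ideal.Quotient.mk I) * w.map (Ideal.Quotient.mk I) = 1 ∧
        ∀ t, (w.map (Ideal.Quotient.mk I) * (R t).map (Ideal.Quotient.mk I) *
          w'.map (Ideal.Quotient.mk I)) (iN t) (jN t) = Ideal.Quotient.mk I (c t)) := by
  have hone : (1 : Matrix (Fin 2) (Fin 2) (A ⧸ I)) =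
      (1 : Matrix (Fin 2) (Fin 2) A).map (Ideal.Quotient.mk I) :=
    (Matrix.map_one _ (map_zero _) (map_one _)).symm
  have honek : (1 : Matrix (Fin 2) (Fin 2) k) = (1 : Matrix (Fin 2) (Fin 2) A).map π :=
    (Matrix.map_one _ (map_zero _) (map_one _)).symm
  unfold GoodMod
  refine and_congr ?_ (and_congr ?_ (and_congr ?_ (and_congr ?_ ?_)))
  · rw [map_quotMap, honek]
    constructor
    · intro h
      ext i j
      simp only [Matrix.map_apply]
      have := h i j
      rw [← ker_eq_maximalIdeal π hπ, RingHom.mem_ker, map_sub, sub_eq_zero] at this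
      exact this
    · intro h i j
      have := congrFun (congrFun h i) j
      simp only [Matrix.map_apply] at this
      rw [← ker_eq_maximalIdeal π hπ, RingHom.mem_ker, map_sub, sub_eq_zero]
      exact this
  · rw [Matrix.map_apply, ← map_one (Ideal.Quotient.mk I), Ideal.Quotient.eq]
  · rw [← Matrix.map_mul, hone, map_mk_eq_iff]
  · rw [← Matrix.map_mul, hone, map_mk_eq_iff]
  · refine forall_congr' fun t => ?_
    rw [← Matrix.map_mul, ← Matrix.map_mul, Matrix.map_apply, Ideal.Quotient.eq]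

theorem finite_residueField_of_surjective [Finite k] (π : A →+* k)
    (hπ : Function.Surjective π) : Finite (ResidueField A) := by
  haveI : IsLocalHom π := ⟨fun a ha =>
    Fermat.Agent.S53.helper78.isUnit_of_map_ne_zero π hπ a ha.ne_zero⟩
  exact Finite.of_injective (IsLocalRing.ResidueField.lift π) (RingHom.injective _)

variable (hker : ∀ X : Matrix (Fin 2) (Fin 2) k,
      (∀ t, (X * M t - M t * X) (iN t) (jN t) = 0) →
        ∃ c : k, X = c • (1 : Matrix (Fin 2) (Fin 2) k))

include hker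

/-- existence of a normalising conjugator modulo `𝔪^(n+1)` (WP7 in the finite quotient). -/
theorem exists_goodMod [Finite k] [IsNoetherianRing A] (π : A →+* k)
    (hπ : Function.Surjective π)
    (R : Fin 3 → Matrix (Fin 2) (Fin 2) A) (hR : ∀ t, (R t).map π = M t)
    (c : Fin 3 → A) (hc : ∀ t, π (c t) = M t (iN t) (jN t)) (n : ℕ) :
    ∃ w w' : Matrix (Fin 2) (Fin 2) A, GoodMod iN jN R c (maximalIdeal A ^ (n + 1)) w w' := by
  have hI : maximalIdeal A ^ (n + 1) ≤ maximalIdeal A := Ideal.pow_le_self (Nat.succ_ne_zero n)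
  haveI := isLocalRing_quotient _ hI
  haveI := finite_residueField_of_surjective π hπ
  haveI : Finite (A ⧸ maximalIdeal A ^ (n + 1)) :=
    Fermat.Agent.S53.helper70.finite_quotient_maximalIdeal_pow (n + 1)
  obtain ⟨W, W', h1, h2, h3, h4, h5⟩ :=
    Fermat.Agent.S53.helper78.exists_normalising_conjugator M iN jN hker
      (quotMap π hπ _ hI) (quotMap_surjective π hπ _ hI)
      (fun t => (R t).map (Ideal.Quotient.mk _))
      (fun t => by rw [map_quotMap, hR])
      (fun t => Ideal.Quotient.mk _ (c t))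
      (fun t => by rw [quotMap_mk, hc])
  obtain ⟨w, rfl⟩ := exists_map_mk_eq _ W
  obtain ⟨w', rfl⟩ := exists_map_mk_eq _ W'
  exact ⟨w, w', (goodMod_iff iN jN π hπ R c _ hI w w').mpr ⟨h1, h2, h3, h4, h5⟩⟩

/-- uniqueness of the normalising conjugator modulo `I`. -/
theorem goodMod_unique (π : A →+* k) (hπ : Function.Surjective π)
    (R : Fin 3 → Matrix (Fin 2) (Fin 2) A) (hR : ∀ t, (R t).map π = M t)
    (c : Fin 3 → A) (I : Ideal A) (hI : I ≤ maximalIdeal A)
    (w w' v v' : Matrix (Fin 2) (Fin 2) A)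
    (hw : GoodMod iN jN R c I w w') (hv : GoodMod iN jN R c I v v') :
    (∀ i j, w i j - v i j ∈ I) ∧ (∀ i j, w' i j - v' i j ∈ I) := by
  haveI := isLocalRing_quotient _ hI
  obtain ⟨h1, h2, h3, h4, h5⟩ := (goodMod_iff iN jN π hπ R c _ hI w w').mp hw
  obtain ⟨g1, g2, g3, g4, g5⟩ := (goodMod_iff iN jN π hπ R c _ hI v v').mp hv
  have := normalising_conjugator_unique M iN jN hker (quotMap π hπ _ hI)
    (quotMap_surjective π hπ _ hI) (fun t => (R t).map (Ideal.Quotient.mk _))
    (fun t => by rw [map_quotMap, hR]) _ _ _ _ h1 h2 h3 h4 g1 g2 g3 g4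
    (fun t => by rw [h5 t, g5 t])
  exact ⟨(map_mk_eq_iff I w v).mp this.1, (map_mk_eq_iff I w' v').mp this.2⟩

/-- **Task C1.** Normalising conjugator over a complete Noetherian local ring with finite
residue field. -/
theorem exists_normalising_conjugator_complete [Finite k] [IsNoetherianRing A]
    [IsAdicComplete (maximalIdeal A) A] (π : A →+* k) (hπ : Function.Surjective π)
    (R : Fin 3 → Matrix (Fin 2) (Fin 2) A) (hR : ∀ t, (R t).map π = M t)
    (c : Fin 3 → A) (hc : ∀ t, π (c t) = M t (iN t) (jN t)) :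
    ∃ W W' : Matrix (Fin 2) (Fin 2) A, W.map π = 1 ∧ W 0 0 = 1 ∧ W * W' = 1 ∧ W' * W = 1 ∧
      ∀ t, (W * R t * W') (iN t) (jN t) = c t := by
  have hI : ∀ n, maximalIdeal A ^ (n + 1) ≤ maximalIdeal A :=
    fun n => Ideal.pow_le_self (Nat.succ_ne_zero n)
  choose w w' hw using exists_goodMod M iN jN hker π hπ R hR c hc
  -- the sequences are Cauchy
  have hcauchy : ∀ m n : ℕ, m ≤ n →
      (∀ i j, w n i j - w m i j ∈ maximalIdeal A ^ (m + 1)) ∧
      (∀ i j, w' n i j - w' m i j ∈ maximalIdeal A ^ (m + 1)) := fun m n hmn =>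
    goodMod_unique M iN jN hker π hπ R hR c _ (hI m) _ _ _ _
      ((hw n).mono (Ideal.pow_le_pow_right (Nat.succ_le_succ hmn))) (hw m)
  -- limits
  choose L hL using fun i j => exists_limit (fun n => w n i j)
    (fun m n hmn => (hcauchy m n hmn).1 i j)
  choose L' hL' using fun i j => exists_limit (fun n => w' n i j)
    (fun m n hmn => (hcauchy m n hmn).2 i j)
  set W : Matrix (Fin 2) (Fin 2) A := Matrix.of L with hWdef
  set W' : Matrix (Fin 2) (Fin 2) A := Matrix.of L' with hW'def
  -- the limits are good modulo every power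
  have hgood : ∀ n, GoodMod iN jN R c (maximalIdeal A ^ (n + 1)) W W' := by
    intro n
    rw [goodMod_iff iN jN π hπ R c _ (hI n)]
    have e1 : W.map (Ideal.Quotient.mk (maximalIdeal A ^ (n + 1))) =
        (w n).map (Ideal.Quotient.mk (maximalIdeal A ^ (n + 1))) :=
      (map_mk_eq_iff _ _ _).mpr (fun i j => hL i j n)
    have e2 : W'.map (Ideal.Quotient.mk (maximalIdeal A ^ (n + 1))) =
        (w' n).map (Ideal.Quotient.mk (maximalIdeal A ^ (n + 1))) :=
      (map_mk_eq_iff _ _ _).mpr (fun i j => hL' i j n)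
    rw [e1, e2]
    exact (goodMod_iff iN jN π hπ R c _ (hI n) _ _).mp (hw n)
  refine ⟨W, W', ?_, ?_, ?_, ?_, ?_⟩
  · have h := ((goodMod_iff iN jN π hπ R c _ (hI 0) W W').mp (hgood 0)).1
    rwa [map_quotMap] at h
  · have : W 0 0 - 1 = 0 := eq_zero_of_forall_mem_pow _ (fun n => (hgood n).2.1)
    exact sub_eq_zero.mp this
  · ext i j
    have : (W * W') i j - (1 : Matrix (Fin 2) (Fin 2) A) i j = 0 :=
      eq_zero_of_forall_mem_pow _ (fun n => (hgood n).2.2.1 i j)
    exact sub_eq_zero.mp this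
  · ext i j
    have : (W' * W) i j - (1 : Matrix (Fin 2) (Fin 2) A) i j = 0 :=
      eq_zero_of_forall_mem_pow _ (fun n => (hgood n).2.2.2.1 i j)
    exact sub_eq_zero.mp this
  · intro t
    have : (W * R t * W') (iN t) (jN t) - c t = 0 :=
      eq_zero_of_forall_mem_pow _ (fun n => (hgood n).2.2.2.2 t)
    exact sub_eq_zero.mp this

/-- uniqueness over any local ring, in the form needed for the universal property -/
theorem normalising_conjugator_unique' (π : A →+* k) (hπ : Function.Surjective π)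
    (R : Fin 3 → Matrix (Fin 2) (Fin 2) A) (hR : ∀ t, (R t).map π = M t)
    (c : Fin 3 → A)
    (W W' V V' : Matrix (Fin 2) (Fin 2) A)
    (hW : W.map π = 1) (hW0 : W 0 0 = 1) (hWW' : W * W' = 1) (hW'W : W' * W = 1)
    (hWc : ∀ t, (W * R t * W') (iN t) (jN t) = c t)
    (hV : V.map π = 1) (hV0 : V 0 0 = 1) (hVV' : V * V' = 1) (hV'V : V' * V = 1)
    (hVc : ∀ t, (V * R t * V') (iN t) (jN t) = c t) :
    W = V ∧ W' = V' :=
  normalising_conjugator_unique M iN jN hker π hπ R hR W W' V V' hW hW0 hWW' hW'W hV hV0 hVV'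
    hV'V (fun t => by rw [hWc, hVc])

end complete

end Fermat.Agent.S53.helper59
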