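import Mathlib
import Fermat.Agent.S53.Basic
import Fermat.Agent.S53.helper59_C1

/-!
# S53, task C2 (helper59): from Artinian test algebras to complete Noetherian local rings

Let `P : ProRep F` be a pro-representing object of a `LiftFunctor`.  The universal property of
`P` is stated for Artinian test algebras.  Here we extend it to complete Noetherian local
`𝒪`-algebras `A`: a family `y : Ω → A` all of whose Artinian quotients are points of `F` is the
image of the universal point under a unique `𝒪`-algebra homomorphism `P.R → A`.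
-/

set_option autoImplicit false

namespace Fermat.Agent.S53.helper59

open IsLocalRing GaloisRep

section testAlgebra

variable {𝒪 : Type} [CommRing 𝒪] [IsLocalRing 𝒪]
  {A : Type} [CommRing A] [IsLocalRing A] [Algebra 𝒪 A]

/-- The residue field of a local `𝒪`-algebra with `residue_surjective` is finite as soon as
the residue field of `𝒪` is. -/
theorem finite_residueField_of_residue_surjective [Finite (ResidueField 𝒪)]
    [IsLocalHom (algebraMap 𝒪 A)]
    (hres : Function.Surjective (residue A ∘ algebraMap 𝒪 A)) : Finite (ResidueField A) := by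
  refine Finite.of_surjective (ResidueField.map (algebraMap 𝒪 A)) (fun b => ?_)
  obtain ⟨o, rfl⟩ := hres b
  exact ⟨residue 𝒪 o, rfl⟩

/-- A quotient of a local `𝒪`-algebra with `residue_surjective` by a proper ideal again has
`residue_surjective`. -/
theorem residue_surjective_quotient (hres : Function.Surjective (residue A ∘ algebraMap 𝒪 A))
    (I : Ideal A) (hI : I ≤ maximalIdeal A) :
    haveI := isLocalRing_quotient I hI
    Function.Surjective (residue (A ⧸ I) ∘ algebraMap 𝒪 (A ⧸ I)) := by
  haveI := isLocalRing_quotient I hI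
  intro b
  obtain ⟨b', rfl⟩ := residue_surjective b
  obtain ⟨a, rfl⟩ := Ideal.Quotient.mk_surjective b'
  obtain ⟨o, ho⟩ := hres (residue A a)
  refine ⟨o, ?_⟩
  have h1 : algebraMap 𝒪 A o - a ∈ maximalIdeal A := by
    rw [← residue_eq_zero_iff, map_sub, sub_eq_zero]
    exact ho
  haveI : IsLocalHom (Ideal.Quotient.mk I) :=
    IsLocalHom.of_surjective _ Ideal.Quotient.mk_surjective
  have h2 : Ideal.Quotient.mk I (algebraMap 𝒪 A o - a) ∈ maximalIdeal (A ⧸ I) := by
    rw [mem_maximalIdeal, mem_nonunits_iff]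
    intro hu
    exact (mem_maximalIdeal _).mp h1 (isUnit_of_map_unit (Ideal.Quotient.mk I) _ hu)
  rw [map_sub, ← residue_eq_zero_iff, map_sub, sub_eq_zero] at h2
  exact h2

/-- The quotient of a complete-local-type `𝒪`-algebra by a power of its maximal ideal is an
Artinian test algebra. -/
theorem isArtinianTestAlgebra_quotient_pow [Finite (ResidueField 𝒪)] [IsNoetherianRing A]
    [IsLocalHom (algebraMap 𝒪 A)]
    (hres : Function.Surjective (residue A ∘ algebraMap 𝒪 A)) (n : ℕ) :
    haveI := isLocalRing_quotient (maximalIdeal A ^ (n + 1))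
      (Ideal.pow_le_self (Nat.succ_ne_zero n))
    IsArtinianTestAlgebra 𝒪 (A ⧸ maximalIdeal A ^ (n + 1)) := by
  have hI : maximalIdeal A ^ (n + 1) ≤ maximalIdeal A := Ideal.pow_le_self (Nat.succ_ne_zero n)
  haveI := isLocalRing_quotient _ hI
  haveI : IsLocalHom (Ideal.Quotient.mk (maximalIdeal A ^ (n + 1))) :=
    IsLocalHom.of_surjective _ Ideal.Quotient.mk_surjective
  haveI := finite_residueField_of_residue_surjective hres
  haveI : Finite (A ⧸ maximalIdeal A ^ (n + 1)) :=
    Fermat.Agent.S53.helper70.finite_quotient_maximalIdeal_pow (n + 1)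
  refine ⟨⟨fun o ho => ?_⟩, residue_surjective_quotient hres _ hI, inferInstance⟩
  have : (algebraMap 𝒪 (A ⧸ maximalIdeal A ^ (n + 1))) o =
      Ideal.Quotient.mk _ (algebraMap 𝒪 A o) := rfl
  rw [this] at ho
  exact isUnit_of_map_unit (algebraMap 𝒪 A) o
    (isUnit_of_map_unit (Ideal.Quotient.mk (maximalIdeal A ^ (n + 1))) _ ho)

/-- Any `𝒪`-algebra homomorphism from a local ring to a local `𝒪`-algebra with
`residue_surjective` is a local homomorphism. -/
theorem isLocalHom_of_algHom {R : Type} [CommRing R] [IsLocalRing R] [Algebra 𝒪 R]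
    [IsLocalHom (algebraMap 𝒪 A)]
    (hres : Function.Surjective (residue A ∘ algebraMap 𝒪 A)) (φ : R →ₐ[𝒪] A) :
    IsLocalHom (φ : R →+* A) := by
  refine ⟨fun r hr => ?_⟩
  by_contra hnu
  have hr' : IsUnit (φ r) := hr
  obtain ⟨o, ho⟩ := hres (residue A (φ r))
  have ho' : residue A (algebraMap 𝒪 A o) = residue A (φ r) := ho
  have hou : IsUnit o := by
    by_contra hno
    have h1 : residue A (φ r) ≠ 0 := by
      rw [Ne, residue_eq_zero_iff]
      exact fun h => (mem_maximalIdeal _).mp h hr'
    have h5 : residue A (algebraMap 𝒪 A o) = 0 := by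
      rw [residue_eq_zero_iff, mem_maximalIdeal, mem_nonunits_iff]
      exact fun hu => hno (isUnit_of_map_unit (algebraMap 𝒪 A) o hu)
    rw [← ho'] at h1
    exact h1 h5
  have h7 : IsUnit (algebraMap 𝒪 R o - r) := by
    have hrm : r ∈ maximalIdeal R := (mem_maximalIdeal _).mpr hnu
    by_contra hcon
    have hmem2 : algebraMap 𝒪 R o - r ∈ maximalIdeal R := (mem_maximalIdeal _).mpr hcon
    have : algebraMap 𝒪 R o ∈ maximalIdeal R := by
      have := add_mem hmem2 hrm
      simpa using this
    exact (mem_maximalIdeal _).mp this (hou.map (algebraMap 𝒪 R))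
  have h8 : IsUnit (φ (algebraMap 𝒪 R o - r)) := h7.map φ
  rw [map_sub, AlgHom.commutes] at h8
  have hmem : algebraMap 𝒪 A o - φ r ∈ maximalIdeal A := by
    rw [← residue_eq_zero_iff, map_sub, sub_eq_zero]; exact ho'
  exact (mem_maximalIdeal _).mp hmem h8

end testAlgebra

section glue

variable {𝒪 : Type} [CommRing 𝒪] [IsLocalRing 𝒪] [Finite (ResidueField 𝒪)]
  {Ω : Type} {F : LiftFunctor 𝒪 Ω} (P : ProRep F)
  {A : Type} [CommRing A] [IsLocalRing A] [IsNoetherianRing A] [Algebra 𝒪 A]
  [IsLocalHom (algebraMap 𝒪 A)]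

/-- homs from the pro-representing ring to the Artinian quotients of `A` -/
theorem exists_hom_quot (hres : Function.Surjective (residue A ∘ algebraMap 𝒪 A))
    (y : Ω → A)
    (hy : ∀ (B : Type) [CommRing B] [IsLocalRing B] [Algebra 𝒪 B], IsArtinianTestAlgebra 𝒪 B →
      ∀ q : A →ₐ[𝒪] B, Function.Surjective q → F.N B (fun ω => q (y ω))) (n : ℕ) :
    ∃ φ : P.R →ₐ[𝒪] A ⧸ maximalIdeal A ^ (n + 1),
      ∀ ω, φ (P.x ω) = Ideal.Quotient.mk _ (y ω) := by
  haveI := isLocalRing_quotient (maximalIdeal A ^ (n + 1))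
      (Ideal.pow_le_self (Nat.succ_ne_zero n))
  have hB := isArtinianTestAlgebra_quotient_pow (𝒪 := 𝒪) (A := A) hres n
  exact P.exists_hom _ hB _ (hy _ hB (Ideal.Quotient.mkₐ 𝒪 _) Ideal.Quotient.mk_surjective)

theorem hom_quot_ext (hres : Function.Surjective (residue A ∘ algebraMap 𝒪 A)) (n : ℕ)
    (φ ψ : P.R →ₐ[𝒪] A ⧸ maximalIdeal A ^ (n + 1))
    (h : ∀ ω, φ (P.x ω) = ψ (P.x ω)) : φ = ψ := by
  haveI := isLocalRing_quotient (maximalIdeal A ^ (n + 1))
      (Ideal.pow_le_self (Nat.succ_ne_zero n))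
  have hB := isArtinianTestAlgebra_quotient_pow (𝒪 := 𝒪) (A := A) hres n
  exact P.hom_ext _ hB φ ψ h

/-- **Task C2.** Extension of the universal property of a pro-representing object from
Artinian test algebras to complete Noetherian local `𝒪`-algebras. -/
theorem existsUnique_algHom_complete [IsAdicComplete (maximalIdeal A) A]
    (hres : Function.Surjective (residue A ∘ algebraMap 𝒪 A))
    (y : Ω → A)
    (hy : ∀ (B : Type) [CommRing B] [IsLocalRing B] [Algebra 𝒪 B], IsArtinianTestAlgebra 𝒪 B →
      ∀ q : A →ₐ[𝒪] B, Function.Surjective q → F.N B (fun ω => q (y ω))) :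
    ∃! φ : P.R →ₐ[𝒪] A, ∀ ω, φ (P.x ω) = y ω := by
  choose φ hφ using exists_hom_quot P hres y hy
  -- the truncated homs
  let f : (n : ℕ) → P.R →ₐ[𝒪] A ⧸ maximalIdeal A ^ n := fun n =>
    (Ideal.Quotient.factorₐ 𝒪 (Ideal.pow_le_pow_right (Nat.le_succ n))).comp (φ n)
  have hfx : ∀ n ω, f n (P.x ω) = Ideal.Quotient.mk _ (y ω) := by
    intro n ω
    simp only [f, AlgHom.comp_apply, hφ]
    rfl
  have hφcompat : ∀ m n : ℕ, (h : m ≤ n) →
      (Ideal.Quotient.factorₐ 𝒪 (Ideal.pow_le_pow_right (Nat.succ_le_succ h))).comp (φ n) =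
        φ m := by
    intro m n h
    apply hom_quot_ext P hres m
    intro ω
    simp only [AlgHom.comp_apply, hφ]
    rfl
  have hf : ∀ {m n : ℕ} (hle : m ≤ n),
      (Ideal.Quotient.factorₐ 𝒪 (Ideal.pow_le_pow_right hle)).comp (f n) = f m := by
    intro m n hle
    simp only [f]
    rw [← hφcompat m n hle]
    ext r
    simp only [AlgHom.comp_apply]
    obtain ⟨a, ha⟩ := Ideal.Quotient.mk_surjective (φ n r)
    rw [← ha]
    rfl
  refine ⟨IsAdicComplete.liftAlgHom (maximalIdeal A) f hf, ?_, ?_⟩
  · intro ω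
    have key : ∀ n, Ideal.Quotient.mk (maximalIdeal A ^ n)
        (IsAdicComplete.liftAlgHom (maximalIdeal A) f hf (P.x ω)) =
        Ideal.Quotient.mk (maximalIdeal A ^ n) (y ω) := by
      intro n
      rw [IsAdicComplete.mk_liftAlgHom, hfx]
    have : IsAdicComplete.liftAlgHom (maximalIdeal A) f hf (P.x ω) - y ω = 0 := by
      apply eq_zero_of_forall_mem_pow
      intro n
      exact Ideal.Quotient.eq.mp (key (n + 1))
    exact sub_eq_zero.mp this
  · intro ψ hψ
    apply IsAdicComplete.algHom_ext (maximalIdeal A)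
    intro n
    cases n with
    | zero =>
      haveI : Subsingleton (A ⧸ maximalIdeal A ^ 0) := by
        rw [pow_zero, Ideal.one_eq_top]
        exact Ideal.Quotient.subsingleton_iff.mpr rfl
      ext r
      exact Subsingleton.elim _ _
    | succ n =>
      apply hom_quot_ext P hres n
      intro ω
      simp only [AlgHom.comp_apply, hψ]
      have key : Ideal.Quotient.mk (maximalIdeal A ^ (n + 1))
          (IsAdicComplete.liftAlgHom (maximalIdeal A) f hf (P.x ω)) =
          Ideal.Quotient.mk (maximalIdeal A ^ (n + 1)) (y ω) := by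
        rw [IsAdicComplete.mk_liftAlgHom, hfx]
      exact key.symm

end glue

end Fermat.Agent.S53.helper59
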