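import Mathlib
import Fermat.Prelude.Def_GaloisRep_DeformationRingData
import Fermat.Prelude.Def_GaloisRep_DeformationCondition
import Fermat.Agent.S53.Basic
import Fermat.Agent.S53.TestAlg
import Fermat.Agent.S53.helper56_Matrix
import Fermat.Agent.S53.helper59_C1
import Fermat.Agent.S53.helper59_C2

/-!
# S53, task A2 (helper40), part 1: the universal matrix representation

Let `F` be a `LiftFunctor` on `Ω = Gal × Fin 2 × Fin 2` whose points on Artinian test algebras
are the (entries of) normalised matrix lifts of type `𝒟` (hypothesis `NSpec`), and let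
`P : ProRep F`.  The universal point `P.x` is then the family of entries of a continuous
matrix representation `univHom : Gal →* M₂(P.R)`; the attached `GaloisRepAdic` is of type `𝒟`
and lifts `ρbar`.
-/

set_option autoImplicit false
set_option linter.unusedSectionVars false
set_option linter.unusedVariables false
set_option linter.style.haveILetI false

namespace Fermat.Agent.S53.helper40

open IsLocalRing GaloisRep Fermat.Agent.S53.helper56

/-- The interface between an abstract lift functor on `Gal × Fin 2 × Fin 2` and normalised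
matrix lifts of type `𝒟`. -/
def NSpec {𝒪 : Type} [CommRing 𝒪] [IsLocalRing 𝒪]
    (𝒟 : ∀ ⦃A : Type⦄ [CommRing A] [IsLocalRing A] [Algebra 𝒪 A], GaloisRepAdic A → Prop)
    (F : LiftFunctor 𝒪 (Gal × Fin 2 × Fin 2))
    (gN : Fin 3 → Gal) (iN jN : Fin 3 → Fin 2) : Prop :=
  ∀ (A : Type) [CommRing A] [IsLocalRing A] [Algebra 𝒪 A], IsArtinianTestAlgebra 𝒪 A →
    ∀ x : Gal × Fin 2 × Fin 2 → A,
      F.N A x ↔ ∃ (R : Gal →* M2 A) (hR : MatCont R), (∀ g i j, R g i j = x (g, i, j)) ∧
        (∀ ω, x ω - algebraMap 𝒪 A (F.base ω) ∈ maximalIdeal A) ∧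
        (∀ t, x (gN t, iN t, jN t) = algebraMap 𝒪 A (F.base (gN t, iN t, jN t))) ∧
        𝒟 (ofMatrix R hR)

section general

variable {A : Type} [CommRing A] [IsLocalRing A]

/-- Two matrices over a Hausdorff local ring which agree modulo all powers of the maximal ideal
are equal. -/
theorem matrix_eq_of_forall_map_mk [IsHausdorff (maximalIdeal A) A] (X Y : M2 A)
    (h : ∀ n : ℕ, X.map (Ideal.Quotient.mk (maximalIdeal A ^ (n + 1))) =
      Y.map (Ideal.Quotient.mk (maximalIdeal A ^ (n + 1)))) : X = Y := by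
  ext i j
  have : X i j - Y i j = 0 :=
    helper59.eq_zero_of_forall_mem_pow _ fun n =>
      (helper59.map_mk_eq_iff _ X Y).mp (h n) i j
  exact sub_eq_zero.mp this

/-- The maximal ideal of the target of a surjective ring hom of local rings. -/
theorem maximalIdeal_eq_map_of_surjective {B : Type} [CommRing B] [IsLocalRing B] (f : A →+* B)
    (hf : Function.Surjective f) : maximalIdeal B = (maximalIdeal A).map f := by
  haveI : IsLocalHom f := IsLocalHom.of_surjective f hf
  rw [← maximalIdeal_comap f, Ideal.map_comap_of_surjective f hf]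

/-- In `A ⧸ 𝔪 ^ (n + 1)` the `(n + 1)`-st power of the maximal ideal vanishes. -/
theorem maximalIdeal_quotient_pow_eq_bot (n : ℕ)
    [IsLocalRing (A ⧸ maximalIdeal A ^ (n + 1))] :
    maximalIdeal (A ⧸ maximalIdeal A ^ (n + 1)) ^ (n + 1) = ⊥ := by
  rw [maximalIdeal_eq_map_of_surjective (Ideal.Quotient.mk (maximalIdeal A ^ (n + 1)))
    Ideal.Quotient.mk_surjective, ← Ideal.map_pow, Ideal.map_quotient_self]

theorem isEquiv_symm {ρ₁ ρ₂ : GaloisRepAdic A} (h : ρ₁.IsEquiv ρ₂) : ρ₂.IsEquiv ρ₁ := by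
  obtain ⟨e⟩ := h
  exact ⟨e.symm⟩

theorem isEquiv_trans {ρ₁ ρ₂ ρ₃ : GaloisRepAdic A} (h : ρ₁.IsEquiv ρ₂) (h' : ρ₂.IsEquiv ρ₃) :
    ρ₁.IsEquiv ρ₃ := by
  obtain ⟨e⟩ := h
  obtain ⟨e'⟩ := h'
  exact ⟨e.trans e'⟩

/-- `ofMatrix` of a representation whose entries agree with the matrix form of `ρ` in some
basis is equivalent to `ρ`. -/
theorem isEquiv_ofMatrix_of_entries (ρ : GaloisRepAdic A) (b : Module.Basis (Fin 2) A ρ.V)
    (R : Gal →* M2 A) (hR : MatCont R) (h : ∀ σ i j, R σ i j = toMatrixHom ρ b σ i j) :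
    (ofMatrix R hR).IsEquiv ρ := by
  rw [isEquiv_iff_conj _ _ (stdBasis R hR) b]
  refine ⟨1, 1, one_mul 1, one_mul 1, fun σ => ?_⟩
  rw [toMatrixHom_ofMatrix, one_mul, mul_one]
  ext i j
  exact h σ i j

end general

section univ

variable {𝒪 : Type} [CommRing 𝒪] [IsLocalRing 𝒪] [Finite (ResidueField 𝒪)]
  {𝒟 : ∀ ⦃A : Type⦄ [CommRing A] [IsLocalRing A] [Algebra 𝒪 A], GaloisRepAdic A → Prop}
  {F : LiftFunctor 𝒪 (Gal × Fin 2 × Fin 2)}
  {gN : Fin 3 → Gal} {iN jN : Fin 3 → Fin 2}

/-- The matrix lift at level `n` provided by the universal point. -/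
theorem exists_level (hN : NSpec 𝒟 F gN iN jN) (P : ProRep F) (n : ℕ) :
    haveI := helper59.isLocalRing_quotient (maximalIdeal P.R ^ (n + 1))
      (Ideal.pow_le_self (Nat.succ_ne_zero n))
    ∃ (R : Gal →* M2 (P.R ⧸ maximalIdeal P.R ^ (n + 1))) (hR : MatCont R),
      (∀ g, R g = (Matrix.of fun i j => P.x (g, i, j)).map
        (Ideal.Quotient.mk (maximalIdeal P.R ^ (n + 1)))) ∧
      (∀ t, P.x (gN t, iN t, jN t) - algebraMap 𝒪 P.R (F.base (gN t, iN t, jN t)) ∈
        maximalIdeal P.R ^ (n + 1)) := by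
  haveI := helper59.isLocalRing_quotient (maximalIdeal P.R ^ (n + 1))
      (Ideal.pow_le_self (Nat.succ_ne_zero n))
  have hB := helper59.isArtinianTestAlgebra_quotient_pow (𝒪 := 𝒪) (A := P.R)
    P.residue_surjective n
  have h1 := P.x_mem _ hB (Ideal.Quotient.mkₐ 𝒪 _)
  obtain ⟨R, hR, hent, -, hnorm, -⟩ := (hN _ hB _).mp h1
  refine ⟨R, hR, fun g => ?_, fun t => ?_⟩
  · ext i j
    rw [hent g i j]
    rfl
  · have h2 := hnorm t
    rw [← Ideal.Quotient.eq]
    exact h2

/-- The universal matrix, as a function. -/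
noncomputable def univFun (P : ProRep F) (g : Gal) : M2 P.R :=
  Matrix.of fun i j => P.x (g, i, j)

theorem univFun_apply (P : ProRep F) (g : Gal) (i j : Fin 2) :
    univFun P g i j = P.x (g, i, j) := rfl

theorem univFun_one (hN : NSpec 𝒟 F gN iN jN) (P : ProRep F) : univFun P 1 = 1 := by
  apply matrix_eq_of_forall_map_mk
  intro n
  haveI := helper59.isLocalRing_quotient (maximalIdeal P.R ^ (n + 1))
      (Ideal.pow_le_self (Nat.succ_ne_zero n))
  obtain ⟨R, hR, hent, -⟩ := exists_level hN P n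
  have h1 : (univFun P 1).map (Ideal.Quotient.mk (maximalIdeal P.R ^ (n + 1))) = R 1 :=
    (hent 1).symm
  rw [h1, map_one, Matrix.map_one _ (map_zero _) (map_one _)]

theorem univFun_mul (hN : NSpec 𝒟 F gN iN jN) (P : ProRep F) (g h : Gal) :
    univFun P (g * h) = univFun P g * univFun P h := by
  apply matrix_eq_of_forall_map_mk
  intro n
  haveI := helper59.isLocalRing_quotient (maximalIdeal P.R ^ (n + 1))
      (Ideal.pow_le_self (Nat.succ_ne_zero n))
  obtain ⟨R, hR, hent, -⟩ := exists_level hN P n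
  have h1 : ∀ g, (univFun P g).map (Ideal.Quotient.mk (maximalIdeal P.R ^ (n + 1))) = R g :=
    fun g => (hent g).symm
  rw [Matrix.map_mul, h1, h1, h1, map_mul]

/-- The universal matrix representation. -/
noncomputable def univHom (hN : NSpec 𝒟 F gN iN jN) (P : ProRep F) : Gal →* M2 P.R where
  toFun := univFun P
  map_one' := univFun_one hN P
  map_mul' := univFun_mul hN P

theorem univHom_apply (hN : NSpec 𝒟 F gN iN jN) (P : ProRep F) (g : Gal) (i j : Fin 2) :
    univHom hN P g i j = P.x (g, i, j) := rfl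

theorem matCont_univHom (hN : NSpec 𝒟 F gN iN jN) (P : ProRep F) : MatCont (univHom hN P) := by
  intro n
  haveI := helper59.isLocalRing_quotient (maximalIdeal P.R ^ (n + 1))
      (Ideal.pow_le_self (Nat.succ_ne_zero n))
  obtain ⟨R, hR, hent, -⟩ := exists_level hN P n
  obtain ⟨L, hL, h⟩ := hR (n + 1)
  refine ⟨L, hL, fun σ hσ i j => ?_⟩
  have h1 := h σ hσ i j
  rw [maximalIdeal_quotient_pow_eq_bot, Ideal.mem_bot, hent σ] at h1
  have h2 : Ideal.Quotient.mk (maximalIdeal P.R ^ (n + 1)) ((univHom hN P σ - 1) i j) = 0 := by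
    rw [← h1]
    simp only [Matrix.sub_apply, Matrix.map_apply, map_sub, Matrix.one_apply]
    by_cases hij : i = j <;> simp [hij, univHom_apply]
  exact Ideal.pow_le_pow_right (Nat.le_succ n) (Ideal.Quotient.eq_zero_iff_mem.mp h2)

/-- The universal point is exactly normalised. -/
theorem univ_normalised (hN : NSpec 𝒟 F gN iN jN) (P : ProRep F) (t : Fin 3) :
    P.x (gN t, iN t, jN t) = algebraMap 𝒪 P.R (F.base (gN t, iN t, jN t)) := by
  have : P.x (gN t, iN t, jN t) - algebraMap 𝒪 P.R (F.base (gN t, iN t, jN t)) = 0 :=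
    helper59.eq_zero_of_forall_mem_pow _ fun n => by
      haveI := helper59.isLocalRing_quotient (maximalIdeal P.R ^ (n + 1))
        (Ideal.pow_le_self (Nat.succ_ne_zero n))
      obtain ⟨R, hR, -, hnorm⟩ := exists_level hN P n
      exact hnorm t
  exact sub_eq_zero.mp this

/-- The universal deformation. -/
noncomputable def univRep (hN : NSpec 𝒟 F gN iN jN) (P : ProRep F) : GaloisRepAdic P.R :=
  ofMatrix (univHom hN P) (matCont_univHom hN P)

/-- The universal deformation is of type `𝒟`. -/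
theorem isOfType_univRep (h𝒟 : IsDeformationCondition 𝒪 𝒟) (hN : NSpec 𝒟 F gN iN jN)
    (P : ProRep F) : 𝒟 (univRep hN P) := by
  refine (h𝒟.iff_forall_surjective (A := P.R) inferInstance P.residue_surjective _).mpr ?_
  intro B _ _ _ hB q hq hsurj
  have h1 := P.x_mem B hB q
  obtain ⟨R, hR, hent, -, -, hD⟩ := (hN B hB _).mp h1
  have hRe : R = mapHom (q : P.R →+* B) (univHom hN P) := by
    ext σ i j
    rw [hent σ i j, mapHom_apply]
    rfl
  subst hRe
  exact h𝒟.of_isEquiv hB
    (isEquiv_symm (isEquiv_baseChangeAlong_ofMatrix (q : P.R →+* B) hq (univHom hN P)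
      (matCont_univHom hN P))) hD

/-- The universal deformation lifts `ρbar`. -/
theorem residual_isEquiv_univRep (ρbar : ResidualGaloisRep (ResidueField 𝒪))
    (bbar : Module.Basis (Fin 2) (ResidueField 𝒪) ρbar.V)
    (hbase : ∀ g i j, residue 𝒪 (F.base (g, i, j)) = rMat ρbar bbar g i j)
    (hN : NSpec 𝒟 F gN iN jN) (P : ProRep F) :
    (univRep hN P).residual.IsEquiv
      (ρbar.baseChangeAlong (ResidueField.map (algebraMap 𝒪 P.R))) := by
  rw [residual_isEquiv_iff _ ρbar _ bbar]
  refine ⟨stdBasis _ _, fun σ => ?_⟩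
  rw [show toMatrixHom (univRep hN P) (stdBasis (univHom hN P) (matCont_univHom hN P)) σ =
    univHom hN P σ from congrFun (congrArg DFunLike.coe (toMatrixHom_ofMatrix _ _)) σ]
  ext i j
  rw [Matrix.map_apply, Matrix.map_apply, ← hbase, ResidueField.map_residue, univHom_apply,
    ← sub_eq_zero, ← map_sub, residue_eq_zero_iff]
  exact P.x_lift _

end univ

end Fermat.Agent.S53.helper40
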