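import Fermat.Agent.S53.Basic
import Fermat.Agent.S53.helper56_Matrix

/-!
# S53-A1 (definitions): normalised matrix lifts of `ρbar` (helper56)

* `Ω = Gal × Fin 2 × Fin 2`: the coordinates (matrix entries of the images of group elements);
* `matOf x g`: the matrix with entries `x (g, i, j)`;
* `NormData 𝒪 ρbar`: a basis of `ρbar`, three normalising coordinates `(gN t, iN t, jN t)` cutting
  the commutant of `ρbar` down to scalars, and set-theoretic lifts `base` of the entries of `ρbar`;
* `IsNormLift D 𝒟 A x`: `x` is the family of entries of a continuous matrix representation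
  lifting `ρbar` (in the basis of `D`), normalised at the three coordinates, satisfying `𝒟`.
-/

set_option autoImplicit false
set_option linter.unusedSectionVars false
set_option linter.style.haveILetI false

namespace Fermat.Agent.S53.helper56

open IsLocalRing GaloisRep

/-- The index type of the coordinates: matrix entries of the images of the group elements. -/
abbrev Ω : Type := Gal × Fin 2 × Fin 2

/-- The matrix with prescribed entries. -/
def matOf {A : Type} (x : Ω → A) (g : Gal) : M2 A := Matrix.of fun i j => x (g, i, j)

@[simp] theorem matOf_apply {A : Type} (x : Ω → A) (g : Gal) (i j : Fin 2) :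
    matOf x g i j = x (g, i, j) := rfl

theorem matOf_comp {A B : Type} (f : A → B) (x : Ω → A) (g : Gal) :
    matOf (fun ω => f (x ω)) g = (matOf x g).map f := by
  ext i j; rfl

/-- Normalisation data for a residual representation: a basis, three coordinates which cut the
commutant down to the scalars, and set-theoretic lifts of the matrix entries. -/
structure NormData (𝒪 : Type) [CommRing 𝒪] [IsLocalRing 𝒪]
    (ρbar : ResidualGaloisRep (ResidueField 𝒪)) where
  /-- a basis of the residual representation -/
  bbar : Module.Basis (Fin 2) (ResidueField 𝒪) ρbar.V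
  /-- the three group elements -/
  gN : Fin 3 → Gal
  /-- the three row indices -/
  iN : Fin 3 → Fin 2
  /-- the three column indices -/
  jN : Fin 3 → Fin 2
  hker : ∀ X : M2 (ResidueField 𝒪),
    (∀ t, (X * rMat ρbar bbar (gN t) - rMat ρbar bbar (gN t) * X) (iN t) (jN t) = 0) →
      ∃ c : ResidueField 𝒪, X = c • (1 : M2 (ResidueField 𝒪))
  /-- set-theoretic lifts of the entries of the residual matrices -/
  base : Ω → 𝒪
  hbase : ∀ (g : Gal) (i j : Fin 2), residue 𝒪 (base (g, i, j)) = rMat ρbar bbar g i j

/-- `x : Ω → A` is the family of matrix entries of a continuous representation `Gal →* M₂(A)`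
which lifts `ρbar` entrywise (relative to `D.base`), is normalised at the three coordinates of `D`,
and whose associated `GaloisRepAdic` satisfies `𝒟`. -/
def IsNormLift {𝒪 : Type} [CommRing 𝒪] [IsLocalRing 𝒪]
    {ρbar : ResidualGaloisRep (ResidueField 𝒪)} (D : NormData 𝒪 ρbar)
    (𝒟 : ∀ ⦃A : Type⦄ [CommRing A] [IsLocalRing A] [Algebra 𝒪 A], GaloisRepAdic A → Prop)
    (A : Type) [CommRing A] [IsLocalRing A] [Algebra 𝒪 A] (x : Ω → A) : Prop :=
  ∃ (R : Gal →* M2 A) (hR : MatCont R),
    (∀ g, R g = matOf x g) ∧
    (∀ ω, x ω - algebraMap 𝒪 A (D.base ω) ∈ maximalIdeal A) ∧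
    (∀ t, x (D.gN t, D.iN t, D.jN t) = algebraMap 𝒪 A (D.base (D.gN t, D.iN t, D.jN t))) ∧
    𝒟 (ofMatrix R hR)

end Fermat.Agent.S53.helper56
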