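import Mathlib

/-!
# S53, work package WP6 (helper68): rigidity of normalised lifts

If `Y` intertwines two lifts `R`, `R'` (over a local ring `A`) of the same residual family
`M` of three `2 × 2` matrices whose three normalising coordinates cut the commutant down to
scalars, and `R`, `R'` agree in the normalising coordinates, then `Y` is the scalar `Y 0 0`.
-/

set_option autoImplicit false

namespace Fermat.Agent.S53.helper68

open Matrix

/-- The `A`-linear endomorphism `Z ↦ [[Z₀₀, c₀(Z)], [c₁(Z), c₂(Z)]]` of `M₂(A)`, where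
`c_t(Z) = (Z R_t - R'_t Z)_{i_t j_t}`. -/
noncomputable def coordEnd {A : Type} [CommRing A] (R R' : Fin 3 → Matrix (Fin 2) (Fin 2) A)
    (iN jN : Fin 3 → Fin 2) :
    Matrix (Fin 2) (Fin 2) A →ₗ[A] Matrix (Fin 2) (Fin 2) A where
  toFun Z := !![Z 0 0, (Z * R 0 - R' 0 * Z) (iN 0) (jN 0);
                (Z * R 1 - R' 1 * Z) (iN 1) (jN 1), (Z * R 2 - R' 2 * Z) (iN 2) (jN 2)]
  map_add' Z W := by
    ext i j
    fin_cases i <;> fin_cases j <;>
      simp [Matrix.add_mul, Matrix.mul_add] <;> ring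
  map_smul' a Z := by
    ext i j
    fin_cases i <;> fin_cases j <;>
      simp <;> ring

lemma coordEnd_apply {A : Type} [CommRing A] (R R' : Fin 3 → Matrix (Fin 2) (Fin 2) A)
    (iN jN : Fin 3 → Fin 2) (Z : Matrix (Fin 2) (Fin 2) A) :
    coordEnd R R' iN jN Z =
      !![Z 0 0, (Z * R 0 - R' 0 * Z) (iN 0) (jN 0);
         (Z * R 1 - R' 1 * Z) (iN 1) (jN 1), (Z * R 2 - R' 2 * Z) (iN 2) (jN 2)] := rfl

lemma coordEnd_map {A k : Type} [CommRing A] [CommRing k] (π : A →+* k)
    (R R' : Fin 3 → Matrix (Fin 2) (Fin 2) A) (iN jN : Fin 3 → Fin 2)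
    (Z : Matrix (Fin 2) (Fin 2) A) :
    (coordEnd R R' iN jN Z).map π =
      coordEnd (fun t => (R t).map π) (fun t => (R' t).map π) iN jN (Z.map π) := by
  rw [coordEnd_apply, coordEnd_apply]
  ext i j
  fin_cases i <;> fin_cases j <;>
    simp [Matrix.map_apply, ← Matrix.map_mul]

lemma coordEnd_injective_of_hker {k : Type} [Field k] (M : Fin 3 → Matrix (Fin 2) (Fin 2) k)
    (iN jN : Fin 3 → Fin 2)
    (hker : ∀ X : Matrix (Fin 2) (Fin 2) k,
      (∀ t, (X * M t - M t * X) (iN t) (jN t) = 0) →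
        ∃ c : k, X = c • (1 : Matrix (Fin 2) (Fin 2) k)) :
    Function.Injective (coordEnd M M iN jN) := by
  rw [injective_iff_map_eq_zero]
  intro X hX
  rw [coordEnd_apply] at hX
  have h00 : X 0 0 = 0 := by simpa using congrFun (congrFun hX 0) 0
  have h0 : (X * M 0 - M 0 * X) (iN 0) (jN 0) = 0 := by
    simpa using congrFun (congrFun hX 0) 1
  have h1 : (X * M 1 - M 1 * X) (iN 1) (jN 1) = 0 := by
    simpa using congrFun (congrFun hX 1) 0
  have h2 : (X * M 2 - M 2 * X) (iN 2) (jN 2) = 0 := by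
    simpa using congrFun (congrFun hX 1) 1
  obtain ⟨c, hc⟩ := hker X (by
    intro t
    fin_cases t
    · exact h0
    · exact h1
    · exact h2)
  have hc0 : c = 0 := by
    have := congrFun (congrFun hc 0) 0
    simpa [h00] using this.symm
  rw [hc, hc0, zero_smul]

lemma ker_le_maximalIdeal {A k : Type} [CommRing A] [IsLocalRing A] [Field k] (π : A →+* k) :
    RingHom.ker π ≤ IsLocalRing.maximalIdeal A :=
  IsLocalRing.le_maximalIdeal (RingHom.ker_ne_top π)

lemma mem_smul_top_of_entries {A : Type} [CommRing A] (I : Ideal A)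
    (D : Matrix (Fin 2) (Fin 2) A) (hD : ∀ i j, D i j ∈ I) :
    D ∈ (I • ⊤ : Submodule A (Matrix (Fin 2) (Fin 2) A)) := by
  rw [Matrix.matrix_eq_sum_single D]
  refine Submodule.sum_mem _ fun i _ => Submodule.sum_mem _ fun j _ => ?_
  have : Matrix.single i j (D i j) = D i j • Matrix.single i j (1 : A) := by
    rw [Matrix.smul_single, smul_eq_mul, mul_one]
  rw [this]
  exact Submodule.smul_mem_smul (hD i j) Submodule.mem_top

lemma exists_map_eq {A k : Type} [CommRing A] [CommRing k] (π : A →+* k)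
    (hπ : Function.Surjective π) (X : Matrix (Fin 2) (Fin 2) k) :
    ∃ W : Matrix (Fin 2) (Fin 2) A, W.map π = X := by
  choose f hf using hπ
  exact ⟨X.map f, by ext i j; simp [hf]⟩

/-- Injectivity of the coordinate endomorphism over a local ring. -/
theorem coordEnd_injective {k : Type} [Field k] (M : Fin 3 → Matrix (Fin 2) (Fin 2) k)
    (iN jN : Fin 3 → Fin 2)
    (hker : ∀ X : Matrix (Fin 2) (Fin 2) k,
      (∀ t, (X * M t - M t * X) (iN t) (jN t) = 0) →
        ∃ c : k, X = c • (1 : Matrix (Fin 2) (Fin 2) k))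
    {A : Type} [CommRing A] [IsLocalRing A] (π : A →+* k) (hπ : Function.Surjective π)
    (R R' : Fin 3 → Matrix (Fin 2) (Fin 2) A) (hR : ∀ t, (R t).map π = M t)
    (hR' : ∀ t, (R' t).map π = M t) :
    Function.Injective (coordEnd R R' iN jN) := by
  have hsurjk : Function.Surjective (coordEnd M M iN jN) :=
    LinearMap.injective_iff_surjective.mp (coordEnd_injective_of_hker M iN jN hker)
  have hcompat : ∀ Z : Matrix (Fin 2) (Fin 2) A,
      (coordEnd R R' iN jN Z).map π = coordEnd M M iN jN (Z.map π) := by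
    intro Z
    rw [coordEnd_map, funext hR, funext hR']
  have hsurj : Function.Surjective (coordEnd R R' iN jN) := by
    rw [← LinearMap.range_eq_top]
    apply (IsLocalRing.map_mkQ_eq_top (R := A) (M := Matrix (Fin 2) (Fin 2) A)).mp
    rw [eq_top_iff]
    rintro x -
    obtain ⟨Z, rfl⟩ := Submodule.mkQ_surjective _ x
    obtain ⟨X, hX⟩ := hsurjk (Z.map π)
    obtain ⟨W, hW⟩ := exists_map_eq π hπ X
    refine ⟨coordEnd R R' iN jN W, LinearMap.mem_range_self _ _, ?_⟩
    rw [← sub_eq_zero, ← map_sub, Submodule.mkQ_apply, Submodule.Quotient.mk_eq_zero]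
    apply mem_smul_top_of_entries
    intro i j
    apply ker_le_maximalIdeal π
    rw [RingHom.mem_ker, Matrix.sub_apply, map_sub, sub_eq_zero]
    have h1 := congrFun (congrFun (hcompat W) i) j
    rw [hW, hX] at h1
    simpa [Matrix.map_apply] using h1
  exact OrzechProperty.injective_of_surjective_endomorphism _ hsurj

/-- **WP6.** -/
theorem wp6 {k : Type} [Field k] (M : Fin 3 → Matrix (Fin 2) (Fin 2) k)
    (iN jN : Fin 3 → Fin 2)
    (hker : ∀ X : Matrix (Fin 2) (Fin 2) k,
      (∀ t, (X * M t - M t * X) (iN t) (jN t) = 0) →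
        ∃ c : k, X = c • (1 : Matrix (Fin 2) (Fin 2) k))
    {A : Type} [CommRing A] [IsLocalRing A] (π : A →+* k) (hπ : Function.Surjective π)
    (R R' : Fin 3 → Matrix (Fin 2) (Fin 2) A) (hR : ∀ t, (R t).map π = M t)
    (hR' : ∀ t, (R' t).map π = M t)
    (hcoord : ∀ t, R t (iN t) (jN t) = R' t (iN t) (jN t))
    (Y : Matrix (Fin 2) (Fin 2) A) (hY : ∀ t, Y * R t = R' t * Y) :
    Y = Y 0 0 • (1 : Matrix (Fin 2) (Fin 2) A) := by
  apply coordEnd_injective M iN jN hker π hπ R R' hR hR'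
  rw [coordEnd_apply, coordEnd_apply]
  have h1 : ∀ t, (Y * R t - R' t * Y) (iN t) (jN t) = 0 := by
    intro t
    rw [hY t, sub_self]
    rfl
  have h2 : ∀ t, ((Y 0 0 • (1 : Matrix (Fin 2) (Fin 2) A)) * R t
      - R' t * (Y 0 0 • (1 : Matrix (Fin 2) (Fin 2) A))) (iN t) (jN t) = 0 := by
    intro t
    rw [Matrix.smul_mul, Matrix.mul_smul, Matrix.one_mul, Matrix.mul_one, Matrix.sub_apply,
      Matrix.smul_apply, Matrix.smul_apply, hcoord t, sub_self]
  rw [h1 0, h1 1, h1 2, h2 0, h2 1, h2 2]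
  simp

end Fermat.Agent.S53.helper68
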