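import Mathlib
import Fermat.Prelude.Def_GaloisRep_DeformationRingData
import Fermat.Prelude.Def_GaloisRep_DeformationCondition
import Fermat.Agent.S53.helper40_Univ
import Fermat.Agent.S53.helper68_WP6
import Fermat.Agent.S53.helper56_LiftDefs

/-!
# S53, task A2 (helper40), part 2: the universal property and `DeformationRingData`

From a pro-representing object `P : ProRep F` of a lift functor `F` on `Gal × Fin 2 × Fin 2`
whose points are the normalised matrix lifts of type `𝒟` of `ρbar` we build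
`GaloisRep.DeformationRingData 𝒪 ρbar 𝒟`.
-/

set_option autoImplicit false
set_option linter.unusedSectionVars false
set_option linter.unusedVariables false
set_option linter.style.haveILetI false

namespace Fermat.Agent.S53.helper40

open IsLocalRing GaloisRep Fermat.Agent.S53.helper56

section piMap

variable {𝒪 : Type} [CommRing 𝒪] [IsLocalRing 𝒪]
  {A : Type} [CommRing A] [IsLocalRing A] [Algebra 𝒪 A] [IsLocalHom (algebraMap 𝒪 A)]

theorem residueFieldMap_bijective (hres : Function.Surjective (residue A ∘ algebraMap 𝒪 A)) :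
    Function.Bijective (ResidueField.map (algebraMap 𝒪 A)) := by
  refine ⟨(ResidueField.map (algebraMap 𝒪 A)).injective, fun y => ?_⟩
  obtain ⟨o, ho⟩ := hres y
  exact ⟨residue 𝒪 o, by rw [ResidueField.map_residue]; exact ho⟩

/-- The reduction map `A → 𝒪 / 𝔪_𝒪` of a local `𝒪`-algebra with the same residue field. -/
noncomputable def piMap (hres : Function.Surjective (residue A ∘ algebraMap 𝒪 A)) :
    A →+* ResidueField 𝒪 :=
  ((RingEquiv.ofBijective (ResidueField.map (algebraMap 𝒪 A))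
    (residueFieldMap_bijective hres)).symm : ResidueField A →+* ResidueField 𝒪).comp (residue A)

theorem map_piMap (hres : Function.Surjective (residue A ∘ algebraMap 𝒪 A)) (a : A) :
    ResidueField.map (algebraMap 𝒪 A) (piMap hres a) = residue A a :=
  (RingEquiv.ofBijective (ResidueField.map (algebraMap 𝒪 A))
    (residueFieldMap_bijective hres)).apply_symm_apply (residue A a)

theorem piMap_algebraMap (hres : Function.Surjective (residue A ∘ algebraMap 𝒪 A)) (o : 𝒪) :
    piMap hres (algebraMap 𝒪 A o) = residue 𝒪 o := by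
  apply (ResidueField.map (algebraMap 𝒪 A)).injective
  rw [map_piMap, ResidueField.map_residue]

theorem piMap_surjective (hres : Function.Surjective (residue A ∘ algebraMap 𝒪 A)) :
    Function.Surjective (piMap hres) := by
  intro c
  obtain ⟨o, rfl⟩ := residue_surjective c
  exact ⟨algebraMap 𝒪 A o, piMap_algebraMap hres o⟩

theorem piMap_eq_zero_iff (hres : Function.Surjective (residue A ∘ algebraMap 𝒪 A)) (a : A) :
    piMap hres a = 0 ↔ a ∈ maximalIdeal A := by
  rw [← residue_eq_zero_iff, ← map_piMap hres a]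
  exact (map_eq_zero_iff _ (ResidueField.map (algebraMap 𝒪 A)).injective).symm

end piMap

section universal

variable {𝒪 : Type} [CommRing 𝒪] [IsLocalRing 𝒪] [Finite (ResidueField 𝒪)]
  {𝒟 : ∀ ⦃A : Type⦄ [CommRing A] [IsLocalRing A] [Algebra 𝒪 A], GaloisRepAdic A → Prop}
  {F : LiftFunctor 𝒪 (Gal × Fin 2 × Fin 2)}
  {gN : Fin 3 → Gal} {iN jN : Fin 3 → Fin 2}
  (ρbar : ResidualGaloisRep (ResidueField 𝒪))
  (bbar : Module.Basis (Fin 2) (ResidueField 𝒪) ρbar.V)
  {A : Type} [CommRing A] [IsLocalRing A] [IsNoetherianRing A]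
  [IsAdicComplete (maximalIdeal A) A] [Algebra 𝒪 A] [IsLocalHom (algebraMap 𝒪 A)]

/-- Every lift of `ρbar` to a complete Noetherian local `𝒪`-algebra has a basis in which its
matrix form is a normalised lift. -/
theorem exists_normalised_basis
    (hker : ∀ X : M2 (ResidueField 𝒪),
      (∀ t, (X * rMat ρbar bbar (gN t) - rMat ρbar bbar (gN t) * X) (iN t) (jN t) = 0) →
        ∃ c : ResidueField 𝒪, X = c • (1 : M2 (ResidueField 𝒪)))
    (hbase : ∀ g i j, residue 𝒪 (F.base (g, i, j)) = rMat ρbar bbar g i j)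
    (hres : Function.Surjective (residue A ∘ algebraMap 𝒪 A))
    (ρA : GaloisRepAdic A)
    (hρA : ρA.residual.IsEquiv (ρbar.baseChangeAlong (ResidueField.map (algebraMap 𝒪 A)))) :
    ∃ b : Module.Basis (Fin 2) A ρA.V,
      (∀ σ, (toMatrixHom ρA b σ).map (piMap hres) = rMat ρbar bbar σ) ∧
      ∀ t, toMatrixHom ρA b (gN t) (iN t) (jN t) =
        algebraMap 𝒪 A (F.base (gN t, iN t, jN t)) := by
  obtain ⟨b₀, hb₀⟩ := (residual_isEquiv_iff ρA ρbar _ bbar).mp hρA
  have h0 : ∀ σ, (toMatrixHom ρA b₀ σ).map (piMap hres) = rMat ρbar bbar σ := by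
    intro σ
    ext i j
    apply (ResidueField.map (algebraMap 𝒪 A)).injective
    rw [Matrix.map_apply, map_piMap]
    have := congrFun (congrFun (hb₀ σ) i) j
    simpa [Matrix.map_apply] using this
  obtain ⟨W, W', hW, hW0, hWW', hW'W, hc⟩ :=
    helper59.exists_normalising_conjugator_complete (fun t => rMat ρbar bbar (gN t)) iN jN hker
      (piMap hres) (piMap_surjective hres) (fun t => toMatrixHom ρA b₀ (gN t))
      (fun t => h0 (gN t)) (fun t => algebraMap 𝒪 A (F.base (gN t, iN t, jN t)))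
      (fun t => by rw [piMap_algebraMap, hbase])
  obtain ⟨b, hb⟩ := exists_basis_conj ρA b₀ W W' hWW' hW'W
  refine ⟨b, fun σ => ?_, fun t => ?_⟩
  · rw [hb σ, Matrix.map_mul, Matrix.map_mul, hW,
      helper59.map_eq_one_of_mul_eq_one _ W W' hW hWW', one_mul, mul_one, h0]
  · rw [hb (gN t)]
    exact hc t

/-- The universal property of the universal deformation. -/
theorem universal_univRep (h𝒟 : IsDeformationCondition 𝒪 𝒟)
    (hker : ∀ X : M2 (ResidueField 𝒪),
      (∀ t, (X * rMat ρbar bbar (gN t) - rMat ρbar bbar (gN t) * X) (iN t) (jN t) = 0) →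
        ∃ c : ResidueField 𝒪, X = c • (1 : M2 (ResidueField 𝒪)))
    (hbase : ∀ g i j, residue 𝒪 (F.base (g, i, j)) = rMat ρbar bbar g i j)
    (hN : NSpec 𝒟 F gN iN jN) (P : ProRep F)
    (hres : Function.Surjective (residue A ∘ algebraMap 𝒪 A))
    (ρA : GaloisRepAdic A) (hDA : 𝒟 ρA)
    (hρA : ρA.residual.IsEquiv (ρbar.baseChangeAlong (ResidueField.map (algebraMap 𝒪 A)))) :
    ∃! φ : P.R →ₐ[𝒪] A, ∃ hφ : IsLocalHom (φ : P.R →+* A),
      ((univRep hN P).baseChangeAlong (φ : P.R →+* A) hφ).IsEquiv ρA := by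
  obtain ⟨b, hb, hbn⟩ := exists_normalised_basis (F := F) ρbar bbar hker hbase hres ρA hρA
  have hloc : ∀ ψ : P.R →ₐ[𝒪] A, IsLocalHom (ψ : P.R →+* A) := fun ψ =>
    Fermat.Agent.S53.isLocalHom_of_algHom inferInstance hres ψ
  have hbe : ∀ g i j, piMap hres (toMatrixHom ρA b g i j) = rMat ρbar bbar g i j := by
    intro g i j
    have := congrFun (congrFun (hb g) i) j
    simpa [Matrix.map_apply] using this
  have hylift : ∀ ω : Gal × Fin 2 × Fin 2,
      toMatrixHom ρA b ω.1 ω.2.1 ω.2.2 - algebraMap 𝒪 A (F.base ω) ∈ maximalIdeal A := by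
    rintro ⟨g, i, j⟩
    rw [← piMap_eq_zero_iff hres, map_sub, piMap_algebraMap, hbase, sub_eq_zero]
    exact hbe g i j
  have hyN : ∀ (B : Type) [CommRing B] [IsLocalRing B] [Algebra 𝒪 B],
      IsArtinianTestAlgebra 𝒪 B → ∀ q : A →ₐ[𝒪] B, Function.Surjective q →
        F.N B (fun ω => q (toMatrixHom ρA b ω.1 ω.2.1 ω.2.2)) := by
    intro B _ _ _ hB q hq
    have hqloc : IsLocalHom (q : A →+* B) :=
      Fermat.Agent.S53.isLocalHom_of_algHom hB.isLocalHom hB.residue_surjective q
    refine (hN B hB _).mpr ⟨mapHom (q : A →+* B) (toMatrixHom ρA b),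
      matCont_mapHom _ hqloc _ (matCont_toMatrixHom ρA b), fun g i j => rfl, fun ω => ?_,
      fun t => ?_, ?_⟩
    · have := Fermat.Agent.S53.map_mem_maximalIdeal hB.isLocalHom hB.residue_surjective q
        (hylift ω)
      rwa [map_sub, AlgHom.commutes] at this
    · show q (toMatrixHom ρA b (gN t) (iN t) (jN t)) = _
      rw [hbn t, AlgHom.commutes]
    · have h1 := (h𝒟.iff_forall_surjective (A := A) inferInstance hres ρA).mp hDA hB q hqloc hq
      refine h𝒟.of_isEquiv hB ?_ h1
      rw [isEquiv_iff_conj _ _ (bcBasis (q : A →+* B) hqloc ρA b) (stdBasis _ _)]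
      refine ⟨1, 1, one_mul 1, one_mul 1, fun σ => ?_⟩
      rw [toMatrixHom_baseChangeAlong, toMatrixHom_ofMatrix, one_mul, mul_one, mapHom_apply]
  obtain ⟨φ, hφ, hφuniq⟩ := helper59.existsUnique_algHom_complete P hres _ hyN
  refine ⟨φ, ⟨hloc φ, ?_⟩, ?_⟩
  · refine isEquiv_trans (isEquiv_baseChangeAlong_ofMatrix (φ : P.R →+* A) (hloc φ)
      (univHom hN P) (matCont_univHom hN P)) ?_
    exact isEquiv_ofMatrix_of_entries ρA b _ _ (fun σ i j => hφ (σ, i, j))
  · rintro ψ ⟨hψ, hψe⟩
    apply hφuniq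
    have h1 : (ofMatrix (mapHom (ψ : P.R →+* A) (univHom hN P))
        (matCont_mapHom _ hψ _ (matCont_univHom hN P))).IsEquiv ρA :=
      isEquiv_trans (isEquiv_symm (isEquiv_baseChangeAlong_ofMatrix (ψ : P.R →+* A) hψ
        (univHom hN P) (matCont_univHom hN P))) hψe
    rw [isEquiv_iff_conj _ _ (stdBasis _ _) b] at h1
    obtain ⟨V, V', hVV', hV'V, hconj⟩ := h1
    rw [toMatrixHom_ofMatrix] at hconj
    have hT : ∀ σ, (mapHom (ψ : P.R →+* A) (univHom hN P) σ).map (piMap hres) =
        rMat ρbar bbar σ := by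
      intro σ
      ext i j
      rw [Matrix.map_apply, mapHom_apply, Matrix.map_apply, univHom_apply, ← hbase,
        ← piMap_algebraMap hres, ← sub_eq_zero, ← map_sub, piMap_eq_zero_iff]
      have := Fermat.Agent.S53.map_mem_maximalIdeal (inferInstance : IsLocalHom (algebraMap 𝒪 A))
        hres ψ (P.x_lift (σ, i, j))
      rwa [map_sub, AlgHom.commutes] at this
    have hVs := helper68.wp6 (fun t => rMat ρbar bbar (gN t)) iN jN hker (piMap hres)
      (piMap_surjective hres)
      (fun t => mapHom (ψ : P.R →+* A) (univHom hN P) (gN t))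
      (fun t => toMatrixHom ρA b (gN t))
      (fun t => hT (gN t)) (fun t => hb (gN t))
      (fun t => by
        rw [mapHom_apply, Matrix.map_apply, univHom_apply, univ_normalised hN P t, hbn t]
        exact AlgHom.commutes ψ _)
      V (fun t => hconj (gN t))
    have hunit : IsUnit (V 0 0) := by
      have h00 : (V * V') 0 0 = 1 := by rw [hVV']; rfl
      rw [hVs, Matrix.smul_mul, Matrix.one_mul, Matrix.smul_apply, smul_eq_mul] at h00
      exact IsUnit.of_mul_eq_one _ h00
    rintro ⟨σ, i, j⟩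
    have h2 := hconj σ
    rw [hVs, Matrix.smul_mul, Matrix.one_mul, Matrix.mul_smul, Matrix.mul_one] at h2
    have h3 := congrFun (congrFun h2 i) j
    rw [Matrix.smul_apply, Matrix.smul_apply, smul_eq_mul, smul_eq_mul] at h3
    exact hunit.mul_left_cancel h3

end universal

section main

variable {𝒪 : Type} [CommRing 𝒪] [IsDomain 𝒪] [IsDiscreteValuationRing 𝒪]
  [IsAdicComplete (maximalIdeal 𝒪) 𝒪] [Finite (ResidueField 𝒪)]

/-- **Task A2.** A pro-representing object of the functor of normalised matrix lifts of type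
`𝒟` gives a universal deformation ring. -/
theorem nonempty_deformationRingData_of_proRep
    (ρbar : ResidualGaloisRep (ResidueField 𝒪))
    (𝒟 : ∀ ⦃A : Type⦄ [CommRing A] [IsLocalRing A] [Algebra 𝒪 A], GaloisRepAdic A → Prop)
    (habs : ρbar.IsAbsolutelyIrreducible) (h𝒟 : IsDeformationCondition 𝒪 𝒟)
    (F : LiftFunctor 𝒪 (Gal × Fin 2 × Fin 2))
    (bbar : Module.Basis (Fin 2) (ResidueField 𝒪) ρbar.V)
    (gN : Fin 3 → Gal) (iN jN : Fin 3 → Fin 2)
    (hker : ∀ X : M2 (ResidueField 𝒪),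
      (∀ t, (X * rMat ρbar bbar (gN t) - rMat ρbar bbar (gN t) * X) (iN t) (jN t) = 0) →
        ∃ c : ResidueField 𝒪, X = c • (1 : M2 (ResidueField 𝒪)))
    (hbase : ∀ g i j, residue 𝒪 (F.base (g, i, j)) = rMat ρbar bbar g i j)
    (hN : ∀ (A : Type) [CommRing A] [IsLocalRing A] [Algebra 𝒪 A], IsArtinianTestAlgebra 𝒪 A →
      ∀ x : Gal × Fin 2 × Fin 2 → A,
        F.N A x ↔ ∃ (R : Gal →* M2 A) (hR : MatCont R), (∀ g i j, R g i j = x (g, i, j)) ∧
          (∀ ω, x ω - algebraMap 𝒪 A (F.base ω) ∈ maximalIdeal A) ∧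
          (∀ t, x (gN t, iN t, jN t) = algebraMap 𝒪 A (F.base (gN t, iN t, jN t))) ∧
          𝒟 (ofMatrix R hR))
    (P : ProRep F) : Nonempty (GaloisRep.DeformationRingData 𝒪 ρbar 𝒟) :=
  have hN' : NSpec 𝒟 F gN iN jN := hN
  ⟨{ R := P.R
     residue_surjective := P.residue_surjective
     absIrr := habs
     ρ := univRep hN' P
     isOfType := isOfType_univRep h𝒟 hN' P
     residual_isEquiv := residual_isEquiv_univRep ρbar bbar hbase hN' P
     universal := fun A _ _ _ _ _ _ hres ρA hDA hρA =>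
       universal_univRep ρbar bbar h𝒟 hker hbase hN' P hres ρA hDA hρA }⟩

/-- **Task A2**, in terms of helper56's `NormData` / `IsNormLift`. -/
theorem nonempty_deformationRingData_of_normData
    (ρbar : ResidualGaloisRep (ResidueField 𝒪))
    (𝒟 : ∀ ⦃A : Type⦄ [CommRing A] [IsLocalRing A] [Algebra 𝒪 A], GaloisRepAdic A → Prop)
    (habs : ρbar.IsAbsolutelyIrreducible) (h𝒟 : IsDeformationCondition 𝒪 𝒟)
    (D : NormData 𝒪 ρbar) (F : LiftFunctor 𝒪 Ω) (hFbase : F.base = D.base)
    (hFN : ∀ (A : Type) [CommRing A] [IsLocalRing A] [Algebra 𝒪 A], IsArtinianTestAlgebra 𝒪 A →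
      ∀ x : Ω → A, F.N A x ↔ IsNormLift D 𝒟 A x)
    (P : ProRep F) : Nonempty (GaloisRep.DeformationRingData 𝒪 ρbar 𝒟) := by
  refine nonempty_deformationRingData_of_proRep ρbar 𝒟 habs h𝒟 F D.bbar D.gN D.iN D.jN D.hker
    (fun g i j => by rw [hFbase]; exact D.hbase g i j) (fun A _ _ _ hA x => ?_) P
  rw [hFN A hA x, hFbase]
  unfold IsNormLift
  constructor
  · rintro ⟨R, hR, h1, h2⟩
    exact ⟨R, hR, fun g i j => by rw [h1 g]; rfl, h2⟩
  · rintro ⟨R, hR, h1, h2⟩
    exact ⟨R, hR, fun g => by ext i j; exact h1 g i j, h2⟩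

end main

end Fermat.Agent.S53.helper40
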