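import Fermat.Agent.S53.helper65_WP6

/-!
# S53: conjugate normalised lifts are equal
-/

set_option autoImplicit false
set_option linter.unusedSectionVars false
set_option linter.style.haveILetI false

namespace Fermat.Agent.S53

/-- If `V` intertwines two families of matrices `T`, `S` over a local ring `A` which both lift
the residual matrices at the three normalising elements and agree in the three normalising
coordinates, then `V` is the scalar matrix `V 0 0`. If moreover `V` is invertible, then
`T = S`. -/
theorem eq_of_conj_of_normalised {k : Type} [Field k] (M : Fin 3 → Matrix (Fin 2) (Fin 2) k)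
    (iN jN : Fin 3 → Fin 2)
    (hker : ∀ X : Matrix (Fin 2) (Fin 2) k,
      (∀ t, (X * M t - M t * X) (iN t) (jN t) = 0) →
        ∃ c : k, X = c • (1 : Matrix (Fin 2) (Fin 2) k))
    {G : Type} (gN : Fin 3 → G)
    {A : Type} [CommRing A] [IsLocalRing A] (π : A →+* k) (hπ : Function.Surjective π)
    (T S : G → Matrix (Fin 2) (Fin 2) A)
    (hT : ∀ t, (T (gN t)).map π = M t) (hS : ∀ t, (S (gN t)).map π = M t)
    (hcoord : ∀ t, T (gN t) (iN t) (jN t) = S (gN t) (iN t) (jN t))
    (V V' : Matrix (Fin 2) (Fin 2) A) (h1 : V * V' = 1)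
    (hV : ∀ g, V * T g = S g * V) : T = S := by
  have hsc : V = V 0 0 • (1 : Matrix (Fin 2) (Fin 2) A) :=
    helper65.rigidity M iN jN hker π hπ (fun t => T (gN t)) (fun t => S (gN t)) hT hS hcoord V
      (fun t => hV (gN t))
  have hunit : V 0 0 * V' 0 0 = 1 := by
    have h2 := congrFun (congrFun h1 0) 0
    rw [hsc, Matrix.smul_mul, one_mul, Matrix.smul_apply, Matrix.one_apply_eq, smul_eq_mul] at h2
    rw [hsc, Matrix.smul_apply, Matrix.one_apply_eq, smul_eq_mul, mul_one]
    exact h2
  funext g
  have h3 := hV g
  rw [hsc, Matrix.smul_mul, one_mul, Matrix.mul_smul, mul_one] at h3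
  have h4 := congrArg (fun X => V' 0 0 • X) h3
  simp only [smul_smul] at h4
  rw [mul_comm, hunit, one_smul, one_smul] at h4
  exact h4

end Fermat.Agent.S53
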