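import Fermat.Agent.S53.helper56_LiftDefs
import Fermat.Agent.S53.ConjEq
import Fermat.Prelude.Def_GaloisRep_DeformationCondition

/-!
# S53: tangent finiteness for the functor of normalised lifts
-/

set_option autoImplicit false
set_option linter.unusedSectionVars false
set_option linter.style.haveILetI false

namespace Fermat.Agent.S53

open IsLocalRing GaloisRep helper56

section

variable {𝒪 : Type} [CommRing 𝒪] [IsLocalRing 𝒪]
  {ρbar : ResidualGaloisRep (ResidueField 𝒪)}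
  (𝒟 : ∀ ⦃A : Type⦄ [CommRing A] [IsLocalRing A] [Algebra 𝒪 A], GaloisRepAdic A → Prop)

/-- The ring hom `k → ResidueField k[ε]` used in `TangentFinite`. -/
noncomputable def tanψ (𝒪 : Type) [CommRing 𝒪] [IsLocalRing 𝒪] :
    ResidueField 𝒪 →+* ResidueField (DualNumber (ResidueField 𝒪)) :=
  (IsLocalRing.residue (DualNumber (ResidueField 𝒪))).comp
    (algebraMap (ResidueField 𝒪) (DualNumber (ResidueField 𝒪)))

variable (ρbar) in
/-- The type of tangent vectors of `TangentFinite`. -/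
def TanType : Type 1 :=
  letI : Algebra 𝒪 (DualNumber (ResidueField 𝒪)) := dualAlg 𝒪
  {ρ : GaloisRepAdic (DualNumber (ResidueField 𝒪)) //
      𝒟 ρ ∧ ρ.residual.IsEquiv (ρbar.baseChangeAlong (tanψ 𝒪))}

variable (ρbar) in
/-- The setoid of `TangentFinite`. -/
def tanSetoid : Setoid (TanType ρbar 𝒟) :=
  ⟨fun ρ ρ' => ρ.1.IsEquiv ρ'.1, ⟨fun ρ => ⟨GaloisRepAdic.Equiv.refl ρ.1⟩,
        fun ⟨e⟩ => ⟨e.symm⟩, fun ⟨e⟩ ⟨e'⟩ => ⟨e.trans e'⟩⟩⟩

theorem tangentFinite_iff :
    TangentFinite 𝒪 ρbar 𝒟 ↔ Finite (Quotient (tanSetoid ρbar 𝒟)) := Iff.rfl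


theorem dual_mem_maximalIdeal_iff (y : DualNumber (ResidueField 𝒪)) :
    y ∈ maximalIdeal (DualNumber (ResidueField 𝒪)) ↔ TrivSqZeroExt.fst y = 0 := by
  rw [mem_maximalIdeal, mem_nonunits_iff, TrivSqZeroExt.isUnit_iff_isUnit_fst, isUnit_iff_ne_zero,
    not_not]

theorem dual_fst_algebraMap (o : 𝒪) :
    letI := dualAlg 𝒪
    TrivSqZeroExt.fst (algebraMap 𝒪 (DualNumber (ResidueField 𝒪)) o) = residue 𝒪 o := rfl

variable {𝒟}

/-- The matrix form of a normalised lift to the dual numbers reduces to the residual matrices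
under the first projection. -/
theorem isNormLift_dual_fst (D : NormData 𝒪 ρbar) (x : Ω → DualNumber (ResidueField 𝒪))
    (hlift : letI := dualAlg 𝒪
      ∀ ω, x ω - algebraMap 𝒪 (DualNumber (ResidueField 𝒪)) (D.base ω) ∈
        maximalIdeal (DualNumber (ResidueField 𝒪)))
    (g : Gal) (i j : Fin 2) :
    TrivSqZeroExt.fst (x (g, i, j)) = rMat ρbar D.bbar g i j := by
  letI := dualAlg 𝒪
  have h := (dual_mem_maximalIdeal_iff _).mp (hlift (g, i, j))
  rw [TrivSqZeroExt.fst_sub, dual_fst_algebraMap, sub_eq_zero] at h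
  rw [h, D.hbase]

theorem isNormLift_dual_residual (D : NormData 𝒪 ρbar) (x : Ω → DualNumber (ResidueField 𝒪))
    (R : Gal →* M2 (DualNumber (ResidueField 𝒪))) (hR : MatCont R)
    (hRx : ∀ g, R g = matOf x g)
    (hlift : letI := dualAlg 𝒪
      ∀ ω, x ω - algebraMap 𝒪 (DualNumber (ResidueField 𝒪)) (D.base ω) ∈
        maximalIdeal (DualNumber (ResidueField 𝒪))) :
    (ofMatrix R hR).residual.IsEquiv (ρbar.baseChangeAlong (tanψ 𝒪)) := by
  letI := dualAlg 𝒪
  rw [residual_isEquiv_iff _ ρbar (tanψ 𝒪) D.bbar]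
  refine ⟨stdBasis R hR, fun σ => ?_⟩
  rw [toMatrixHom_ofMatrix, hRx]
  ext i j
  rw [Matrix.map_apply, Matrix.map_apply, matOf_apply]
  have h := hlift (σ, i, j)
  rw [← residue_eq_zero_iff, map_sub, sub_eq_zero] at h
  rw [h, ← D.hbase]
  rfl

/-- **Tangent finiteness** for normalised lifts. -/
theorem finite_isNormLift_dualNumber (D : NormData 𝒪 ρbar)
    (hfin : TangentFinite 𝒪 ρbar 𝒟) :
    letI := dualAlg 𝒪
    Finite {x : Ω → DualNumber (ResidueField 𝒪) //
      IsNormLift D 𝒟 (DualNumber (ResidueField 𝒪)) x} := by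
  classical
  letI := dualAlg 𝒪
  haveI : Finite (Quotient (tanSetoid ρbar 𝒟)) := (tangentFinite_iff 𝒟).mp hfin
  let T := {x : Ω → DualNumber (ResidueField 𝒪) //
      IsNormLift D 𝒟 (DualNumber (ResidueField 𝒪)) x}
  let Rx : T → (Gal →* M2 (DualNumber (ResidueField 𝒪))) := fun x => x.2.choose
  have hRx : ∀ x : T, ∃ hR : MatCont (Rx x), (∀ g, Rx x g = matOf x.1 g) ∧
      (∀ ω, x.1 ω - algebraMap 𝒪 (DualNumber (ResidueField 𝒪)) (D.base ω) ∈
        maximalIdeal (DualNumber (ResidueField 𝒪))) ∧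
      (∀ t, x.1 (D.gN t, D.iN t, D.jN t) =
        algebraMap 𝒪 (DualNumber (ResidueField 𝒪)) (D.base (D.gN t, D.iN t, D.jN t))) ∧
      𝒟 (ofMatrix (Rx x) hR) := fun x => x.2.choose_spec
  let f : T → Quotient (tanSetoid ρbar 𝒟) := fun x =>
    Quotient.mk _ ⟨ofMatrix (Rx x) (hRx x).choose,
      ⟨(hRx x).choose_spec.2.2.2,
        isNormLift_dual_residual D x.1 (Rx x) (hRx x).choose (hRx x).choose_spec.1
          (hRx x).choose_spec.2.1⟩⟩
  refine Finite.of_injective f ?_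
  intro x x' hxx'
  have h1 : (ofMatrix (Rx x) (hRx x).choose).IsEquiv (ofMatrix (Rx x') (hRx x').choose) :=
    Quotient.exact hxx'
  rw [isEquiv_ofMatrix_iff] at h1
  obtain ⟨W, W', hWW', -, hconj⟩ := h1
  have hfst : ∀ (y : T) (t : Fin 3),
      ((fun g => Rx y g) (D.gN t)).map (TrivSqZeroExt.fstHom (ResidueField 𝒪) (ResidueField 𝒪)
        (ResidueField 𝒪) : DualNumber (ResidueField 𝒪) →+* ResidueField 𝒪) =
        rMat ρbar D.bbar (D.gN t) := by
    intro y t
    ext i j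
    rw [Matrix.map_apply]
    show TrivSqZeroExt.fst (Rx y (D.gN t) i j) = _
    rw [(hRx y).choose_spec.1, matOf_apply]
    exact isNormLift_dual_fst D y.1 (hRx y).choose_spec.2.1 _ _ _
  have hπ : Function.Surjective (TrivSqZeroExt.fstHom (ResidueField 𝒪) (ResidueField 𝒪)
        (ResidueField 𝒪) : DualNumber (ResidueField 𝒪) →+* ResidueField 𝒪) :=
    fun c => ⟨TrivSqZeroExt.inl c, rfl⟩
  have hTS := eq_of_conj_of_normalised (fun t => rMat ρbar D.bbar (D.gN t)) D.iN D.jN D.hker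
    D.gN _ hπ (fun g => Rx x g) (fun g => Rx x' g) (hfst x) (hfst x') (fun t => by
      show Rx x (D.gN t) (D.iN t) (D.jN t) = Rx x' (D.gN t) (D.iN t) (D.jN t)
      rw [(hRx x).choose_spec.1, (hRx x').choose_spec.1, matOf_apply, matOf_apply,
        (hRx x).choose_spec.2.2.1, (hRx x').choose_spec.2.2.1]) W W' hWW' hconj
  apply Subtype.ext
  funext ω
  obtain ⟨g, i, j⟩ := ω
  have h2 := congrFun (congrFun (congrFun hTS g) i) j
  simp only [(hRx x).choose_spec.1, (hRx x').choose_spec.1, matOf_apply] at h2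
  exact h2

end

end Fermat.Agent.S53
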