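import Mathlib

set_option autoImplicit false

namespace Fermat.Agent.S53.helper55

open Module

/-- The linear functional `X ↦ (X * A - A * X) i j` on `2 × 2` matrices. -/
noncomputable def commFunctional {k : Type} [Field k] (A : Matrix (Fin 2) (Fin 2) k)
    (i j : Fin 2) : Matrix (Fin 2) (Fin 2) k →ₗ[k] k where
  toFun X := (X * A - A * X) i j
  map_add' X Y := by
    simp only [add_mul, mul_add, Matrix.sub_apply, Matrix.add_apply]
    ring
  map_smul' c X := by
    simp only [Matrix.smul_mul, Matrix.mul_smul, Matrix.sub_apply, Matrix.smul_apply,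
      smul_eq_mul, RingHom.id_apply]
    ring

@[simp]
lemma commFunctional_apply {k : Type} [Field k] (A : Matrix (Fin 2) (Fin 2) k)
    (i j : Fin 2) (X : Matrix (Fin 2) (Fin 2) k) :
    commFunctional A i j X = (X * A - A * X) i j := rfl

/-- WP5: three coordinate functionals of commutators cut the commutant down to scalars. -/
theorem exists_three_functionals {k : Type} [Field k] {G : Type}
    (M : G → Matrix (Fin 2) (Fin 2) k)
    (hSchur : ∀ X : Matrix (Fin 2) (Fin 2) k, (∀ g, X * M g = M g * X) →
      ∃ c : k, X = c • (1 : Matrix (Fin 2) (Fin 2) k)) :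
    ∃ (gN : Fin 3 → G) (iN jN : Fin 3 → Fin 2),
      ∀ X : Matrix (Fin 2) (Fin 2) k,
        (∀ t, (X * M (gN t) - M (gN t) * X) (iN t) (jN t) = 0) →
          ∃ c : k, X = c • (1 : Matrix (Fin 2) (Fin 2) k) := by
  classical
  -- the set of all functionals
  set s : Set (Dual k (Matrix (Fin 2) (Fin 2) k)) :=
    Set.range (fun p : G × Fin 2 × Fin 2 => commFunctional (M p.1) p.2.1 p.2.2) with hs
  obtain ⟨b, hbs, hspan, hli⟩ := exists_linearIndependent k s
  -- every element of `b` kills `1`
  have hone : ∀ f ∈ Submodule.span k b, f (1 : Matrix (Fin 2) (Fin 2) k) = 0 := by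
    intro f hf
    refine Submodule.span_induction (p := fun f _ => f (1 : Matrix (Fin 2) (Fin 2) k) = 0)
      ?_ ?_ ?_ ?_ hf
    · intro f hfb
      obtain ⟨p, rfl⟩ := hbs hfb
      simp
    · simp
    · intro f g _ _ hf hg
      simp [hf, hg]
    · intro c f _ hf
      simp [hf]
  -- hence the span is a proper subspace
  have hne : Submodule.span k b ≠ ⊤ := by
    intro htop
    have h1 : (1 : Matrix (Fin 2) (Fin 2) k) = 0 := by
      apply (Module.forall_dual_apply_eq_zero_iff k _).1
      intro f
      exact hone f (htop ▸ Submodule.mem_top)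
    exact one_ne_zero h1
  have hfin : Module.finrank k (Submodule.span k b) < 4 := by
    have h4 : Module.finrank k (Dual k (Matrix (Fin 2) (Fin 2) k)) = 4 := by
      rw [Subspace.dual_finrank_eq, Module.finrank_matrix]
      simp
    have := Submodule.finrank_lt hne
    omega
  -- `b` is finite of cardinality at most 3
  have hbfin : b.Finite := hli.setFinite
  let _ : Fintype b := hbfin.fintype
  have hcard : Fintype.card b ≤ 3 := by
    have h1 : Module.finrank k (Submodule.span k b) = b.toFinset.card :=
      finrank_span_set_eq_card hli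
    rw [Set.toFinset_card] at h1
    omega
  -- if all elements of `b` kill `X`, then `X` is a scalar
  have hkey : ∀ X : Matrix (Fin 2) (Fin 2) k, (∀ f ∈ b, f X = 0) →
      ∃ c : k, X = c • (1 : Matrix (Fin 2) (Fin 2) k) := by
    intro X hX
    apply hSchur
    intro g
    have hall : ∀ f ∈ Submodule.span k s, f X = 0 := by
      rw [← hspan]
      intro f hf
      refine Submodule.span_induction (p := fun f _ => f X = 0) ?_ ?_ ?_ ?_ hf
      · exact fun f hfb => hX f hfb
      · simp
      · intro f g _ _ hf hg
        simp [hf, hg]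
      · intro c f _ hf
        simp [hf]
    have hcomm : X * M g - M g * X = 0 := by
      ext i j
      have := hall (commFunctional (M g) i j) (Submodule.subset_span ⟨(g, i, j), rfl⟩)
      simpa using this
    exact sub_eq_zero.1 hcomm
  -- `b` is nonempty
  have hbne : b.Nonempty := by
    by_contra hempty
    rw [Set.not_nonempty_iff_eq_empty] at hempty
    obtain ⟨c, hc⟩ := hkey (Matrix.single 0 1 (1 : k)) (by simp [hempty])
    have := congrFun (congrFun hc 0) 1
    simp at this
  -- enumerate `b` by `Fin 3` (with repetitions)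
  obtain ⟨f₀, hf₀⟩ := hbne
  have : Nonempty b := ⟨⟨f₀, hf₀⟩⟩
  have hsurj : ∃ e : Fin 3 → b, Function.Surjective e := by
    have : Fintype.card b ≤ Fintype.card (Fin 3) := by simpa using hcard
    exact (Function.Embedding.nonempty_of_card_le this).elim fun emb =>
      ⟨Function.invFun emb, Function.invFun_surjective emb.injective⟩
  obtain ⟨e, he⟩ := hsurj
  have hch : ∀ t : Fin 3, ∃ p : G × Fin 2 × Fin 2,
      commFunctional (M p.1) p.2.1 p.2.2 = (e t : Dual k (Matrix (Fin 2) (Fin 2) k)) :=
    fun t => hbs (e t).2
  choose p hp using hch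
  refine ⟨fun t => (p t).1, fun t => (p t).2.1, fun t => (p t).2.2, fun X hX => hkey X ?_⟩
  intro f hfb
  obtain ⟨t, ht⟩ := he ⟨f, hfb⟩
  have := hX t
  rw [← commFunctional_apply, hp t, ht] at this
  exact this

end Fermat.Agent.S53.helper55
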