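import Fermat.Agent.S53.Basic
import Fermat.Agent.S53.helper56_Matrix
import Fermat.Agent.S53.helper56_LiftDefs
import Fermat.Agent.S53.helper56_WP4
import Fermat.Agent.S53.helper55_WP5
import Fermat.Agent.S53.helper65_WP6
import Fermat.Agent.S53.Tan

/-!
# S53-A1: the `LiftFunctor` of normalised matrix lifts attached to `(ρbar, 𝒟)` (helper56)
-/

set_option autoImplicit false
set_option linter.unusedSectionVars false
set_option linter.style.haveILetI false

namespace Fermat.Agent.S53.helper56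

open IsLocalRing GaloisRep

section artinian

variable {A : Type} [CommRing A] [IsLocalRing A]

/-- In an Artinian local ring the maximal ideal is nilpotent. -/
theorem exists_maximalIdeal_pow_eq_bot' [IsArtinianRing A] :
    ∃ n : ℕ, maximalIdeal A ^ n = ⊥ := by
  have h := IsArtinianRing.isNilpotent_jacobson_bot (R := A)
  rw [IsLocalRing.jacobson_eq_maximalIdeal ⊥ bot_ne_top] at h
  exact h

/-- Over an Artinian local ring, adic continuity means factoring through a finite level. -/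
theorem matCont_iff_of_isArtinian [IsArtinianRing A] (R : Gal →* M2 A) :
    MatCont R ↔ ∃ L : IntermediateField ℚ (AlgebraicClosure ℚ), FiniteDimensional ℚ L ∧
      ∀ σ : Gal, (∀ x ∈ L, σ x = x) → R σ = 1 := by
  constructor
  · intro h
    obtain ⟨n, hn⟩ := exists_maximalIdeal_pow_eq_bot' (A := A)
    obtain ⟨L, hL, hσ⟩ := h n
    refine ⟨L, hL, fun σ hfix => ?_⟩
    ext i j
    have := hσ σ hfix i j
    rw [hn, Ideal.mem_bot, Matrix.sub_apply, sub_eq_zero] at this
    exact this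
  · rintro ⟨L, hL, hσ⟩ n
    refine ⟨L, hL, fun σ hfix i j => ?_⟩
    rw [hσ σ hfix, sub_self]
    exact Ideal.zero_mem _

/-- A ring homomorphism between local rings whose source has nilpotent maximal ideal is local. -/
theorem isLocalHom_of_isArtinian {B : Type} [CommRing B] [IsLocalRing B] [IsArtinianRing A]
    (φ : A →+* B) : IsLocalHom φ := by
  refine ⟨fun a ha => ?_⟩
  by_contra hnu
  have hmem : a ∈ maximalIdeal A := (mem_maximalIdeal a).mpr hnu
  obtain ⟨n, hn⟩ := exists_maximalIdeal_pow_eq_bot' (A := A)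
  have : a ^ n = 0 := by
    have := Ideal.pow_mem_pow hmem n
    rwa [hn, Ideal.mem_bot] at this
  have h0 : (φ a) ^ n = 0 := by rw [← map_pow, this, map_zero]
  have hu : IsUnit ((φ a) ^ n) := ha.pow n
  rw [h0] at hu
  exact not_isUnit_zero hu

/-- Membership in the maximal ideal can be tested after applying any ring homomorphism to a
local ring. -/
theorem mem_maximalIdeal_of_map_mem {B : Type} [CommRing B] [IsLocalRing B] (φ : A →+* B) (a : A)
    (h : φ a ∈ maximalIdeal B) : a ∈ maximalIdeal A := by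
  rw [mem_maximalIdeal, mem_nonunits_iff] at h ⊢
  exact fun hu => h (hu.map φ)

theorem map_mem_maximalIdeal_of_isLocalHom {B : Type} [CommRing B] [IsLocalRing B] (φ : A →+* B)
    (hφ : IsLocalHom φ) (a : A) (h : a ∈ maximalIdeal A) : φ a ∈ maximalIdeal B := by
  rw [mem_maximalIdeal, mem_nonunits_iff] at h ⊢
  exact fun hu => h (hφ.map_nonunit a hu)

end artinian

section normData

variable {𝒪 : Type} [CommRing 𝒪] [IsLocalRing 𝒪]

/-- Normalisation data exist for an absolutely irreducible residual representation. -/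
theorem nonempty_normData (ρbar : ResidualGaloisRep (ResidueField 𝒪))
    (habs : ρbar.IsAbsolutelyIrreducible) : Nonempty (NormData 𝒪 ρbar) := by
  obtain ⟨bbar⟩ := nonempty_rbasis ρbar
  obtain ⟨gN, iN, jN, hker⟩ := helper55.exists_three_functionals (fun g => rMat ρbar bbar g)
    (fun X hX => wp4 ρbar habs bbar X hX)
  choose f hf using residue_surjective (R := 𝒪)
  exact ⟨⟨bbar, gN, iN, jN, hker, fun ω => f (rMat ρbar bbar ω.1 ω.2.1 ω.2.2),
    fun g i j => hf _⟩⟩

end normData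

section fields

variable {𝒪 : Type} [CommRing 𝒪] [IsLocalRing 𝒪]
  {ρbar : ResidualGaloisRep (ResidueField 𝒪)} (D : NormData 𝒪 ρbar)
  {𝒟 : ∀ ⦃A : Type⦄ [CommRing A] [IsLocalRing A] [Algebra 𝒪 A], GaloisRepAdic A → Prop}

/-- Two monoid homomorphisms to matrices with the same values are equal, together with the
`ofMatrix` construction. -/
theorem ofMatrix_congr {A : Type} [CommRing A] [IsLocalRing A] {R R' : Gal →* M2 A}
    (h : R = R') (hR : MatCont R) (hR' : MatCont R') : ofMatrix R hR = ofMatrix R' hR' := by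
  subst h; rfl

theorem isNormLift_push (h𝒟 : IsDeformationCondition 𝒪 𝒟)
    (A B : Type) [CommRing A] [IsLocalRing A] [Algebra 𝒪 A]
    [CommRing B] [IsLocalRing B] [Algebra 𝒪 B]
    (hA : IsArtinianTestAlgebra 𝒪 A) (hB : IsArtinianTestAlgebra 𝒪 B)
    (φ : A →ₐ[𝒪] B) (x : Ω → A) (hx : IsNormLift D 𝒟 A x) :
    IsNormLift D 𝒟 B (fun ω => φ (x ω)) := by
  obtain ⟨R, hR, h1, h2, h3, h4⟩ := hx
  haveI := hA.isArtinian
  have hφ : IsLocalHom (φ : A →+* B) := isLocalHom_of_isArtinian _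
  refine ⟨mapHom (φ : A →+* B) R, matCont_mapHom _ hφ R hR, fun g => ?_, fun ω => ?_,
    fun t => ?_, ?_⟩
  · rw [mapHom_apply, h1 g]
    exact (matOf_comp φ x g).symm
  · have := map_mem_maximalIdeal_of_isLocalHom (φ : A →+* B) hφ _ (h2 ω)
    rw [map_sub] at this
    simpa using this
  · show φ (x _) = _
    rw [h3 t]
    exact φ.commutes _
  · exact h𝒟.of_isEquiv hB (isEquiv_baseChangeAlong_ofMatrix _ hφ R hR)
      (h𝒟.baseChangeAlong hA hB φ hφ h4)

/-- The matrix representation with prescribed entries. -/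
def homOfEntries {A : Type} [CommRing A] (x : Ω → A) (h1 : matOf x 1 = 1)
    (hmul : ∀ g h, matOf x (g * h) = matOf x g * matOf x h) : Gal →* M2 A where
  toFun := matOf x
  map_one' := h1
  map_mul' := hmul

@[simp] theorem homOfEntries_apply {A : Type} [CommRing A] (x : Ω → A) (h1 : matOf x 1 = 1)
    (hmul : ∀ g h, matOf x (g * h) = matOf x g * matOf x h) (g : Gal) :
    homOfEntries x h1 hmul g = matOf x g := rfl

theorem map_one_matrix {A B F : Type} [CommRing A] [CommRing B] [FunLike F A B]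
    [RingHomClass F A B] (φ : F) :
    (1 : M2 A).map φ = 1 := Matrix.map_one φ (map_zero φ) (map_one φ)

theorem isNormLift_desc (h𝒟 : IsDeformationCondition 𝒪 𝒟)
    (A B : Type) [CommRing A] [IsLocalRing A] [Algebra 𝒪 A]
    [CommRing B] [IsLocalRing B] [Algebra 𝒪 B]
    (hA : IsArtinianTestAlgebra 𝒪 A) (hB : IsArtinianTestAlgebra 𝒪 B)
    (φ : A →ₐ[𝒪] B) (hinj : Function.Injective φ) (x : Ω → A)
    (hx : IsNormLift D 𝒟 B (fun ω => φ (x ω))) : IsNormLift D 𝒟 A x := by
  obtain ⟨R', hR', h1, h2, h3, h4⟩ := hx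
  haveI := hA.isArtinian
  haveI := hB.isArtinian
  have hφ : IsLocalHom (φ : A →+* B) := isLocalHom_of_isArtinian _
  have hminj : Function.Injective (fun M : M2 A => M.map φ) := Matrix.map_injective hinj
  have hR'x : ∀ g, R' g = (matOf x g).map φ := fun g => by rw [h1 g, matOf_comp]
  have hone : matOf x 1 = 1 := hminj (by
    show (matOf x 1).map φ = (1 : M2 A).map φ
    rw [← hR'x, map_one, map_one_matrix φ])
  have hmul : ∀ g h, matOf x (g * h) = matOf x g * matOf x h := fun g h => hminj (by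
    show (matOf x (g * h)).map φ = (matOf x g * matOf x h).map φ
    rw [Matrix.map_mul, ← hR'x, ← hR'x, ← hR'x, map_mul])
  set R : Gal →* M2 A := homOfEntries x hone hmul with hRdef
  have hmap : mapHom (φ : A →+* B) R = R' := by
    ext g : 1
    rw [mapHom_apply, hR'x g]
    rfl
  have hR : MatCont R := by
    rw [matCont_iff_of_isArtinian] at hR' ⊢
    obtain ⟨L, hL, hσ⟩ := hR'
    refine ⟨L, hL, fun σ hfix => hminj ?_⟩
    show (matOf x σ).map φ = (1 : M2 A).map φ
    rw [← hR'x, hσ σ hfix, map_one_matrix φ]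
  refine ⟨R, hR, fun g => rfl, fun ω => ?_, fun t => ?_, ?_⟩
  · refine mem_maximalIdeal_of_map_mem (φ : A →+* B) _ ?_
    have := h2 ω
    simpa using this
  · apply hinj
    exact (h3 t).trans (φ.commutes _).symm
  · refine h𝒟.of_baseChangeAlong_injective hA hB φ hφ hinj ?_
    have he := isEquiv_baseChangeAlong_ofMatrix (φ : A →+* B) hφ R hR
    obtain ⟨e⟩ := he
    refine h𝒟.of_isEquiv hB ⟨e.symm⟩ ?_
    rw [ofMatrix_congr hmap _ hR']
    exact h4

theorem isNormLift_fib (h𝒟 : IsDeformationCondition 𝒪 𝒟)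
    (A B C P : Type) [CommRing A] [IsLocalRing A] [Algebra 𝒪 A]
    [CommRing B] [IsLocalRing B] [Algebra 𝒪 B] [CommRing C] [IsLocalRing C] [Algebra 𝒪 C]
    [CommRing P] [IsLocalRing P] [Algebra 𝒪 P]
    (hA : IsArtinianTestAlgebra 𝒪 A) (hB : IsArtinianTestAlgebra 𝒪 B)
    (hC : IsArtinianTestAlgebra 𝒪 C) (hP : IsArtinianTestAlgebra 𝒪 P)
    (f : A →ₐ[𝒪] C) (g : B →ₐ[𝒪] C) (pA : P →ₐ[𝒪] A) (pB : P →ₐ[𝒪] B)
    (hcomp : f.comp pA = g.comp pB)
    (hinj : Function.Injective (fun x => (pA x, pB x)))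
    (hsurj : ∀ a b, f a = g b → ∃ x, pA x = a ∧ pB x = b)
    (x : Ω → P) (hxA : IsNormLift D 𝒟 A (fun ω => pA (x ω)))
    (hxB : IsNormLift D 𝒟 B (fun ω => pB (x ω))) : IsNormLift D 𝒟 P x := by
  obtain ⟨RA, hRA, hA1, hA2, hA3, hA4⟩ := hxA
  obtain ⟨RB, hRB, hB1, hB2, hB3, hB4⟩ := hxB
  haveI := hA.isArtinian
  haveI := hB.isArtinian
  haveI := hP.isArtinian
  have hpA : IsLocalHom (pA : P →+* A) := isLocalHom_of_isArtinian _
  have hpB : IsLocalHom (pB : P →+* B) := isLocalHom_of_isArtinian _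
  have hminj : ∀ X Y : M2 P, X.map pA = Y.map pA → X.map pB = Y.map pB → X = Y := by
    intro X Y h1 h2
    ext i j
    apply hinj
    refine Prod.ext ?_ ?_
    · exact congrFun (congrFun h1 i) j
    · exact congrFun (congrFun h2 i) j
  have hRAx : ∀ g, RA g = (matOf x g).map pA := fun g => by rw [hA1 g, matOf_comp]
  have hRBx : ∀ g, RB g = (matOf x g).map pB := fun g => by rw [hB1 g, matOf_comp]
  have hone : matOf x 1 = 1 := hminj _ _
    (by rw [← hRAx, map_one, map_one_matrix pA])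
    (by rw [← hRBx, map_one, map_one_matrix pB])
  have hmul : ∀ g h, matOf x (g * h) = matOf x g * matOf x h := fun g h => hminj _ _
    (by rw [Matrix.map_mul, ← hRAx, ← hRAx, ← hRAx, map_mul])
    (by rw [Matrix.map_mul, ← hRBx, ← hRBx, ← hRBx, map_mul])
  set R : Gal →* M2 P := homOfEntries x hone hmul with hRdef
  have hmapA : mapHom (pA : P →+* A) R = RA := by
    ext g : 1
    rw [mapHom_apply, hRAx g]
    rfl
  have hmapB : mapHom (pB : P →+* B) R = RB := by
    ext g : 1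
    rw [mapHom_apply, hRBx g]
    rfl
  have hR : MatCont R := by
    rw [matCont_iff_of_isArtinian] at hRA hRB ⊢
    obtain ⟨LA, hLA, hσA⟩ := hRA
    obtain ⟨LB, hLB, hσB⟩ := hRB
    haveI := hLA
    haveI := hLB
    refine ⟨LA ⊔ LB, IntermediateField.finiteDimensional_sup LA LB, fun σ hfix => hminj _ _ ?_ ?_⟩
    · show (matOf x σ).map pA = (1 : M2 P).map pA
      rw [← hRAx, hσA σ (fun y hy => hfix y ((le_sup_left : LA ≤ LA ⊔ LB) hy)),
        map_one_matrix pA]
    · show (matOf x σ).map pB = (1 : M2 P).map pB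
      rw [← hRBx, hσB σ (fun y hy => hfix y ((le_sup_right : LB ≤ LA ⊔ LB) hy)),
        map_one_matrix pB]
  refine ⟨R, hR, fun g => rfl, fun ω => ?_, fun t => ?_, ?_⟩
  · refine mem_maximalIdeal_of_map_mem (pA : P →+* A) _ ?_
    have := hA2 ω
    simpa using this
  · apply hinj
    refine Prod.ext ?_ ?_
    · exact (hA3 t).trans (pA.commutes _).symm
    · exact (hB3 t).trans (pB.commutes _).symm
  · refine h𝒟.of_fibreProduct hA hB hC hP f g pA pB hpA hpB hcomp hinj hsurj ?_ ?_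
    · obtain ⟨e⟩ := isEquiv_baseChangeAlong_ofMatrix (pA : P →+* A) hpA R hR
      refine h𝒟.of_isEquiv hA ⟨e.symm⟩ ?_
      rw [ofMatrix_congr hmapA _ hRA]
      exact hA4
    · obtain ⟨e⟩ := isEquiv_baseChangeAlong_ofMatrix (pB : P →+* B) hpB R hR
      refine h𝒟.of_isEquiv hB ⟨e.symm⟩ ?_
      rw [ofMatrix_congr hmapB _ hRB]
      exact hB4

theorem isArtinianTestAlgebra_residueField' :
    IsArtinianTestAlgebra 𝒪 (ResidueField 𝒪) where
  isLocalHom := by
    rw [IsLocalRing.ResidueField.algebraMap_eq]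
    infer_instance
  residue_surjective := by
    intro y
    obtain ⟨a, rfl⟩ := residue_surjective y
    obtain ⟨o, rfl⟩ := residue_surjective a
    exact ⟨o, rfl⟩
  isArtinian := inferInstance

theorem matCont_rMat {k : Type} [Field k] (ρ : ResidualGaloisRep k)
    (b : Module.Basis (Fin 2) k ρ.V) : MatCont (rMat ρ b) := by
  intro n
  obtain ⟨L, hL, h⟩ := ρ.factorsThroughFiniteLevel
  refine ⟨L, hL, fun σ hfix i j => ?_⟩
  have : rMat ρ b σ = 1 := by
    rw [rMat_apply, h σ hfix]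
    exact LinearMap.toMatrix_one b
  rw [this, sub_self]
  exact Ideal.zero_mem _

theorem isEquiv_ofResidualGaloisRep {k : Type} [Field k] (ρ : ResidualGaloisRep k)
    (b : Module.Basis (Fin 2) k ρ.V) :
    (GaloisRepAdic.ofResidualGaloisRep ρ).IsEquiv (ofMatrix (rMat ρ b) (matCont_rMat ρ b)) :=
  isEquiv_ofMatrix_toMatrixHom (GaloisRepAdic.ofResidualGaloisRep ρ) b

theorem isNormLift_res (h𝒟 : IsDeformationCondition 𝒪 𝒟)
    (hbar : 𝒟 (GaloisRepAdic.ofResidualGaloisRep ρbar)) :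
    IsNormLift D 𝒟 (ResidueField 𝒪) (fun ω => residue 𝒪 (D.base ω)) := by
  refine ⟨rMat ρbar D.bbar, matCont_rMat ρbar D.bbar, fun g => ?_, fun ω => ?_, fun t => ?_, ?_⟩
  · ext i j
    exact (D.hbase g i j).symm
  · rw [IsLocalRing.ResidueField.algebraMap_eq, sub_self]
    exact Ideal.zero_mem _
  · rw [IsLocalRing.ResidueField.algebraMap_eq]
  · exact h𝒟.of_isEquiv isArtinianTestAlgebra_residueField'
      (isEquiv_ofResidualGaloisRep ρbar D.bbar) hbar

/-- **S53-A1**: the `LiftFunctor` of normalised matrix lifts of `ρbar` satisfying `𝒟`. -/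
noncomputable def galLiftFunctor (h𝒟 : IsDeformationCondition 𝒪 𝒟)
    (hbar : 𝒟 (GaloisRepAdic.ofResidualGaloisRep ρbar))
    (hfin : TangentFinite 𝒪 ρbar 𝒟) : LiftFunctor 𝒪 Ω where
  base := D.base
  N := fun A _ _ _ x => IsNormLift D 𝒟 A x
  lift := fun _ _ _ _ _ _ hx ω => hx.choose_spec.choose_spec.2.1 ω
  push := fun A B _ _ _ _ _ _ hA hB φ x hx => isNormLift_push D h𝒟 A B hA hB φ x hx
  desc := fun A B _ _ _ _ _ _ hA hB φ hinj x hx => isNormLift_desc D h𝒟 A B hA hB φ hinj x hx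
  fib := fun A B C P _ _ _ _ _ _ _ _ _ _ _ _ hA hB hC hP f g pA pB hcomp hinj hsurj x hxA hxB =>
    isNormLift_fib D h𝒟 A B C P hA hB hC hP f g pA pB hcomp hinj hsurj x hxA hxB
  res := isNormLift_res D h𝒟 hbar
  tan := finite_isNormLift_dualNumber D hfin

@[simp] theorem galLiftFunctor_base (h𝒟 : IsDeformationCondition 𝒪 𝒟)
    (hbar : 𝒟 (GaloisRepAdic.ofResidualGaloisRep ρbar)) (hfin : TangentFinite 𝒪 ρbar 𝒟) :
    (galLiftFunctor D h𝒟 hbar hfin).base = D.base := rfl

theorem galLiftFunctor_N (h𝒟 : IsDeformationCondition 𝒪 𝒟)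
    (hbar : 𝒟 (GaloisRepAdic.ofResidualGaloisRep ρbar)) (hfin : TangentFinite 𝒪 ρbar 𝒟)
    (A : Type) [CommRing A] [IsLocalRing A] [Algebra 𝒪 A] (x : Ω → A) :
    (galLiftFunctor D h𝒟 hbar hfin).N A x ↔ IsNormLift D 𝒟 A x := Iff.rfl

/-- The residues of the base values of `galLiftFunctor` are the entries of `ρbar`. -/
theorem galLiftFunctor_hbase (h𝒟 : IsDeformationCondition 𝒪 𝒟)
    (hbar : 𝒟 (GaloisRepAdic.ofResidualGaloisRep ρbar)) (hfin : TangentFinite 𝒪 ρbar 𝒟)
    (g : Gal) (i j : Fin 2) :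
    residue 𝒪 ((galLiftFunctor D h𝒟 hbar hfin).base (g, i, j)) = rMat ρbar D.bbar g i j :=
  D.hbase g i j

/-- The points of `galLiftFunctor`, spelled out (the interface used by S53-A2). -/
theorem galLiftFunctor_hN (h𝒟 : IsDeformationCondition 𝒪 𝒟)
    (hbar : 𝒟 (GaloisRepAdic.ofResidualGaloisRep ρbar)) (hfin : TangentFinite 𝒪 ρbar 𝒟)
    (A : Type) [CommRing A] [IsLocalRing A] [Algebra 𝒪 A] (_hA : IsArtinianTestAlgebra 𝒪 A)
    (x : Gal × Fin 2 × Fin 2 → A) :
    (galLiftFunctor D h𝒟 hbar hfin).N A x ↔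
      ∃ (R : Gal →* M2 A) (hR : MatCont R), (∀ g i j, R g i j = x (g, i, j)) ∧
        (∀ ω, x ω - algebraMap 𝒪 A ((galLiftFunctor D h𝒟 hbar hfin).base ω) ∈ maximalIdeal A) ∧
        (∀ t, x (D.gN t, D.iN t, D.jN t) =
          algebraMap 𝒪 A ((galLiftFunctor D h𝒟 hbar hfin).base (D.gN t, D.iN t, D.jN t))) ∧
        𝒟 (ofMatrix R hR) := by
  constructor
  · rintro ⟨R, hR, h1, h2, h3, h4⟩
    exact ⟨R, hR, fun g i j => by rw [h1 g]; rfl, h2, h3, h4⟩
  · rintro ⟨R, hR, h1, h2, h3, h4⟩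
    exact ⟨R, hR, fun g => by ext i j; exact h1 g i j, h2, h3, h4⟩

end fields

end Fermat.Agent.S53.helper56
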