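import Fermat.Agent.S53.TestAlg

/-!
# S53: the power series ring over `𝒪` as a local `𝒪`-algebra
-/

set_option autoImplicit false
set_option linter.unusedSectionVars false
set_option linter.style.haveILetI false

namespace Fermat.Agent.S53

open IsLocalRing GaloisRep

variable {σ : Type} {𝒪 : Type} [CommRing 𝒪] [IsLocalRing 𝒪]

theorem mvps_mem_maximalIdeal_iff (f : MvPowerSeries σ 𝒪) :
    f ∈ maximalIdeal (MvPowerSeries σ 𝒪) ↔ MvPowerSeries.constantCoeff f ∈ maximalIdeal 𝒪 := by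
  rw [mem_maximalIdeal, mem_maximalIdeal, mem_nonunits_iff, mem_nonunits_iff,
    MvPowerSeries.isUnit_iff_constantCoeff]

theorem mvps_X_mem_maximalIdeal (s : σ) :
    (MvPowerSeries.X s : MvPowerSeries σ 𝒪) ∈ maximalIdeal (MvPowerSeries σ 𝒪) := by
  rw [mvps_mem_maximalIdeal_iff, MvPowerSeries.constantCoeff_X]
  exact zero_mem _

theorem mvps_algebraMap_eq (o : 𝒪) :
    algebraMap 𝒪 (MvPowerSeries σ 𝒪) o = MvPowerSeries.C o := rfl

theorem mvps_isLocalHom : IsLocalHom (algebraMap 𝒪 (MvPowerSeries σ 𝒪)) := by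
  constructor
  intro o ho
  rw [mvps_algebraMap_eq, MvPowerSeries.isUnit_iff_constantCoeff,
    MvPowerSeries.constantCoeff_C] at ho
  exact ho

theorem mvps_residue_surjective :
    Function.Surjective (residue (MvPowerSeries σ 𝒪) ∘ algebraMap 𝒪 (MvPowerSeries σ 𝒪)) := by
  refine residue_surjective_of_forall fun f => ⟨MvPowerSeries.constantCoeff f, ?_⟩
  rw [mvps_mem_maximalIdeal_iff, map_sub, mvps_algebraMap_eq, MvPowerSeries.constantCoeff_C,
    sub_self]
  exact zero_mem _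

theorem mvps_finite_residueField [Finite (ResidueField 𝒪)] :
    Finite (ResidueField (MvPowerSeries σ 𝒪)) := by
  haveI := mvps_isLocalHom (σ := σ) (𝒪 := 𝒪)
  refine Finite.of_surjective (ResidueField.map (algebraMap 𝒪 (MvPowerSeries σ 𝒪))) ?_
  intro y
  obtain ⟨o, ho⟩ := mvps_residue_surjective (σ := σ) (𝒪 := 𝒪) y
  exact ⟨residue 𝒪 o, by simpa using ho⟩

/-- Quotients of local rings by proper ideals are local. -/
theorem isLocalRing_quotient {S : Type} [CommRing S] [IsLocalRing S] {J : Ideal S}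
    (hJ : J ≠ ⊤) : IsLocalRing (S ⧸ J) := by
  haveI : Nontrivial (S ⧸ J) := Ideal.Quotient.nontrivial_iff.mpr hJ
  exact IsLocalRing.of_surjective' (Ideal.Quotient.mk J) Ideal.Quotient.mk_surjective

theorem mk_mem_maximalIdeal_iff {S : Type} [CommRing S] [IsLocalRing S] {J : Ideal S}
    (hJ : J ≠ ⊤) [IsLocalRing (S ⧸ J)] (y : S) :
    Ideal.Quotient.mk J y ∈ maximalIdeal (S ⧸ J) ↔ y ∈ maximalIdeal S := by
  haveI : Nontrivial (S ⧸ J) := Ideal.Quotient.nontrivial_iff.mpr hJ
  haveI := IsLocalHom.of_surjective (Ideal.Quotient.mk J) Ideal.Quotient.mk_surjective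
  rw [mem_maximalIdeal, mem_maximalIdeal, mem_nonunits_iff, mem_nonunits_iff]
  exact not_congr (isUnit_map_iff (Ideal.Quotient.mk J) y)

/-- Test algebra structure on finite quotients of a local `𝒪`-algebra. -/
theorem isArtinianTestAlgebra_quotient {S : Type} [CommRing S] [IsLocalRing S] [Algebra 𝒪 S]
    (hloc : IsLocalHom (algebraMap 𝒪 S))
    (hres : Function.Surjective (residue S ∘ algebraMap 𝒪 S))
    {J : Ideal S} (hJ : J ≠ ⊤) [IsLocalRing (S ⧸ J)] [Finite (S ⧸ J)] :
    IsArtinianTestAlgebra 𝒪 (S ⧸ J) := by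
  refine ⟨⟨fun o ho => ?_⟩, ?_, inferInstance⟩
  · by_contra h
    have h1 : algebraMap 𝒪 S o ∈ maximalIdeal S := by
      rw [mem_maximalIdeal, mem_nonunits_iff]
      exact fun hu => h (hloc.map_nonunit o hu)
    have h2 := (mk_mem_maximalIdeal_iff hJ (algebraMap 𝒪 S o)).mpr h1
    exact ((mem_maximalIdeal _).mp h2) ho
  · refine residue_surjective_of_forall fun x => ?_
    obtain ⟨y, rfl⟩ := Ideal.Quotient.mk_surjective x
    obtain ⟨o, ho⟩ := exists_sub_mem_maximalIdeal hres y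
    exact ⟨o, (mk_mem_maximalIdeal_iff hJ _).mpr ho⟩

end Fermat.Agent.S53
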