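import Mathlib
import Fermat.Agent.S53.Basic

/-!
# S53, work package WP3 (helper25): the dual number lemma

Let `B` be a finite local `O`-algebra (local structure map, residue field `k_O`) and `B'` an
`O`-subalgebra.  If every `O`-algebra map `B → k_O[ε]` which is "constant" on `B'` is constant,
then `B' = B`.
-/

set_option autoImplicit false
set_option linter.unusedSectionVars false

namespace Fermat.Agent.S53.helper25

open IsLocalRing

section

variable {O : Type} [CommRing O] [IsLocalRing O] {B : Type} [CommRing B] [IsLocalRing B]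
  [Algebra O B]

/-- Every element of `B` is the image of an element of `O` plus an element of the maximal
ideal. -/
theorem exists_algebraMap_add_mem
    (hres : Function.Surjective (IsLocalRing.residue B ∘ algebraMap O B)) (x : B) :
    ∃ (a : O) (m : B), m ∈ maximalIdeal B ∧ x = algebraMap O B a + m := by
  obtain ⟨a, ha⟩ := hres (residue B x)
  refine ⟨a, x - algebraMap O B a, ?_, by ring⟩
  rw [← residue_eq_zero_iff, map_sub, ← ha]
  simp

theorem algebraMap_mem_maximalIdeal (hloc : IsLocalHom (algebraMap O B)) {a : O}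
    (ha : a ∈ maximalIdeal O) : algebraMap O B a ∈ maximalIdeal B := by
  rw [mem_maximalIdeal, mem_nonunits_iff] at ha ⊢
  intro hu
  exact ha (hloc.map_nonunit a hu)

/-- Key algebraic step: if `B = B' + 𝔪_B ^ 2 + 𝔪_O B` then `B' = B`. -/
theorem subalgebra_eq_top_of_sup_eq_top [Finite B]
    (hloc : IsLocalHom (algebraMap O B))
    (hres : Function.Surjective (IsLocalRing.residue B ∘ algebraMap O B))
    (B' : Subalgebra O B)
    (hU : ∀ x : B, ∃ b ∈ B', ∃ y ∈ maximalIdeal B ^ 2,
      ∃ z ∈ (maximalIdeal O • (⊤ : Submodule O B)), x = b + y + z) : B' = ⊤ := by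
  -- step 0: `𝔪_O • B ⊆ B' + 𝔪_B^2`
  have h0 : ∀ z ∈ (maximalIdeal O • (⊤ : Submodule O B)),
      ∃ b ∈ B', ∃ y ∈ maximalIdeal B ^ 2, z = b + y := by
    intro z hz
    refine Submodule.smul_induction_on hz ?_ ?_
    · intro a ha x _
      obtain ⟨c, m, hm, rfl⟩ := exists_algebraMap_add_mem hres x
      refine ⟨algebraMap O B (a * c), B'.algebraMap_mem _, algebraMap O B a * m, ?_, ?_⟩
      · rw [pow_two]
        exact Ideal.mul_mem_mul (algebraMap_mem_maximalIdeal hloc ha) hm
      · rw [Algebra.smul_def, map_mul]; ring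
    · rintro x y ⟨b, hb, u, hu, rfl⟩ ⟨b', hb', u', hu', rfl⟩
      exact ⟨b + b', B'.add_mem hb hb', u + u', Ideal.add_mem _ hu hu', by ring⟩
  -- step 1: `B = B' + 𝔪_B^2`
  have h1 : ∀ x : B, ∃ b ∈ B', ∃ y ∈ maximalIdeal B ^ 2, x = b + y := by
    intro x
    obtain ⟨b, hb, y, hy, z, hz, rfl⟩ := hU x
    obtain ⟨b', hb', y', hy', rfl⟩ := h0 z hz
    exact ⟨b + b', B'.add_mem hb hb', y + y', Ideal.add_mem _ hy hy', by ring⟩
  -- step 2: `𝔪_B^(n+1) ⊆ B' + 𝔪_B^(n+2)`
  have h2 : ∀ n : ℕ, ∀ x ∈ maximalIdeal B ^ (n + 1),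
      ∃ b ∈ B', ∃ y ∈ maximalIdeal B ^ (n + 2), x = b + y := by
    intro n
    induction n with
    | zero =>
      intro x _
      obtain ⟨b, hb, y, hy, rfl⟩ := h1 x
      exact ⟨b, hb, y, by simpa using hy, rfl⟩
    | succ n ih =>
      intro x hx
      rw [pow_succ'] at hx
      refine Submodule.mul_induction_on hx ?_ ?_
      · intro u hu v hv
        obtain ⟨b, hb, y, hy, rfl⟩ := h1 u
        obtain ⟨c, hc, w, hw, rfl⟩ := ih v hv
        have hbm : b ∈ maximalIdeal B := by
          have : b = (b + y) - y := by ring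
          rw [this]
          exact Ideal.sub_mem _ hu (Ideal.pow_le_self (by norm_num) hy)
        refine ⟨b * c, B'.mul_mem hb hc, b * w + y * (c + w), ?_, by ring⟩
        refine Ideal.add_mem _ ?_ ?_
        · have := Ideal.mul_mem_mul hbm hw
          rwa [← pow_succ'] at this
        · have := Ideal.mul_mem_mul hy hv
          rwa [← pow_add, show 2 + (n + 1) = n + 1 + 2 by ring] at this
      · rintro u v ⟨b, hb, y, hy, rfl⟩ ⟨c, hc, w, hw, rfl⟩
        exact ⟨b + c, B'.add_mem hb hc, y + w, Ideal.add_mem _ hy hw, by ring⟩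
  -- step 3: `B = B' + 𝔪_B^(n+1)` for all `n`
  have h3 : ∀ n : ℕ, ∀ x : B, ∃ b ∈ B', ∃ y ∈ maximalIdeal B ^ (n + 1), x = b + y := by
    intro n
    induction n with
    | zero =>
      intro x
      obtain ⟨b, hb, y, hy, rfl⟩ := h1 x
      exact ⟨b, hb, y, by simpa using Ideal.pow_le_self (by norm_num) hy, rfl⟩
    | succ n ih =>
      intro x
      obtain ⟨b, hb, y, hy, rfl⟩ := ih x
      obtain ⟨c, hc, w, hw, rfl⟩ := h2 n y hy
      exact ⟨b + c, B'.add_mem hb hc, w, hw, by ring⟩
  -- nilpotency
  have hnil : IsNilpotent (maximalIdeal B) := by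
    have := IsArtinianRing.isNilpotent_jacobson_bot (R := B)
    rwa [IsLocalRing.jacobson_eq_maximalIdeal ⊥ bot_ne_top] at this
  obtain ⟨N, hN⟩ := hnil
  rw [eq_top_iff]
  rintro x -
  obtain ⟨b, hb, y, hy, rfl⟩ := h3 N x
  have hy0 : y = 0 := by
    have : maximalIdeal B ^ (N + 1) = ⊥ := by
      rw [pow_succ, hN]; simp
    rw [this] at hy
    simpa using hy
  rw [hy0, add_zero]
  exact hb

/-- The ring hom `B → k_O` (residue map of `B` followed by the inverse of `k_O ≅ k_B`). -/
theorem exists_residueHom (hloc : IsLocalHom (algebraMap O B))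
    (hres : Function.Surjective (IsLocalRing.residue B ∘ algebraMap O B)) :
    ∃ r : B →+* ResidueField O, (∀ a : O, r (algebraMap O B a) = residue O a) ∧
      ∀ m ∈ maximalIdeal B, r m = 0 := by
  have := hloc
  have hbij : Function.Bijective (ResidueField.map (algebraMap O B)) := by
    refine ⟨(ResidueField.map (algebraMap O B)).injective, fun y => ?_⟩
    obtain ⟨a, ha⟩ := hres y
    exact ⟨residue O a, by rw [ResidueField.map_residue]; exact ha⟩
  let e : ResidueField O ≃+* ResidueField B := RingEquiv.ofBijective _ hbij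
  refine ⟨e.symm.toRingHom.comp (residue B), fun a => ?_, fun m hm => ?_⟩
  · simp only [RingHom.comp_apply, RingEquiv.toRingHom_eq_coe, RingHom.coe_coe]
    rw [RingEquiv.symm_apply_eq]
    simp [e, ResidueField.map_residue]
  · simp only [RingHom.comp_apply, RingEquiv.toRingHom_eq_coe, RingHom.coe_coe]
    rw [(residue_eq_zero_iff m).mpr hm, map_zero]

/-- Construction of a nontrivial "tangent functional" vanishing on a proper `O`-submodule. -/
theorem exists_functional [Finite B]
    (U : Submodule O B) (hU : U ≠ ⊤) :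
    ∃ f : B →+ ResidueField O, Function.Surjective f ∧ (∀ x ∈ U, f x = 0) ∧
      ∀ (a : O) (x : B), f (algebraMap O B a * x) = residue O a * f x := by
  obtain h | ⟨U', hU', hle⟩ := eq_top_or_exists_le_coatom U
  · exact absurd h hU
  have hs : IsSimpleModule O (B ⧸ U') := isSimpleModule_iff_isCoatom.mpr hU'
  obtain ⟨I, hI, ⟨e⟩⟩ := isSimpleModule_iff_quot_maximal.mp hs
  obtain rfl := IsLocalRing.eq_maximalIdeal hI
  let f' : B →ₗ[O] O ⧸ maximalIdeal O := e.toLinearMap.comp U'.mkQ
  refine ⟨(f'.toAddMonoidHom : B →+ O ⧸ maximalIdeal O), ?_, ?_, ?_⟩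
  · exact e.surjective.comp (Submodule.mkQ_surjective U')
  · intro x hx
    have : U'.mkQ x = 0 := by
      rw [Submodule.mkQ_apply, Submodule.Quotient.mk_eq_zero]
      exact hle hx
    show e (U'.mkQ x) = 0
    rw [this, map_zero]
  · intro a x
    show f' (algebraMap O B a * x) = Ideal.Quotient.mk (maximalIdeal O) a * f' x
    rw [← Algebra.smul_def, f'.map_smul]
    generalize f' x = y
    obtain ⟨y, rfl⟩ := Ideal.Quotient.mk_surjective y
    rfl

/-- **WP3 (dual number lemma).** -/
theorem subalgebra_eq_top_of_forall_dualNumber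
    (O : Type) [CommRing O] [IsLocalRing O] (B : Type) [CommRing B] [IsLocalRing B]
    [Algebra O B] [Finite B]
    (hloc : IsLocalHom (algebraMap O B))
    (hres : Function.Surjective (IsLocalRing.residue B ∘ algebraMap O B))
    (B' : Subalgebra O B)
    (h : letI := Fermat.Agent.S53.dualAlg O
      ∀ ψ : B →ₐ[O] DualNumber (IsLocalRing.ResidueField O),
        (∀ x ∈ B', ∃ c : IsLocalRing.ResidueField O, ψ x = algebraMap _ _ c) →
        ∀ x, ∃ c : IsLocalRing.ResidueField O, ψ x = algebraMap _ _ c) :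
    B' = ⊤ := by
  letI := Fermat.Agent.S53.dualAlg O
  -- the submodule `U = B' + 𝔪_B^2 + 𝔪_O B`
  set U : Submodule O B := Subalgebra.toSubmodule B' ⊔
    ((maximalIdeal B ^ 2).restrictScalars O ⊔ maximalIdeal O • (⊤ : Submodule O B)) with hUdef
  by_cases hU : U = ⊤
  · apply subalgebra_eq_top_of_sup_eq_top hloc hres B'
    intro x
    have hx : x ∈ U := by rw [hU]; trivial
    rw [hUdef, Submodule.mem_sup] at hx
    obtain ⟨b, hb, w, hw, rfl⟩ := hx
    rw [Submodule.mem_sup] at hw
    obtain ⟨y, hy, z, hz, rfl⟩ := hw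
    exact ⟨b, hb, y, hy, z, hz, by ring⟩
  exfalso
  obtain ⟨f, hfsurj, hfU, hfsmul⟩ := exists_functional U hU
  obtain ⟨r, hr, hrm⟩ := exists_residueHom hloc hres
  have hB'U : ∀ x ∈ B', f x = 0 := fun x hx => hfU x (Submodule.mem_sup_left hx)
  have hsq : ∀ x ∈ maximalIdeal B ^ 2, f x = 0 := fun x hx =>
    hfU x (Submodule.mem_sup_right (Submodule.mem_sup_left hx))
  have halg : ∀ a : O, f (algebraMap O B a) = 0 := fun a => hB'U _ (B'.algebraMap_mem a)
  -- Leibniz rule
  have hleib : ∀ x y : B, f (x * y) = r x * f y + r y * f x := by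
    intro x y
    obtain ⟨a, m, hm, rfl⟩ := exists_algebraMap_add_mem hres x
    obtain ⟨b, n, hn, rfl⟩ := exists_algebraMap_add_mem hres y
    have e1 : (algebraMap O B a + m) * (algebraMap O B b + n) =
        algebraMap O B (a * b) + algebraMap O B a * n + algebraMap O B b * m + m * n := by
      rw [map_mul]; ring
    have hmn : f (m * n) = 0 := hsq _ (by rw [pow_two]; exact Ideal.mul_mem_mul hm hn)
    rw [e1, map_add, map_add, map_add, halg, hmn, hfsmul, hfsmul, map_add, map_add,
      map_add, map_add, halg, halg, hr, hr, hrm m hm, hrm n hn]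
    ring
  -- the algebra hom `ψ`
  let ψ₀ : B →+* DualNumber (ResidueField O) :=
    { toFun := fun x => TrivSqZeroExt.inl (r x) + TrivSqZeroExt.inr (f x)
      map_one' := by
        have h1 : f 1 = 0 := by simpa using halg 1
        simp [h1]
      map_mul' := by
        intro x y
        apply TrivSqZeroExt.ext
        · simp
        · simp [hleib x y, mul_comm]
      map_zero' := by simp
      map_add' := by
        intro x y
        apply TrivSqZeroExt.ext
        · simp
        · simp }
  let ψ : B →ₐ[O] DualNumber (ResidueField O) :=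
    { ψ₀ with
      commutes' := by
        intro a
        show TrivSqZeroExt.inl (r (algebraMap O B a)) + TrivSqZeroExt.inr (f (algebraMap O B a))
          = _
        rw [hr, halg]
        simp [RingHom.algebraMap_toAlgebra, TrivSqZeroExt.algebraMap_eq_inl] }
  have hψ : ∀ x, ψ x = TrivSqZeroExt.inl (r x) + TrivSqZeroExt.inr (f x) := fun x => rfl
  have key := h ψ (fun x hx => ⟨r x, by
    rw [hψ, hB'U x hx, TrivSqZeroExt.algebraMap_eq_inl]; simp⟩)
  -- contradiction: `f` is surjective but must vanish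
  obtain ⟨x, hx⟩ := hfsurj 1
  obtain ⟨c, hc⟩ := key x
  rw [hψ, TrivSqZeroExt.algebraMap_eq_inl] at hc
  have := congrArg TrivSqZeroExt.snd hc
  simp [hx] at this

end

end Fermat.Agent.S53.helper25
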