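import Fermat.Agent.S53.PowerSeriesRing
import Fermat.Agent.S53.helper25_WP3

/-!
# S53: generation and rigidity for abstract lift functors
-/

set_option autoImplicit false
set_option linter.unusedSectionVars false
set_option linter.style.haveILetI false

namespace Fermat.Agent.S53

open IsLocalRing GaloisRep

section testk

variable (𝒪 : Type) [CommRing 𝒪] [IsLocalRing 𝒪]

theorem isLocalHom_algebraMap_residueField : IsLocalHom (algebraMap 𝒪 (ResidueField 𝒪)) :=
  IsLocalHom.of_surjective (algebraMap 𝒪 (ResidueField 𝒪)) IsLocalRing.residue_surjective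

theorem isArtinianTestAlgebra_residueField : IsArtinianTestAlgebra 𝒪 (ResidueField 𝒪) := by
  refine ⟨isLocalHom_algebraMap_residueField 𝒪, ?_, inferInstance⟩
  refine residue_surjective_of_forall fun a => ?_
  obtain ⟨o, rfl⟩ := IsLocalRing.residue_surjective a
  refine ⟨o, ?_⟩
  have : (residue 𝒪) o - (algebraMap 𝒪 (ResidueField 𝒪)) o = 0 := sub_self _
  rw [this]; exact zero_mem _

/-- The inclusion of the residue field into its dual numbers, as an `𝒪`-algebra map. -/
noncomputable def dualIncl :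
    letI := dualAlg 𝒪
    ResidueField 𝒪 →ₐ[𝒪] DualNumber (ResidueField 𝒪) :=
  letI := dualAlg 𝒪
  { (algebraMap (ResidueField 𝒪) (DualNumber (ResidueField 𝒪))) with
    commutes' := fun _ => rfl }

theorem dualNumber_algebraMap_mem_maximalIdeal_iff (c : ResidueField 𝒪) :
    algebraMap (ResidueField 𝒪) (DualNumber (ResidueField 𝒪)) c ∈
      maximalIdeal (DualNumber (ResidueField 𝒪)) ↔ c = 0 := by
  constructor
  · intro h
    by_contra hc
    have hu : IsUnit c := IsUnit.mk0 c hc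
    exact ((mem_maximalIdeal _).mp h) (hu.map _)
  · rintro rfl
    rw [map_zero]; exact zero_mem _

theorem isArtinianTestAlgebra_dualNumber [Finite (ResidueField 𝒪)] :
    letI := dualAlg 𝒪
    IsArtinianTestAlgebra 𝒪 (DualNumber (ResidueField 𝒪)) := by
  letI := dualAlg 𝒪
  have hfst : ∀ y : DualNumber (ResidueField 𝒪),
      y - algebraMap (ResidueField 𝒪) _ (TrivSqZeroExt.fst y) ∈
        maximalIdeal (DualNumber (ResidueField 𝒪)) := by
    intro y
    rw [mem_maximalIdeal, mem_nonunits_iff, TrivSqZeroExt.isUnit_iff_isUnit_fst]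
    rw [TrivSqZeroExt.algebraMap_eq_inl]
    simp
  refine ⟨⟨fun o ho => ?_⟩, ?_, ?_⟩
  · have h1 : algebraMap 𝒪 (DualNumber (ResidueField 𝒪)) o =
        algebraMap (ResidueField 𝒪) _ (residue 𝒪 o) := rfl
    rw [h1] at ho
    by_contra h
    have h2 : residue 𝒪 o = 0 := (residue_eq_zero_iff o).mpr ((mem_maximalIdeal _).mpr h)
    rw [h2, map_zero] at ho
    exact not_isUnit_zero ho
  · refine residue_surjective_of_forall fun y => ?_
    obtain ⟨o, ho⟩ := IsLocalRing.residue_surjective (TrivSqZeroExt.fst y)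
    refine ⟨o, ?_⟩
    have h1 : algebraMap 𝒪 (DualNumber (ResidueField 𝒪)) o =
        algebraMap (ResidueField 𝒪) _ (residue 𝒪 o) := rfl
    rw [h1, ho]
    exact hfst y
  · haveI : Finite (DualNumber (ResidueField 𝒪)) :=
      inferInstanceAs (Finite (ResidueField 𝒪 × ResidueField 𝒪))
    infer_instance

end testk


section gen

variable {𝒪 : Type} [CommRing 𝒪] [IsLocalRing 𝒪] [Finite (ResidueField 𝒪)]
  {Ω : Type} (F : LiftFunctor 𝒪 Ω)

/-- A finite set of coordinates separates the (finitely many) tangent vectors. -/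
theorem exists_separating :
    letI := dualAlg 𝒪
    ∃ Sg : Finset Ω, ∀ x y : Ω → DualNumber (ResidueField 𝒪),
      F.N (DualNumber (ResidueField 𝒪)) x → F.N (DualNumber (ResidueField 𝒪)) y →
      (∀ s ∈ Sg, x s = y s) → x = y := by
  classical
  letI := dualAlg 𝒪
  haveI : Finite {x : Ω → DualNumber (ResidueField 𝒪) // F.N (DualNumber (ResidueField 𝒪)) x} :=
    F.tan
  letI := Fintype.ofFinite
    {x : Ω → DualNumber (ResidueField 𝒪) // F.N (DualNumber (ResidueField 𝒪)) x}
  let T := {x : Ω → DualNumber (ResidueField 𝒪) // F.N (DualNumber (ResidueField 𝒪)) x}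
  let pick : T × T → Finset Ω := fun p =>
    if h : ∃ ω, p.1.1 ω ≠ p.2.1 ω then {h.choose} else ∅
  refine ⟨(Finset.univ : Finset (T × T)).biUnion pick, ?_⟩
  intro x y hx hy hxy
  by_contra hne
  have h : ∃ ω, x ω ≠ y ω := by
    by_contra h
    push Not at h
    exact hne (funext h)
  have hmem : h.choose ∈ (Finset.univ : Finset (T × T)).biUnion pick := by
    refine Finset.mem_biUnion.mpr ⟨(⟨x, hx⟩, ⟨y, hy⟩), Finset.mem_univ _, ?_⟩
    have : pick (⟨x, hx⟩, ⟨y, hy⟩) = {h.choose} := dif_pos h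
    rw [this]
    exact Finset.mem_singleton_self _
  exact h.choose_spec (hxy _ hmem)

variable (Sg : Finset Ω)

/-- The separation hypothesis on a finite set of coordinates. -/
def Separates : Prop :=
  letI := dualAlg 𝒪
  ∀ x y : Ω → DualNumber (ResidueField 𝒪),
    F.N (DualNumber (ResidueField 𝒪)) x → F.N (DualNumber (ResidueField 𝒪)) y →
    (∀ s ∈ Sg, x s = y s) → x = y

variable {F Sg}

/-- Generation: the coordinates of a point lie in the subalgebra generated by the
`Sg`-coordinates. -/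
theorem generation (hSg : Separates F Sg) (A : Type) [CommRing A] [IsLocalRing A]
    [Algebra 𝒪 A] (hA : IsArtinianTestAlgebra 𝒪 A) (x : Ω → A) (hx : F.N A x) (ω : Ω) :
    x ω ∈ Algebra.adjoin 𝒪 (Set.range fun s : Sg => x s - algebraMap 𝒪 A (F.base s)) := by
  classical
  haveI : Finite A := finite_of_isArtinianTestAlgebra hA
  let A'' : Subalgebra 𝒪 A := Algebra.adjoin 𝒪 (Set.range x)
  have hunit : ∀ a : A, a ∈ A'' → IsUnit ((RingHom.id A) a) → IsUnit a := fun a _ h => h
  haveI : IsLocalRing A'' := isLocalRing_subalgebra A'' (RingHom.id A) hunit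
  have hA'' : IsArtinianTestAlgebra 𝒪 A'' :=
    isArtinianTestAlgebra_subalgebra A'' (AlgHom.id 𝒪 A) hunit hA
  let x'' : Ω → A'' := fun ω => ⟨x ω, Algebra.subset_adjoin ⟨ω, rfl⟩⟩
  have hx'' : F.N A'' x'' := F.desc A'' A hA'' hA A''.val Subtype.val_injective x'' hx
  let A' : Subalgebra 𝒪 A'' :=
    Algebra.adjoin 𝒪 (Set.range fun s : Sg => x'' s - algebraMap 𝒪 A'' (F.base s))
  have htop : A' = ⊤ := by
    apply helper25.subalgebra_eq_top_of_forall_dualNumber 𝒪 A'' hA''.isLocalHom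
      hA''.residue_surjective A'
    letI := dualAlg 𝒪
    intro ψ hψ
    have hD : IsArtinianTestAlgebra 𝒪 (DualNumber (ResidueField 𝒪)) :=
      isArtinianTestAlgebra_dualNumber 𝒪
    have hz : F.N (DualNumber (ResidueField 𝒪)) (fun ω => ψ (x'' ω)) :=
      F.push A'' _ hA'' hD ψ x'' hx''
    have hz0 : F.N (DualNumber (ResidueField 𝒪))
        (fun ω => dualIncl 𝒪 (residue 𝒪 (F.base ω))) :=
      F.push (ResidueField 𝒪) _ (isArtinianTestAlgebra_residueField 𝒪) hD (dualIncl 𝒪) _ F.res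
    have hkey : ∀ s ∈ Sg, ψ (x'' s) = dualIncl 𝒪 (residue 𝒪 (F.base s)) := by
      intro s hs
      have hmem : x'' s - algebraMap 𝒪 A'' (F.base s) ∈ A' :=
        Algebra.subset_adjoin ⟨⟨s, hs⟩, rfl⟩
      obtain ⟨c, hc⟩ := hψ _ hmem
      have hmax : ψ (x'' s - algebraMap 𝒪 A'' (F.base s)) ∈
          maximalIdeal (DualNumber (ResidueField 𝒪)) :=
        map_mem_maximalIdeal hD.isLocalHom hD.residue_surjective ψ (F.lift A'' hA'' x'' hx'' s)
      rw [hc, dualNumber_algebraMap_mem_maximalIdeal_iff] at hmax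
      rw [hmax, map_zero, map_sub, sub_eq_zero, AlgHom.commutes] at hc
      rw [hc]
      rfl
    have hzz : (fun ω => ψ (x'' ω)) = fun ω => dualIncl 𝒪 (residue 𝒪 (F.base ω)) :=
      hSg _ _ hz hz0 hkey
    have hall : ∀ ω, ∃ c : ResidueField 𝒪,
        ψ (x'' ω) = algebraMap (ResidueField 𝒪) (DualNumber (ResidueField 𝒪)) c :=
      fun ω => ⟨residue 𝒪 (F.base ω), congrFun hzz ω⟩
    let T : Subalgebra 𝒪 A'' := (AlgHom.range (dualIncl 𝒪)).comap ψ
    have hT : (⊤ : Subalgebra 𝒪 A'') ≤ T := by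
      have h1 : Algebra.adjoin 𝒪 ((Subtype.val : A'' → A) ⁻¹' (Set.range x)) = ⊤ :=
        Algebra.adjoin_adjoin_coe_preimage
      rw [← h1]
      refine Algebra.adjoin_le ?_
      rintro ⟨y, hy⟩ ⟨ω', hω'⟩
      obtain ⟨c, hc⟩ := hall ω'
      have : (⟨y, hy⟩ : A'') = x'' ω' := Subtype.ext hω'.symm
      show ψ _ ∈ (dualIncl 𝒪).range
      rw [this, hc]
      exact ⟨c, rfl⟩
    intro y
    obtain ⟨c, hc⟩ := hT (Algebra.mem_top (x := y))
    exact ⟨c, hc.symm⟩
  have hmem : x'' ω ∈ A' := by rw [htop]; exact Algebra.mem_top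
  have hmap : A'.map A''.val ≤
      Algebra.adjoin 𝒪 (Set.range fun s : Sg => x s - algebraMap 𝒪 A (F.base s)) := by
    rw [AlgHom.map_adjoin]
    refine Algebra.adjoin_mono ?_
    rintro _ ⟨_, ⟨s, rfl⟩, rfl⟩
    exact ⟨s, rfl⟩
  exact hmap ⟨x'' ω, hmem, rfl⟩


/-- Rigidity: two points with the same `Sg`-coordinates are equal. -/
theorem rigidity (hSg : Separates F Sg) (A : Type) [CommRing A] [IsLocalRing A]
    [Algebra 𝒪 A] (hA : IsArtinianTestAlgebra 𝒪 A) (x y : Ω → A) (hx : F.N A x) (hy : F.N A y)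
    (h : ∀ s ∈ Sg, x s = y s) : x = y := by
  classical
  haveI : Finite A := finite_of_isArtinianTestAlgebra hA
  let I : Ideal A := Ideal.span (Set.range fun ω => x ω - y ω)
  have hI : I ≤ maximalIdeal A := by
    rw [Ideal.span_le]
    rintro _ ⟨ω, rfl⟩
    have := (maximalIdeal A).sub_mem (F.lift A hA x hx ω) (F.lift A hA y hy ω)
    simpa using this
  have hItop : I ≠ ⊤ := fun h =>
    (maximalIdeal.isMaximal A).ne_top (top_le_iff.mp (h ▸ hI))
  haveI : IsLocalRing (A ⧸ I) := isLocalRing_quotient hItop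
  haveI : Finite (A ⧸ I) := Finite.of_surjective _ Ideal.Quotient.mk_surjective
  have hC : IsArtinianTestAlgebra 𝒪 (A ⧸ I) :=
    isArtinianTestAlgebra_quotient hA.isLocalHom hA.residue_surjective hItop
  let f : A →ₐ[𝒪] A ⧸ I := Ideal.Quotient.mkₐ 𝒪 I
  let P : Subalgebra 𝒪 (A × A) :=
    AlgHom.equalizer (f.comp (AlgHom.fst 𝒪 A A)) (f.comp (AlgHom.snd 𝒪 A A))
  have hPmem : ∀ e : A × A, e ∈ P ↔ e.1 - e.2 ∈ I := by
    intro e
    rw [AlgHom.mem_equalizer]
    show Ideal.Quotient.mk I e.1 = Ideal.Quotient.mk I e.2 ↔ _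
    rw [Ideal.Quotient.eq]
  have hPunit : ∀ e : A × A, e ∈ P → IsUnit ((RingHom.fst A A) e) → IsUnit e := by
    intro e he hu
    rw [Prod.isUnit_iff]
    refine ⟨hu, ?_⟩
    by_contra h2
    have h3 : e.2 ∈ maximalIdeal A := (mem_maximalIdeal _).mpr h2
    have h4 : e.1 ∈ maximalIdeal A := by
      have := (maximalIdeal A).add_mem (hI ((hPmem e).mp he)) h3
      simpa using this
    exact ((mem_maximalIdeal _).mp h4) hu
  haveI : IsLocalRing P := isLocalRing_subalgebra P (RingHom.fst A A) hPunit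
  have hP : IsArtinianTestAlgebra 𝒪 P :=
    isArtinianTestAlgebra_subalgebra P (AlgHom.fst 𝒪 A A) hPunit hA
  let z : Ω → P := fun ω => ⟨(x ω, y ω), (hPmem _).mpr (Ideal.subset_span ⟨ω, rfl⟩)⟩
  have hz : F.N P z := by
    refine F.fib A A (A ⧸ I) P hA hA hC hP f f ((AlgHom.fst 𝒪 A A).comp P.val)
      ((AlgHom.snd 𝒪 A A).comp P.val) ?_ ?_ ?_ z hx hy
    · ext e
      exact e.2
    · intro e e' hee
      apply Subtype.ext
      exact hee
    · intro a b hab
      refine ⟨⟨(a, b), ?_⟩, rfl, rfl⟩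
      rw [AlgHom.mem_equalizer]
      exact hab
  have hgen := generation hSg P hP z hz
  let Δ : Subalgebra 𝒪 P :=
    AlgHom.equalizer ((AlgHom.fst 𝒪 A A).comp P.val) ((AlgHom.snd 𝒪 A A).comp P.val)
  have hle : Algebra.adjoin 𝒪 (Set.range fun s : Sg => z s - algebraMap 𝒪 P (F.base s)) ≤ Δ := by
    refine Algebra.adjoin_le ?_
    rintro _ ⟨s, rfl⟩
    rw [SetLike.mem_coe, AlgHom.mem_equalizer]
    show (x s - algebraMap 𝒪 A (F.base s)) = (y s - algebraMap 𝒪 A (F.base s))
    rw [h s s.2]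
  funext ω
  have := hle (hgen ω)
  rw [AlgHom.mem_equalizer] at this
  exact this

end gen

end Fermat.Agent.S53
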