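import Fermat.Agent.S53.ProRepGen

/-!
# S53: good ideals of the power series ring
-/

set_option autoImplicit false
set_option linter.unusedSectionVars false
set_option linter.style.haveILetI false

namespace Fermat.Agent.S53

open IsLocalRing GaloisRep

variable {𝒪 : Type} [CommRing 𝒪] [IsLocalRing 𝒪] [IsNoetherianRing 𝒪]
  [Finite (ResidueField 𝒪)] {Ω : Type} (F : LiftFunctor 𝒪 Ω) (Sg : Finset Ω)

/-- The power series ring in the separating coordinates. -/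
abbrev PS (𝒪 : Type) [CommRing 𝒪] {Ω : Type} (Sg : Finset Ω) : Type :=
  MvPowerSeries {ω // ω ∈ Sg} 𝒪

/-- The universal `Sg`-coordinate. -/
noncomputable def gen (s : {ω // ω ∈ Sg}) : PS 𝒪 Sg :=
  MvPowerSeries.X s + MvPowerSeries.C (F.base s)

/-- `F.N` on a quotient of the power series ring by a proper ideal. -/
def NQ (J : Ideal (PS 𝒪 Sg)) (hJ : J ≠ ⊤) (x : Ω → PS 𝒪 Sg ⧸ J) : Prop :=
  @LiftFunctor.N 𝒪 _ _ Ω F (PS 𝒪 Sg ⧸ J) _ (isLocalRing_quotient hJ) _ x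

/-- Good ideals: proper ideals of finite index carrying a point with universal coordinates. -/
structure IsGood (J : Ideal (PS 𝒪 Sg)) : Prop where
  ne_top : J ≠ ⊤
  finite : Finite (PS 𝒪 Sg ⧸ J)
  exists_point : ∃ x : Ω → PS 𝒪 Sg ⧸ J, NQ F Sg J ne_top x ∧
    ∀ s : {ω // ω ∈ Sg}, x s = Ideal.Quotient.mk J (gen F Sg s)

variable {F Sg}

theorem isArtinianTestAlgebra_PS_quotient {J : Ideal (PS 𝒪 Sg)} (hJ : J ≠ ⊤)
    [IsLocalRing (PS 𝒪 Sg ⧸ J)] [Finite (PS 𝒪 Sg ⧸ J)] :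
    IsArtinianTestAlgebra 𝒪 (PS 𝒪 Sg ⧸ J) :=
  isArtinianTestAlgebra_quotient mvps_isLocalHom mvps_residue_surjective hJ

theorem finite_PS_quotient_iff {J : Ideal (PS 𝒪 Sg)} :
    Finite (PS 𝒪 Sg ⧸ J) ↔ ∃ n, maximalIdeal (PS 𝒪 Sg) ^ n ≤ J := by
  haveI : Finite (ResidueField (PS 𝒪 Sg)) := mvps_finite_residueField
  exact finite_quotient_iff

/-- PUSH: good ideals are upward closed among proper ideals. -/
theorem IsGood.mono {J J' : Ideal (PS 𝒪 Sg)} (hJ : IsGood F Sg J) (hle : J ≤ J')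
    (hJ' : J' ≠ ⊤) : IsGood F Sg J' := by
  haveI := hJ.finite
  haveI : IsLocalRing (PS 𝒪 Sg ⧸ J) := isLocalRing_quotient hJ.ne_top
  haveI : IsLocalRing (PS 𝒪 Sg ⧸ J') := isLocalRing_quotient hJ'
  haveI : Finite (PS 𝒪 Sg ⧸ J') :=
    Finite.of_surjective _ (Ideal.Quotient.factor_surjective hle)
  obtain ⟨x, hx, hxs⟩ := hJ.exists_point
  refine ⟨hJ', inferInstance, fun ω => Ideal.Quotient.factorₐ 𝒪 hle (x ω), ?_, ?_⟩
  · exact F.push _ _ (isArtinianTestAlgebra_PS_quotient hJ.ne_top)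
      (isArtinianTestAlgebra_PS_quotient hJ') (Ideal.Quotient.factorₐ 𝒪 hle) x hx
  · intro s
    show (Ideal.Quotient.factorₐ 𝒪 hle) (x s) = _
    rw [hxs s]
    rfl

/-- Uniqueness of the point on a good ideal. -/
theorem IsGood.point_unique (hSg : Separates F Sg) {J : Ideal (PS 𝒪 Sg)} (hJ : IsGood F Sg J)
    (x y : Ω → PS 𝒪 Sg ⧸ J) (hx : NQ F Sg J hJ.ne_top x) (hy : NQ F Sg J hJ.ne_top y)
    (hxs : ∀ s : {ω // ω ∈ Sg}, x s = Ideal.Quotient.mk J (gen F Sg s))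
    (hys : ∀ s : {ω // ω ∈ Sg}, y s = Ideal.Quotient.mk J (gen F Sg s)) : x = y := by
  haveI := hJ.finite
  haveI : IsLocalRing (PS 𝒪 Sg ⧸ J) := isLocalRing_quotient hJ.ne_top
  refine rigidity hSg _ (isArtinianTestAlgebra_PS_quotient hJ.ne_top) x y hx hy ?_
  intro s hs
  rw [hxs ⟨s, hs⟩, hys ⟨s, hs⟩]

/-- INT: good ideals are closed under binary intersection. -/
theorem IsGood.inf (hSg : Separates F Sg) {J₁ J₂ : Ideal (PS 𝒪 Sg)} (h₁ : IsGood F Sg J₁)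
    (h₂ : IsGood F Sg J₂) : IsGood F Sg (J₁ ⊓ J₂) := by
  classical
  have hs : J₁ ⊔ J₂ ≠ ⊤ := by
    intro h
    have := sup_le (le_maximalIdeal h₁.ne_top) (le_maximalIdeal h₂.ne_top)
    rw [h] at this
    exact (maximalIdeal.isMaximal _).ne_top (top_le_iff.mp this)
  have hi : J₁ ⊓ J₂ ≠ ⊤ := fun h => h₁.ne_top (top_le_iff.mp (h ▸ inf_le_left))
  haveI := h₁.finite
  haveI := h₂.finite
  haveI : IsLocalRing (PS 𝒪 Sg ⧸ J₁) := isLocalRing_quotient h₁.ne_top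
  haveI : IsLocalRing (PS 𝒪 Sg ⧸ J₂) := isLocalRing_quotient h₂.ne_top
  haveI : IsLocalRing (PS 𝒪 Sg ⧸ (J₁ ⊔ J₂)) := isLocalRing_quotient hs
  haveI : IsLocalRing (PS 𝒪 Sg ⧸ (J₁ ⊓ J₂)) := isLocalRing_quotient hi
  haveI : Finite (PS 𝒪 Sg ⧸ (J₁ ⊔ J₂)) :=
    Finite.of_surjective _ (Ideal.Quotient.factor_surjective (le_sup_left : J₁ ≤ J₁ ⊔ J₂))
  haveI : Finite (PS 𝒪 Sg ⧸ (J₁ ⊓ J₂)) := by
    obtain ⟨n₁, hn₁⟩ := finite_PS_quotient_iff.mp h₁.finite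
    obtain ⟨n₂, hn₂⟩ := finite_PS_quotient_iff.mp h₂.finite
    refine finite_PS_quotient_iff.mpr ⟨max n₁ n₂, le_inf ?_ ?_⟩
    · exact (Ideal.pow_le_pow_right (le_max_left _ _)).trans hn₁
    · exact (Ideal.pow_le_pow_right (le_max_right _ _)).trans hn₂
  have hA := isArtinianTestAlgebra_PS_quotient (𝒪 := 𝒪) h₁.ne_top
  have hB := isArtinianTestAlgebra_PS_quotient (𝒪 := 𝒪) h₂.ne_top
  have hC := isArtinianTestAlgebra_PS_quotient (𝒪 := 𝒪) hs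
  have hP := isArtinianTestAlgebra_PS_quotient (𝒪 := 𝒪) hi
  obtain ⟨x₁, hx₁, hxs₁⟩ := h₁.exists_point
  obtain ⟨x₂, hx₂, hxs₂⟩ := h₂.exists_point
  let f : PS 𝒪 Sg ⧸ J₁ →ₐ[𝒪] PS 𝒪 Sg ⧸ (J₁ ⊔ J₂) := Ideal.Quotient.factorₐ 𝒪 le_sup_left
  let g : PS 𝒪 Sg ⧸ J₂ →ₐ[𝒪] PS 𝒪 Sg ⧸ (J₁ ⊔ J₂) := Ideal.Quotient.factorₐ 𝒪 le_sup_right
  let pA : PS 𝒪 Sg ⧸ (J₁ ⊓ J₂) →ₐ[𝒪] PS 𝒪 Sg ⧸ J₁ := Ideal.Quotient.factorₐ 𝒪 inf_le_left
  let pB : PS 𝒪 Sg ⧸ (J₁ ⊓ J₂) →ₐ[𝒪] PS 𝒪 Sg ⧸ J₂ := Ideal.Quotient.factorₐ 𝒪 inf_le_right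
  have hrig : (fun ω => f (x₁ ω)) = fun ω => g (x₂ ω) := by
    refine rigidity hSg _ hC _ _ (F.push _ _ hA hC f x₁ hx₁) (F.push _ _ hB hC g x₂ hx₂) ?_
    intro s hs'
    rw [hxs₁ ⟨s, hs'⟩, hxs₂ ⟨s, hs'⟩]
    rfl
  have hfib : ∀ a b, f a = g b → ∃ p, pA p = a ∧ pB p = b := by
    intro a b hab
    obtain ⟨s₁, rfl⟩ := Ideal.Quotient.mk_surjective a
    obtain ⟨s₂, rfl⟩ := Ideal.Quotient.mk_surjective b
    have h1 : Ideal.Quotient.mk (J₁ ⊔ J₂) s₁ = Ideal.Quotient.mk (J₁ ⊔ J₂) s₂ := hab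
    rw [Ideal.Quotient.eq] at h1
    obtain ⟨j₁, hj₁, j₂, hj₂, hj⟩ := Submodule.mem_sup.mp h1
    refine ⟨Ideal.Quotient.mk _ (s₁ - j₁), ?_, ?_⟩
    · show Ideal.Quotient.mk J₁ (s₁ - j₁) = Ideal.Quotient.mk J₁ s₁
      rw [Ideal.Quotient.eq]
      simpa using J₁.neg_mem hj₁
    · show Ideal.Quotient.mk J₂ (s₁ - j₁) = Ideal.Quotient.mk J₂ s₂
      rw [Ideal.Quotient.eq]
      have : s₁ - j₁ - s₂ = j₂ := by
        have h2 : s₁ - j₁ - s₂ = (s₁ - s₂) - j₁ := by ring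
        rw [h2, ← hj]; ring
      rw [this]; exact hj₂
  have hinj : Function.Injective (fun p => (pA p, pB p)) := by
    intro p p' hpp
    obtain ⟨s, rfl⟩ := Ideal.Quotient.mk_surjective p
    obtain ⟨s', rfl⟩ := Ideal.Quotient.mk_surjective p'
    have h1 : Ideal.Quotient.mk J₁ s = Ideal.Quotient.mk J₁ s' := congrArg Prod.fst hpp
    have h2 : Ideal.Quotient.mk J₂ s = Ideal.Quotient.mk J₂ s' := congrArg Prod.snd hpp
    rw [Ideal.Quotient.eq] at h1 h2 ⊢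
    exact ⟨h1, h2⟩
  have hcomp : f.comp pA = g.comp pB := by
    apply AlgHom.ext
    intro p
    obtain ⟨s, rfl⟩ := Ideal.Quotient.mk_surjective p
    rfl
  let xP : Ω → PS 𝒪 Sg ⧸ (J₁ ⊓ J₂) := fun ω => (hfib _ _ (congrFun hrig ω)).choose
  have hxP₁ : ∀ ω, pA (xP ω) = x₁ ω := fun ω => (hfib _ _ (congrFun hrig ω)).choose_spec.1
  have hxP₂ : ∀ ω, pB (xP ω) = x₂ ω := fun ω => (hfib _ _ (congrFun hrig ω)).choose_spec.2
  refine ⟨hi, inferInstance, xP, ?_, ?_⟩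
  · refine F.fib _ _ _ _ hA hB hC hP f g pA pB hcomp hinj hfib xP ?_ ?_
    · rw [show (fun ω => pA (xP ω)) = x₁ from funext hxP₁]; exact hx₁
    · rw [show (fun ω => pB (xP ω)) = x₂ from funext hxP₂]; exact hx₂
  · intro s
    apply hinj
    show (pA (xP s), pB (xP s)) = (pA (Ideal.Quotient.mk _ (gen F Sg s)),
      pB (Ideal.Quotient.mk _ (gen F Sg s)))
    rw [hxP₁, hxP₂, hxs₁, hxs₂]
    rfl


/-- The maximal ideal is good. -/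
theorem isGood_maximalIdeal : IsGood F Sg (maximalIdeal (PS 𝒪 Sg)) := by
  have hne : maximalIdeal (PS 𝒪 Sg) ≠ ⊤ := (maximalIdeal.isMaximal _).ne_top
  haveI : IsLocalRing (PS 𝒪 Sg ⧸ maximalIdeal (PS 𝒪 Sg)) := isLocalRing_quotient hne
  haveI : Finite (PS 𝒪 Sg ⧸ maximalIdeal (PS 𝒪 Sg)) :=
    finite_PS_quotient_iff.mpr ⟨1, by rw [pow_one]⟩
  have hT := isArtinianTestAlgebra_PS_quotient (𝒪 := 𝒪) hne
  have hker : ∀ a : 𝒪, a ∈ maximalIdeal 𝒪 →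
      (Algebra.ofId 𝒪 (PS 𝒪 Sg ⧸ maximalIdeal (PS 𝒪 Sg))) a = 0 := by
    intro a ha
    show Ideal.Quotient.mk _ (algebraMap 𝒪 (PS 𝒪 Sg) a) = 0
    rw [Ideal.Quotient.eq_zero_iff_mem, mvps_mem_maximalIdeal_iff, mvps_algebraMap_eq,
      MvPowerSeries.constantCoeff_C]
    exact ha
  let κ : ResidueField 𝒪 →ₐ[𝒪] PS 𝒪 Sg ⧸ maximalIdeal (PS 𝒪 Sg) :=
    Ideal.Quotient.liftₐ (maximalIdeal 𝒪) (Algebra.ofId 𝒪 _) hker
  refine ⟨hne, inferInstance, fun ω => κ (residue 𝒪 (F.base ω)), ?_, ?_⟩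
  · exact F.push _ _ (isArtinianTestAlgebra_residueField 𝒪) hT κ _ F.res
  · intro s
    show Ideal.Quotient.mk _ (algebraMap 𝒪 (PS 𝒪 Sg) (F.base s)) = _
    rw [Ideal.Quotient.eq, gen, mvps_algebraMap_eq]
    have : MvPowerSeries.C (F.base ↑s) - (MvPowerSeries.X s + MvPowerSeries.C (F.base ↑s)) =
        -(MvPowerSeries.X s : PS 𝒪 Sg) := by ring
    rw [this]
    exact neg_mem (mvps_X_mem_maximalIdeal s)

variable (F Sg)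

/-- The least good ideal containing the `n`-th power of the maximal ideal. -/
noncomputable def Kn (n : ℕ) : Ideal (PS 𝒪 Sg) :=
  sInf {J | IsGood F Sg J ∧ maximalIdeal (PS 𝒪 Sg) ^ n ≤ J}

variable {F Sg}

theorem pow_le_Kn (n : ℕ) : maximalIdeal (PS 𝒪 Sg) ^ n ≤ Kn F Sg n :=
  le_sInf fun _ hJ => hJ.2

theorem Kn_le_of_isGood {J : Ideal (PS 𝒪 Sg)} (hJ : IsGood F Sg J) {n : ℕ}
    (hn : maximalIdeal (PS 𝒪 Sg) ^ n ≤ J) : Kn F Sg n ≤ J :=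
  sInf_le ⟨hJ, hn⟩

theorem Kn_anti (n : ℕ) : Kn F Sg (n + 1) ≤ Kn F Sg n :=
  sInf_le_sInf fun _ hJ => ⟨hJ.1, (Ideal.pow_le_pow_right (Nat.le_succ n)).trans hJ.2⟩

theorem Kn_anti' {m n : ℕ} (h : m ≤ n) : Kn F Sg n ≤ Kn F Sg m :=
  sInf_le_sInf fun _ hJ => ⟨hJ.1, (Ideal.pow_le_pow_right h).trans hJ.2⟩

theorem finite_ideals_above (n : ℕ) :
    {J : Ideal (PS 𝒪 Sg) | maximalIdeal (PS 𝒪 Sg) ^ n ≤ J}.Finite := by
  haveI : Finite (PS 𝒪 Sg ⧸ maximalIdeal (PS 𝒪 Sg) ^ n) :=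
    finite_PS_quotient_iff.mpr ⟨n, le_rfl⟩
  refine Set.Finite.of_finite_image (f := Ideal.map (Ideal.Quotient.mk (maximalIdeal (PS 𝒪 Sg) ^ n)))
    (Set.toFinite _) ?_
  intro J hJ J' hJ' h
  have h1 := congrArg (Ideal.comap (Ideal.Quotient.mk (maximalIdeal (PS 𝒪 Sg) ^ n))) h
  rw [Ideal.comap_map_of_surjective _ Ideal.Quotient.mk_surjective,
    Ideal.comap_map_of_surjective _ Ideal.Quotient.mk_surjective, ← RingHom.ker_eq_comap_bot,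
    Ideal.mk_ker, sup_of_le_left hJ, sup_of_le_left hJ'] at h1
  exact h1

/-- MIN: `Kn n` is itself good for `n ≥ 1`. -/
theorem isGood_Kn (hSg : Separates F Sg) {n : ℕ} (hn : 1 ≤ n) : IsGood F Sg (Kn F Sg n) := by
  have hfin : {J | IsGood F Sg J ∧ maximalIdeal (PS 𝒪 Sg) ^ n ≤ J}.Finite :=
    (finite_ideals_above n).subset fun J hJ => hJ.2
  have hne : {J | IsGood F Sg J ∧ maximalIdeal (PS 𝒪 Sg) ^ n ≤ J}.Nonempty :=
    ⟨maximalIdeal (PS 𝒪 Sg), isGood_maximalIdeal, by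
      calc maximalIdeal (PS 𝒪 Sg) ^ n ≤ maximalIdeal (PS 𝒪 Sg) ^ 1 := Ideal.pow_le_pow_right hn
        _ = maximalIdeal (PS 𝒪 Sg) := pow_one _⟩
  obtain ⟨J₀, hJ₀⟩ := hfin.exists_minimal hne
  have hleast : ∀ J, IsGood F Sg J ∧ maximalIdeal (PS 𝒪 Sg) ^ n ≤ J → J₀ ≤ J := by
    intro J hJ
    have h1 : IsGood F Sg (J₀ ⊓ J) ∧ maximalIdeal (PS 𝒪 Sg) ^ n ≤ J₀ ⊓ J :=
      ⟨hJ₀.prop.1.inf hSg hJ.1, le_inf hJ₀.prop.2 hJ.2⟩
    exact (hJ₀.le_of_le h1 inf_le_left).trans inf_le_right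
  have : Kn F Sg n = J₀ := le_antisymm (sInf_le hJ₀.prop) (le_sInf hleast)
  rw [this]
  exact hJ₀.prop.1

theorem Kn_le_maximalIdeal {n : ℕ} (hn : 1 ≤ n) : Kn F Sg n ≤ maximalIdeal (PS 𝒪 Sg) :=
  Kn_le_of_isGood isGood_maximalIdeal (by
    calc maximalIdeal (PS 𝒪 Sg) ^ n ≤ maximalIdeal (PS 𝒪 Sg) ^ 1 := Ideal.pow_le_pow_right hn
      _ = maximalIdeal (PS 𝒪 Sg) := pow_one _)

/-- STEP. -/
theorem Kn_step (hSg : Separates F Sg) (n : ℕ) :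
    Kn F Sg n ≤ Kn F Sg (n + 1) ⊔ maximalIdeal (PS 𝒪 Sg) ^ n := by
  rcases Nat.eq_zero_or_pos n with rfl | hn
  · rw [pow_zero, Ideal.one_eq_top, sup_top_eq]; exact le_top
  · refine Kn_le_of_isGood ((isGood_Kn hSg (Nat.succ_le_succ (Nat.zero_le n))).mono
      le_sup_left ?_) le_sup_right
    intro h
    have h1 : Kn F Sg (n + 1) ⊔ maximalIdeal (PS 𝒪 Sg) ^ n ≤ maximalIdeal (PS 𝒪 Sg) :=
      sup_le (Kn_le_maximalIdeal (Nat.succ_le_succ (Nat.zero_le n)))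
        (by
          calc maximalIdeal (PS 𝒪 Sg) ^ n ≤ maximalIdeal (PS 𝒪 Sg) ^ 1 :=
                Ideal.pow_le_pow_right hn
            _ = maximalIdeal (PS 𝒪 Sg) := pow_one _)
    rw [h] at h1
    exact (maximalIdeal.isMaximal _).ne_top (top_le_iff.mp h1)

end Fermat.Agent.S53
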