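import Mathlib

/-!
# S53 helper: compactness-type lemmas for adically complete rings with finite quotients

`P` is a commutative ring, `I` an ideal with `P` being `I`-adically complete and all
quotients `P ⧸ I ^ n` finite.  For an antitone sequence `J : ℕ → Ideal P` of open ideals
(each containing some power of `I`) we prove

* `chevalley` : for every `n` there is `j` with `J j ≤ (⨅ i, J i) ⊔ I ^ n`;
* `exists_limit_point` : a compatible sequence of elements `p j` (`p j - p i ∈ J i` for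
  `i ≤ j`) has a limit point `q` with `q - p j ∈ J j` for all `j`;
* `exists_cofinal_chain` : a nonempty family of open ideals closed under `⊓` has a countable
  cofinal antitone chain.
-/

set_option autoImplicit false
set_option linter.style.haveILetI false

namespace Fermat.Agent.S53.helper66

open Ideal

variable {P : Type*} [CommRing P] (I : Ideal P)

/-- An antitone sequence of ideals all containing a fixed ideal `A` with finite quotient
stabilises. -/
theorem antitone_stabilizes_of_finite_quotient (A : Ideal P) [Finite (P ⧸ A)]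
    (B : ℕ → Ideal P) (hB : Antitone B) (hA : ∀ j, A ≤ B j) :
    ∃ j₀, ∀ j, j₀ ≤ j → B j = B j₀ := by
  have : IsArtinianRing (P ⧸ A) := inferInstance
  let f : ℕ →o (Submodule (P ⧸ A) (P ⧸ A))ᵒᵈ :=
    ⟨fun j => OrderDual.toDual ((B j).map (Ideal.Quotient.mk A)),
      fun i j hij => Ideal.map_mono (hB hij)⟩
  obtain ⟨j₀, hj₀⟩ := IsArtinian.monotone_stabilizes f
  refine ⟨j₀, fun j hj => ?_⟩
  have h1 : (B j).map (Ideal.Quotient.mk A) = (B j₀).map (Ideal.Quotient.mk A) :=
    (congrArg OrderDual.ofDual (hj₀ j hj)).symm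
  have h2 : ∀ i, ((B i).map (Ideal.Quotient.mk A)).comap (Ideal.Quotient.mk A) = B i := by
    intro i
    rw [Ideal.comap_map_of_surjective _ Ideal.Quotient.mk_surjective, ← RingHom.ker_eq_comap_bot,
      Ideal.mk_ker]
    exact sup_eq_left.mpr (hA i)
  rw [← h2 j, h1, h2 j₀]

section chain

variable {I}
variable (hfin : ∀ n, Finite (P ⧸ I ^ n)) (J : ℕ → Ideal P) (hJ : Antitone J)

include hfin hJ in
/-- For each `n`, the sequence `J j ⊔ I ^ n` is eventually constant. -/
theorem exists_stable (n : ℕ) : ∃ j₀, ∀ j, j₀ ≤ j → J j ⊔ I ^ n = J j₀ ⊔ I ^ n := by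
  haveI := hfin n
  exact antitone_stabilizes_of_finite_quotient (I ^ n) (fun j => J j ⊔ I ^ n)
    (fun i j hij => sup_le_sup_right (hJ hij) _) (fun j => le_sup_right)

/-- The stable value of `J j ⊔ I ^ n`. -/
def stab (I : Ideal P) (J : ℕ → Ideal P) (n : ℕ) : Ideal P := ⨅ j, J j ⊔ I ^ n

include hfin hJ in
theorem exists_stab_eq (n : ℕ) : ∃ j₀, ∀ j, j₀ ≤ j → J j ⊔ I ^ n = stab I J n := by
  obtain ⟨j₀, hj₀⟩ := exists_stable hfin J hJ n
  refine ⟨j₀, fun j hj => le_antisymm ?_ (iInf_le _ j)⟩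
  refine le_iInf fun i => ?_
  rcases le_total i j with h | h
  · exact sup_le_sup_right (hJ h) _
  · rw [hj₀ j hj, ← hj₀ i (hj.trans h)]

theorem pow_le_stab (n : ℕ) : I ^ n ≤ stab I J n := le_iInf fun _ => le_sup_right

theorem stab_le (n j : ℕ) : stab I J n ≤ J j ⊔ I ^ n := iInf_le _ j

theorem stab_antitone : Antitone (stab I J) := fun _ _ hmn =>
  iInf_mono fun _ => sup_le_sup_left (Ideal.pow_le_pow_right hmn) _

include hfin hJ in
theorem stab_le_succ_sup (n : ℕ) : stab I J n ≤ stab I J (n + 1) ⊔ I ^ n := by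
  obtain ⟨j₁, h₁⟩ := exists_stab_eq hfin J hJ n
  obtain ⟨j₂, h₂⟩ := exists_stab_eq hfin J hJ (n + 1)
  rw [← h₁ (max j₁ j₂) (le_max_left _ _), ← h₂ (max j₁ j₂) (le_max_right _ _)]
  exact sup_le (le_sup_of_le_left le_sup_left) le_sup_right

theorem iInf_stab_le (hopen : ∀ j, ∃ n, I ^ n ≤ J j) : ⨅ n, stab I J n ≤ ⨅ j, J j := by
  refine le_iInf fun j => ?_
  obtain ⟨n, hn⟩ := hopen j
  exact (iInf_le _ n).trans ((stab_le J n j).trans (sup_le le_rfl hn))

include hfin hJ in
/-- Key approximation: every element of the stable ideal `stab I J n` is congruent modulo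
`I ^ n` to an element of `⨅ j, J j`. -/
theorem exists_mem_iInf_sub_mem [IsAdicComplete I P] (hopen : ∀ j, ∃ n, I ^ n ≤ J j)
    (n : ℕ) (x : P) (hx : x ∈ stab I J n) :
    ∃ y ∈ ⨅ j, J j, x - y ∈ I ^ n := by
  -- successive approximation
  have step : ∀ k : ℕ, ∀ a : {a : P // a ∈ stab I J (n + k)},
      ∃ b : {b : P // b ∈ stab I J (n + (k + 1))}, (b : P) - a ∈ I ^ (n + k) := by
    intro k a
    have := stab_le_succ_sup hfin J hJ (n + k) a.2
    obtain ⟨b, hb, c, hc, hbc⟩ := Submodule.mem_sup.mp this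
    refine ⟨⟨b, hb⟩, ?_⟩
    have : (b : P) - a = -c := by rw [← hbc]; ring
    simpa [this] using hc
  let z : ∀ k : ℕ, {a : P // a ∈ stab I J (n + k)} := fun k =>
    Nat.rec (motive := fun k => {a : P // a ∈ stab I J (n + k)}) ⟨x, hx⟩
      (fun k a => Classical.choose (step k a)) k
  have hz0 : (z 0 : P) = x := rfl
  have hzs : ∀ k, ((z (k + 1) : P)) - z k ∈ I ^ (n + k) := fun k =>
    Classical.choose_spec (step k (z k))
  -- differences
  have hdiff : ∀ k m, k ≤ m → ((z m : P)) - z k ∈ I ^ (n + k) := by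
    intro k m hkm
    induction m, hkm using Nat.le_induction with
    | base => simp
    | succ m hkm ih =>
      have h1 := hzs m
      have h2 : I ^ (n + m) ≤ I ^ (n + k) := Ideal.pow_le_pow_right (by omega)
      have : ((z (m + 1) : P)) - z k = ((z (m + 1) : P) - z m) + ((z m : P) - z k) := by ring
      rw [this]
      exact Ideal.add_mem _ (h2 h1) ih
  -- Cauchy
  have hcauchy : ∀ {k m}, k ≤ m →
      (z k : P) ≡ (z m : P) [SMOD (I ^ k • ⊤ : Submodule P P)] := by
    intro k m hkm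
    rw [SModEq.sub_mem, smul_eq_mul, Ideal.mul_top]
    have h := hdiff k m hkm
    have h2 : I ^ (n + k) ≤ I ^ k := Ideal.pow_le_pow_right (by omega)
    have : (z k : P) - z m = -((z m : P) - z k) := by ring
    rw [this]
    exact (Ideal.neg_mem_iff _).mpr (h2 h)
  obtain ⟨y, hy⟩ := IsPrecomplete.prec (I := I) inferInstance hcauchy
  have hy' : ∀ k, (z k : P) - y ∈ I ^ k := by
    intro k
    have := hy k
    rwa [SModEq.sub_mem, smul_eq_mul, Ideal.mul_top] at this
  refine ⟨y, ?_, ?_⟩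
  · apply iInf_stab_le J hopen
    rw [Submodule.mem_iInf]
    intro k
    have h1 : (z k : P) ∈ stab I J k := stab_antitone J (by omega : k ≤ n + k) (z k).2
    have h2 : (z k : P) - y ∈ stab I J k := pow_le_stab J k (hy' k)
    have : y = (z k : P) - ((z k : P) - y) := by ring
    rw [this]
    exact Ideal.sub_mem _ h1 h2
  · have h1 : (z n : P) - y ∈ I ^ n := hy' n
    have h2 : (z n : P) - z 0 ∈ I ^ n := by
      have := hdiff 0 n (Nat.zero_le _)
      simpa using this
    have : x - y = ((z n : P) - y) - ((z n : P) - z 0) := by rw [hz0]; ring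
    rw [this]
    exact Ideal.sub_mem _ h1 h2

include hfin hJ in
/-- **Chevalley's lemma** for an antitone sequence of open ideals. -/
theorem chevalley [IsAdicComplete I P] (hopen : ∀ j, ∃ n, I ^ n ≤ J j) (n : ℕ) :
    ∃ j, J j ≤ (⨅ i, J i) ⊔ I ^ n := by
  obtain ⟨j₀, hj₀⟩ := exists_stab_eq hfin J hJ n
  refine ⟨j₀, fun x hx => ?_⟩
  have hx' : x ∈ stab I J n := by
    rw [← hj₀ j₀ le_rfl]; exact Ideal.mem_sup_left hx
  obtain ⟨y, hy, hxy⟩ := exists_mem_iInf_sub_mem hfin J hJ hopen n x hx'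
  have : x = y + (x - y) := by ring
  rw [this]
  exact Submodule.add_mem_sup hy hxy

end chain

section K1
variable {I : Ideal P}
variable (hfin : ∀ n, Finite (P ⧸ I ^ n)) (J : ℕ → Ideal P) (hJ : Antitone J)

include hfin hJ in
/-- A compatible sequence of elements modulo an antitone sequence of open ideals has a
limit point. -/
theorem exists_limit_point [IsAdicComplete I P] (hopen : ∀ j, ∃ n, I ^ n ≤ J j)
    (p : ℕ → P) (hp : ∀ i j, i ≤ j → p j - p i ∈ J i) :
    ∃ q : P, ∀ j, q - p j ∈ J j := by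
  -- indices from Chevalley, made monotone and `≥ n`
  have hc := chevalley hfin J hJ hopen
  choose c hcspec using hc
  let t : ℕ → ℕ := fun n => Nat.rec (max 0 (c 0)) (fun n tn => max (max tn (n + 1)) (c (n + 1))) n
  have ht0 : t 0 = max 0 (c 0) := rfl
  have hts : ∀ n, t (n + 1) = max (max (t n) (n + 1)) (c (n + 1)) := fun n => rfl
  have htc : ∀ n, c n ≤ t n := by
    intro n
    cases n with
    | zero => rw [ht0]; exact le_max_right _ _
    | succ n => rw [hts]; exact le_max_right _ _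
  have htn : ∀ n, n ≤ t n := by
    intro n
    cases n with
    | zero => exact Nat.zero_le _
    | succ n => rw [hts]; exact (le_max_right _ _).trans (le_max_left _ _)
  have htmono : ∀ n, t n ≤ t (n + 1) := by
    intro n; rw [hts]; exact (le_max_left _ _).trans (le_max_left _ _)
  have hJt : ∀ n, J (t n) ≤ (⨅ i, J i) ⊔ I ^ n := fun n => (hJ (htc n)).trans (hcspec n)
  -- successive approximation
  have step : ∀ n : ℕ, ∀ a : {a : P // a - p (t n) ∈ ⨅ i, J i},
      ∃ b : {b : P // b - p (t (n + 1)) ∈ ⨅ i, J i}, (b : P) - a ∈ I ^ n := by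
    intro n a
    have h1 : p (t (n + 1)) - p (t n) ∈ (⨅ i, J i) ⊔ I ^ n :=
      hJt n (hp _ _ (htmono n))
    obtain ⟨k, hk, e, he, hke⟩ := Submodule.mem_sup.mp h1
    refine ⟨⟨a + e, ?_⟩, ?_⟩
    · have : (a : P) + e - p (t (n + 1)) = ((a : P) - p (t n)) - k := by
        have : p (t (n + 1)) = p (t n) + (k + e) := by rw [hke]; ring
        rw [this]; ring
      rw [this]
      exact Ideal.sub_mem _ a.2 hk
    · simpa using he
  let z : ∀ n : ℕ, {a : P // a - p (t n) ∈ ⨅ i, J i} := fun n =>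
    Nat.rec (motive := fun n => {a : P // a - p (t n) ∈ ⨅ i, J i}) ⟨p (t 0), by simp⟩
      (fun n a => Classical.choose (step n a)) n
  have hzs : ∀ n, ((z (n + 1)).1 : P) - (z n).1 ∈ I ^ n := fun n =>
    Classical.choose_spec (step n (z n))
  have hdiff : ∀ k m, k ≤ m → (z m).1 - (z k).1 ∈ I ^ k := by
    intro k m hkm
    induction m, hkm using Nat.le_induction with
    | base => simp
    | succ m hkm ih =>
      have h1 := hzs m
      have h2 : I ^ m ≤ I ^ k := Ideal.pow_le_pow_right hkm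
      have : (z (m + 1)).1 - (z k).1 = ((z (m + 1)).1 - (z m).1) + ((z m).1 - (z k).1) := by
        ring
      rw [this]
      exact Ideal.add_mem _ (h2 h1) ih
  have hcauchy : ∀ {k m}, k ≤ m →
      (z k).1 ≡ (z m).1 [SMOD (I ^ k • ⊤ : Submodule P P)] := by
    intro k m hkm
    rw [SModEq.sub_mem, smul_eq_mul, Ideal.mul_top]
    have h := hdiff k m hkm
    have : (z k).1 - (z m).1 = -((z m).1 - (z k).1) := by ring
    rw [this]
    exact (Ideal.neg_mem_iff _).mpr h
  obtain ⟨q, hq⟩ := IsPrecomplete.prec (I := I) inferInstance hcauchy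
  have hq' : ∀ k, (z k).1 - q ∈ I ^ k := by
    intro k
    have := hq k
    rwa [SModEq.sub_mem, smul_eq_mul, Ideal.mul_top] at this
  refine ⟨q, fun j => ?_⟩
  obtain ⟨m, hm⟩ := hopen j
  -- choose n ≥ m, j
  set n := max m j with hn
  have h1 : (z n).1 - q ∈ J j :=
    hm (Ideal.pow_le_pow_right (le_max_left _ _) (hq' n))
  have h2 : (z n).1 - p (t n) ∈ J j := (iInf_le J j : (⨅ i, J i) ≤ J j) (z n).2
  have h3 : p (t n) - p j ∈ J j := hp _ _ ((le_max_right m j).trans (htn n))
  have : q - p j = ((z n).1 - p (t n)) + (p (t n) - p j) - ((z n).1 - q) := by ring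
  rw [this]
  exact Ideal.sub_mem _ (Ideal.add_mem _ h2 h3) h1

end K1

section K3
variable {I : Ideal P}

/-- A finite ring has finitely many ideals. -/
theorem finite_ideal_of_finite (R : Type*) [CommRing R] [Finite R] : Finite (Ideal R) :=
  Finite.of_injective (fun a : Ideal R => (a : Set R)) SetLike.coe_injective

/-- The set of ideals containing a given ideal with finite quotient is finite. -/
theorem finite_setOf_le (A : Ideal P) [Finite (P ⧸ A)] : {a : Ideal P | A ≤ a}.Finite := by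
  haveI := finite_ideal_of_finite (P ⧸ A)
  refine Set.Finite.of_finite_image (f := fun a : Ideal P => a.map (Ideal.Quotient.mk A))
    (Set.toFinite _) ?_
  intro a ha b hb hab
  have h2 : ∀ c : Ideal P, A ≤ c →
      (c.map (Ideal.Quotient.mk A)).comap (Ideal.Quotient.mk A) = c := by
    intro c hc
    rw [Ideal.comap_map_of_surjective _ Ideal.Quotient.mk_surjective, ← RingHom.ker_eq_comap_bot,
      Ideal.mk_ker]
    exact sup_eq_left.mpr hc
  have := congrArg (Ideal.comap (Ideal.Quotient.mk A)) hab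
  simpa only [h2 a ha, h2 b hb] using this

/-- A nonempty family of open ideals closed under `⊓` admits a countable cofinal antitone
chain of members. -/
theorem exists_cofinal_chain (hfin : ∀ n, Finite (P ⧸ I ^ n)) (S : Set (Ideal P))
    (hne : S.Nonempty) (hopen : ∀ a ∈ S, ∃ n, I ^ n ≤ a)
    (hinf : ∀ a ∈ S, ∀ b ∈ S, a ⊓ b ∈ S) :
    ∃ J : ℕ → Ideal P, Antitone J ∧ (∀ j, J j ∈ S) ∧ ∀ a ∈ S, ∃ j, J j ≤ a := by
  obtain ⟨a₀, ha₀⟩ := hne
  have hT : ∀ n, {a : Ideal P | a ∈ S ∧ I ^ n ≤ a}.Finite := fun n => by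
    haveI := hfin n
    exact (finite_setOf_le (I ^ n)).subset fun a ha => ha.2
  refine ⟨fun n => (hT n).toFinset.inf id ⊓ a₀, ?_, ?_, ?_⟩
  · intro m n hmn
    refine inf_le_inf_right _ (Finset.inf_mono ?_)
    intro a ha
    rw [Set.Finite.mem_toFinset] at ha ⊢
    exact ⟨ha.1, (Ideal.pow_le_pow_right hmn).trans ha.2⟩
  · intro n
    refine Finset.inf_induction (p := fun a => a ⊓ a₀ ∈ S) ?_ ?_ ?_
    · simpa using ha₀
    · intro a₁ h₁ a₂ h₂
      have : a₁ ⊓ a₂ ⊓ a₀ = (a₁ ⊓ a₀) ⊓ (a₂ ⊓ a₀) := by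
        rw [inf_inf_distrib_right]
      rw [this]
      exact hinf _ h₁ _ h₂
    · intro b hb
      rw [Set.Finite.mem_toFinset] at hb
      exact hinf _ hb.1 _ ha₀
  · intro a ha
    obtain ⟨n, hn⟩ := hopen a ha
    refine ⟨n, inf_le_left.trans ?_⟩
    have : a ∈ (hT n).toFinset := by
      rw [Set.Finite.mem_toFinset]; exact ⟨ha, hn⟩
    exact Finset.inf_le (f := id) this

end K3

section family
variable {I : Ideal P}

/-- **Chevalley's lemma** for a nonempty family of open ideals closed under `⊓`. -/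
theorem chevalley_family [IsAdicComplete I P] (hfin : ∀ n, Finite (P ⧸ I ^ n))
    (S : Set (Ideal P)) (hne : S.Nonempty) (hopen : ∀ a ∈ S, ∃ n, I ^ n ≤ a)
    (hinf : ∀ a ∈ S, ∀ b ∈ S, a ⊓ b ∈ S) (n : ℕ) :
    ∃ a ∈ S, a ≤ sInf S ⊔ I ^ n := by
  obtain ⟨J, hJ, hJS, hcof⟩ := exists_cofinal_chain hfin S hne hopen hinf
  obtain ⟨j, hj⟩ := chevalley hfin J hJ (fun j => hopen _ (hJS j)) n
  refine ⟨J j, hJS j, hj.trans (sup_le_sup_right ?_ _)⟩
  refine le_sInf fun a ha => ?_
  obtain ⟨i, hi⟩ := hcof a ha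
  exact (iInf_le J i).trans hi

/-- A compatible family of elements modulo a nonempty family of open ideals closed under `⊓`
has a limit point. -/
theorem exists_limit_point_family [IsAdicComplete I P] (hfin : ∀ n, Finite (P ⧸ I ^ n))
    (S : Set (Ideal P)) (hne : S.Nonempty) (hopen : ∀ a ∈ S, ∃ n, I ^ n ≤ a)
    (hinf : ∀ a ∈ S, ∀ b ∈ S, a ⊓ b ∈ S)
    (p : Ideal P → P) (hp : ∀ a ∈ S, ∀ b ∈ S, a ≤ b → p a - p b ∈ b) :
    ∃ q : P, ∀ a ∈ S, q - p a ∈ a := by
  obtain ⟨J, hJ, hJS, hcof⟩ := exists_cofinal_chain hfin S hne hopen hinf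
  obtain ⟨q, hq⟩ := exists_limit_point hfin J hJ (fun j => hopen _ (hJS j))
    (fun j => p (J j)) (fun i j hij => hp _ (hJS j) _ (hJS i) (hJ hij))
  refine ⟨q, fun a ha => ?_⟩
  obtain ⟨j, hj⟩ := hcof a ha
  have h1 : q - p (J j) ∈ a := hj (hq j)
  have h2 : p (J j) - p a ∈ a := hp _ (hJS j) _ ha hj
  have : q - p a = (q - p (J j)) + (p (J j) - p a) := by ring
  rw [this]
  exact Ideal.add_mem _ h1 h2

end family

end Fermat.Agent.S53.helper66
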