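import Fermat.Agent.S53.helper68_WP6

/-!
# S53, work package WP7 (helper68): existence of normalising conjugations (counting)

Over a finite local ring `A`, every lift `R` of the residual family `M` can be conjugated by
some `W ≡ 1` (with `W 0 0 = 1`) so that its three normalising coordinates take prescribed
values `c t` (lifting those of `M`).
-/

set_option autoImplicit false

namespace Fermat.Agent.S53.helper68

open Matrix

section aux

variable {A k : Type} [CommRing A] [IsLocalRing A] [Field k] (π : A →+* k)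

lemma isUnit_of_map_ne_zero (hπ : Function.Surjective π) {x : A} (hx : π x ≠ 0) : IsUnit x := by
  have := IsLocalHom.of_surjective π hπ
  exact isUnit_of_map_unit π x (isUnit_iff_ne_zero.mpr hx)

lemma isUnit_det_of_map_eq_one (hπ : Function.Surjective π) {W : Matrix (Fin 2) (Fin 2) A}
    (hW : W.map π = 1) : IsUnit W.det := by
  apply isUnit_of_map_ne_zero π hπ
  rw [RingHom.map_det, RingHom.mapMatrix_apply, hW, Matrix.det_one]
  exact one_ne_zero

omit [IsLocalRing A] in
lemma map_one_eq : (1 : Matrix (Fin 2) (Fin 2) A).map π = 1 :=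
  Matrix.map_one π (map_zero π) (map_one π)

lemma map_inv_eq_one (hπ : Function.Surjective π) {W : Matrix (Fin 2) (Fin 2) A}
    (hW : W.map π = 1) : (W⁻¹).map π = 1 := by
  have h := Matrix.mul_nonsing_inv W (isUnit_det_of_map_eq_one π hπ hW)
  have h2 := congrArg (fun X : Matrix (Fin 2) (Fin 2) A => X.map π) h
  simp only [Matrix.map_mul, hW, Matrix.one_mul, map_one_eq] at h2
  exact h2

omit [IsLocalRing A] in
lemma map_mul_eq_one {W V : Matrix (Fin 2) (Fin 2) A}
    (hW : W.map π = 1) (hV : V.map π = 1) : (W * V).map π = 1 := by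
  rw [Matrix.map_mul, hW, hV, Matrix.one_mul]

end aux

/-- **WP7.** -/
theorem wp7 {k : Type} [Field k] (M : Fin 3 → Matrix (Fin 2) (Fin 2) k)
    (iN jN : Fin 3 → Fin 2)
    (hker : ∀ X : Matrix (Fin 2) (Fin 2) k,
      (∀ t, (X * M t - M t * X) (iN t) (jN t) = 0) →
        ∃ c : k, X = c • (1 : Matrix (Fin 2) (Fin 2) k))
    {A : Type} [CommRing A] [IsLocalRing A] [Finite A] (π : A →+* k)
    (hπ : Function.Surjective π)
    (R : Fin 3 → Matrix (Fin 2) (Fin 2) A) (hR : ∀ t, (R t).map π = M t)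
    (c : Fin 3 → A) (hc : ∀ t, π (c t) = M t (iN t) (jN t)) :
    ∃ W W' : Matrix (Fin 2) (Fin 2) A, W.map π = 1 ∧ W 0 0 = 1 ∧ W * W' = 1 ∧ W' * W = 1 ∧
      ∀ t, (W * R t * W') (iN t) (jN t) = c t := by
  classical
  -- the kernel of `π`
  set I : Ideal A := RingHom.ker π with hI
  -- the two finite sets
  let 𝒲 := {W : Matrix (Fin 2) (Fin 2) A // W.map π = 1}
  let 𝒞 := {c' : Fin 3 → A // ∀ t, π (c' t) = M t (iN t) (jN t)}
  have : Finite 𝒲 := Subtype.finite
  have : Finite 𝒞 := Subtype.finite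
  have : Finite I := Subtype.finite
  -- cardinalities
  let e𝒲 : 𝒲 ≃ (Fin 2 → Fin 2 → I) :=
    { toFun := fun W i j => ⟨W.1 i j - (1 : Matrix (Fin 2) (Fin 2) A) i j, by
        rw [hI, RingHom.mem_ker, map_sub, sub_eq_zero]
        have h1 := congrFun (congrFun W.2 i) j
        have h2 := congrFun (congrFun (map_one_eq (A := A) π) i) j
        simp only [Matrix.map_apply] at h1 h2
        rw [h1, h2]⟩
      invFun := fun Z => ⟨Matrix.of (fun i j => (Z i j : A)) + 1, by
        ext i j
        have h2 := congrFun (congrFun (map_one_eq (A := A) π) i) j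
        simp only [Matrix.map_apply] at h2
        have h3 : π (Z i j : A) = 0 := (Z i j).2
        simp only [Matrix.map_apply, Matrix.add_apply, Matrix.of_apply, map_add, h3, zero_add, h2]⟩
      left_inv := fun W => by
        apply Subtype.ext
        ext i j
        simp
      right_inv := fun Z => by
        funext i j
        apply Subtype.ext
        simp }
  let e𝒞 : 𝒞 ≃ (Fin 3 → I) :=
    { toFun := fun c' t => ⟨c'.1 t - c t, by
        rw [hI, RingHom.mem_ker, map_sub, sub_eq_zero, c'.2 t, hc t]⟩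
      invFun := fun z => ⟨fun t => (z t : A) + c t, fun t => by
        have h3 : π (z t : A) = 0 := (z t).2
        rw [map_add, h3, zero_add, hc t]⟩
      left_inv := fun c' => by
        apply Subtype.ext
        funext t
        simp
      right_inv := fun z => by
        funext t
        apply Subtype.ext
        simp }
  set n : ℕ := Nat.card I with hn
  have hnpos : 0 < n := Nat.card_pos
  have hcard𝒲 : Nat.card 𝒲 = n ^ 4 := by
    rw [Nat.card_congr e𝒲, Nat.card_fun, Nat.card_fun, Nat.card_eq_fintype_card (α := Fin 2),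
      Fintype.card_fin, ← pow_mul]
  have hcard𝒞 : Nat.card 𝒞 = n ^ 3 := by
    rw [Nat.card_congr e𝒞, Nat.card_fun, Nat.card_eq_fintype_card (α := Fin 3),
      Fintype.card_fin]
  -- the coordinate map
  let F : 𝒲 → 𝒞 := fun W => ⟨fun t => (W.1 * R t * W.1⁻¹) (iN t) (jN t), fun t => by
    have h1 : (W.1 * R t * W.1⁻¹).map π = M t := by
      rw [Matrix.map_mul, Matrix.map_mul, W.2, map_inv_eq_one π hπ W.2, hR t, Matrix.one_mul,
        Matrix.mul_one]
    have h2 := congrFun (congrFun h1 (iN t)) (jN t)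
    simpa only [Matrix.map_apply] using h2⟩
  -- fibres are small
  have hfib : ∀ W₁ W₂ : 𝒲, F W₁ = F W₂ → W₂.1 = (W₂.1 * W₁.1⁻¹) 0 0 • W₁.1 := by
    intro W₁ W₂ h12
    have hd₁ := isUnit_det_of_map_eq_one π hπ W₁.2
    have hd₂ := isUnit_det_of_map_eq_one π hπ W₂.2
    have key := wp6 M iN jN hker π hπ (fun t => W₁.1 * R t * W₁.1⁻¹)
      (fun t => W₂.1 * R t * W₂.1⁻¹)
      (fun t => by
        rw [Matrix.map_mul, Matrix.map_mul, W₁.2, map_inv_eq_one π hπ W₁.2, hR t,
          Matrix.one_mul, Matrix.mul_one])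
      (fun t => by
        rw [Matrix.map_mul, Matrix.map_mul, W₂.2, map_inv_eq_one π hπ W₂.2, hR t,
          Matrix.one_mul, Matrix.mul_one])
      (fun t => congrFun (congrArg Subtype.val h12) t)
      (W₂.1 * W₁.1⁻¹)
      (fun t => by
        have e1 : W₁.1⁻¹ * W₁.1 = 1 := Matrix.nonsing_inv_mul _ hd₁
        have e2 : W₂.1⁻¹ * W₂.1 = 1 := Matrix.nonsing_inv_mul _ hd₂
        calc W₂.1 * W₁.1⁻¹ * (W₁.1 * R t * W₁.1⁻¹)
            = W₂.1 * (W₁.1⁻¹ * W₁.1) * R t * W₁.1⁻¹ := by simp only [Matrix.mul_assoc]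
          _ = W₂.1 * R t * (W₂.1⁻¹ * W₂.1) * W₁.1⁻¹ := by
              rw [e1, e2, Matrix.mul_one, Matrix.mul_one]
          _ = W₂.1 * R t * W₂.1⁻¹ * (W₂.1 * W₁.1⁻¹) := by simp only [Matrix.mul_assoc])
    have e1 : W₁.1⁻¹ * W₁.1 = 1 := Matrix.nonsing_inv_mul _ hd₁
    calc W₂.1 = W₂.1 * W₁.1⁻¹ * W₁.1 := by rw [Matrix.mul_assoc, e1, Matrix.mul_one]
      _ = ((W₂.1 * W₁.1⁻¹) 0 0 • (1 : Matrix (Fin 2) (Fin 2) A)) * W₁.1 := by rw [← key]
      _ = (W₂.1 * W₁.1⁻¹) 0 0 • W₁.1 := by rw [Matrix.smul_mul, Matrix.one_mul]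
  -- surjectivity of `F` by counting
  have hsurj : Function.Surjective F := by
    let _ : Fintype 𝒲 := Fintype.ofFinite 𝒲
    let _ : Fintype 𝒞 := Fintype.ofFinite 𝒞
    let _ : Fintype I := Fintype.ofFinite I
    have hbound : ∀ b ∈ (Finset.univ : Finset 𝒲).image F,
        ((Finset.univ : Finset 𝒲).filter (fun a => F a = b)).card ≤ n := by
      intro b hb
      obtain ⟨W₁, -, rfl⟩ := Finset.mem_image.mp hb
      rw [hn, Nat.card_eq_fintype_card, ← Finset.card_univ]
      apply Finset.card_le_card_of_injOn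
        (fun W₂ : 𝒲 => (⟨(W₂.1 * W₁.1⁻¹) 0 0 - 1, by
          rw [hI, RingHom.mem_ker, map_sub, sub_eq_zero, map_one]
          have h1 := map_mul_eq_one π W₂.2 (map_inv_eq_one π hπ W₁.2)
          have h2 := congrFun (congrFun h1 0) 0
          simpa only [Matrix.map_apply, Matrix.one_apply_eq] using h2⟩ : I))
      · intro _ _
        exact Finset.mem_coe.mpr (Finset.mem_univ _)
      · intro W₂ hW₂ W₃ hW₃ h23
        have h2 : F W₁ = F W₂ := ((Finset.mem_filter.mp (Finset.mem_coe.mp hW₂)).2).symm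
        have h3 : F W₁ = F W₃ := ((Finset.mem_filter.mp (Finset.mem_coe.mp hW₃)).2).symm
        have e2 := hfib W₁ W₂ h2
        have e3 := hfib W₁ W₃ h3
        have h23' : (W₂.1 * W₁.1⁻¹) 0 0 = (W₃.1 * W₁.1⁻¹) 0 0 := by
          have := congrArg Subtype.val h23
          simpa using this
        apply Subtype.ext
        rw [e2, e3, h23']
    have h1 := Finset.card_le_mul_card_image (f := F) (Finset.univ : Finset 𝒲) n hbound
    have h2 : (Finset.univ : Finset 𝒲).card = n ^ 4 := by
      rw [Finset.card_univ, ← Nat.card_eq_fintype_card, hcard𝒲]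
    have h3 : (Finset.univ : Finset 𝒞).card = n ^ 3 := by
      rw [Finset.card_univ, ← Nat.card_eq_fintype_card, hcard𝒞]
    have h4 : n ^ 3 ≤ ((Finset.univ : Finset 𝒲).image F).card := by
      rw [h2] at h1
      have : n * n ^ 3 ≤ n * ((Finset.univ : Finset 𝒲).image F).card := by
        calc n * n ^ 3 = n ^ 4 := by ring
          _ ≤ _ := h1
      exact Nat.le_of_mul_le_mul_left this hnpos
    have h5 : (Finset.univ : Finset 𝒲).image F = Finset.univ := by
      apply Finset.eq_univ_of_card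
      apply le_antisymm (Finset.card_le_univ _)
      rw [← Finset.card_univ, h3]
      exact h4
    intro b
    have hb : b ∈ (Finset.univ : Finset 𝒲).image F := by rw [h5]; exact Finset.mem_univ b
    obtain ⟨W, -, hW⟩ := Finset.mem_image.mp hb
    exact ⟨W, hW⟩
  -- conclude, normalising the `(0,0)` entry
  obtain ⟨W₀, hW₀⟩ := hsurj ⟨c, hc⟩
  have hd₀ := isUnit_det_of_map_eq_one π hπ W₀.2
  have h00 : π (W₀.1 0 0) = 1 := by
    have h2 := congrFun (congrFun W₀.2 0) 0
    simpa only [Matrix.map_apply, Matrix.one_apply_eq] using h2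
  have hu : IsUnit (W₀.1 0 0) := isUnit_of_map_ne_zero π hπ (by rw [h00]; exact one_ne_zero)
  obtain ⟨u, hu'⟩ := hu
  have hπu : π (u⁻¹ : Aˣ) = 1 := by
    have : π (u⁻¹ : Aˣ) * π (u : A) = 1 := by
      rw [← map_mul, Units.inv_mul, map_one]
    rwa [hu', h00, mul_one] at this
  refine ⟨(u⁻¹ : Aˣ) • W₀.1, (u : A) • W₀.1⁻¹, ?_, ?_, ?_, ?_, ?_⟩
  · ext i j
    have h2 := congrFun (congrFun W₀.2 i) j
    simp only [Matrix.map_apply] at h2
    simp only [Matrix.map_apply, Matrix.smul_apply, Units.smul_def, smul_eq_mul, map_mul, hπu,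
      one_mul, h2]
  · simp only [Matrix.smul_apply, Units.smul_def, smul_eq_mul, ← hu', Units.inv_mul]
  · rw [Units.smul_def, Matrix.smul_mul, Matrix.mul_smul, smul_smul, Units.inv_mul, one_smul,
      Matrix.mul_nonsing_inv _ hd₀]
  · rw [Units.smul_def, Matrix.smul_mul, Matrix.mul_smul, smul_smul, Units.mul_inv, one_smul,
      Matrix.nonsing_inv_mul _ hd₀]
  · intro t
    have := congrFun (congrArg Subtype.val hW₀) t
    simp only [F] at this
    rw [Units.smul_def, Matrix.smul_mul, Matrix.smul_mul, Matrix.mul_smul, smul_smul,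
      Units.inv_mul, one_smul]
    exact this

end Fermat.Agent.S53.helper68
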